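import Mathlib
import Fermat.Prelude.Def_GaloisRep_Residual

/-!
Burnside's theorem for absolutely irreducible two-dimensional residual representations, and the
resulting group-algebra elements hitting the matrix units `E11`, `E21`.
-/

set_option autoImplicit false

namespace Fermat.Agent.S53

section Burnside

variable {K V : Type*} [Field K] [IsAlgClosed K] [AddCommGroup V] [Module K V]
  [FiniteDimensional K V]

/-- Burnside: a subalgebra of `End_K V` acting irreducibly on a nonzero finite-dimensional space
over an algebraically closed field is everything. -/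
theorem subalgebra_eq_top_of_simple (S : Subalgebra K (Module.End K V)) [IsSimpleModule S V] :
    S = ⊤ := by
  have hbij := IsSimpleModule.algebraMap_end_bijective_of_isAlgClosed (A := S) (V := V) K
  have : Module.Finite (Module.End S V) V := by
    apply Module.Finite.of_restrictScalars_finite K
  rw [eq_top_iff]
  intro f _
  let F : Module.End (Module.End S V) V :=
    { toFun := fun v => f v
      map_add' := fun v w => map_add f v w
      map_smul' := fun φ v => by
        obtain ⟨c, rfl⟩ := hbij.2 φ
        simp only [RingHom.id_apply]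
        show f ((algebraMap K (Module.End S V) c) v) = (algebraMap K (Module.End S V) c) (f v)
        rw [Module.algebraMap_end_apply, Module.algebraMap_end_apply, map_smul] }
  obtain ⟨s, hs⟩ := Module.Finite.toModuleEnd_moduleEnd_surjective (R := S) (M := V) F
  have : (s : Module.End K V) = f := by
    ext v
    have := congrArg (fun g : Module.End (Module.End S V) V => g v) hs
    exact this
  rw [← this]
  exact s.2

/-- Burnside for a monoid representation, with irreducibility stated via invariant subspaces. -/
theorem span_range_eq_top_of_irreducible {G : Type*} [Monoid G] (ρ : G →* Module.End K V)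
    [Nontrivial V]
    (hirr : ∀ W : Submodule K V, (∀ g, ∀ x ∈ W, ρ g x ∈ W) → W = ⊥ ∨ W = ⊤) :
    Submodule.span K (Set.range ρ) = ⊤ := by
  set S : Subalgebra K (Module.End K V) := Algebra.adjoin K (Set.range ρ) with hS
  have hmem : ∀ g, ρ g ∈ S := fun g => Algebra.subset_adjoin ⟨g, rfl⟩
  have : IsSimpleModule S V := by
    rw [isSimpleModule_iff]
    refine ⟨fun W' => ?_⟩
    have hW := hirr (W'.restrictScalars K) (fun g x hx => by
      have : (⟨ρ g, hmem g⟩ : S) • x ∈ W' := W'.smul_mem _ hx
      exact this)
    rcases hW with h | h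
    · left
      apply Submodule.restrictScalars_injective K
      rw [h]; rfl
    · right
      apply Submodule.restrictScalars_injective K
      rw [h]; rfl
  have htop := subalgebra_eq_top_of_simple S
  have h2 := congrArg Subalgebra.toSubmodule htop
  rw [hS, Algebra.adjoin_eq_span] at h2
  have hcl : (Submonoid.closure (Set.range ρ) : Set (Module.End K V)) = Set.range ρ := by
    rw [← MonoidHom.coe_mrange, Submonoid.closure_eq]
  rw [hcl] at h2
  simpa using h2

end Burnside

section Descent

variable {k K : Type*} [Field k] [Field K] [Algebra k K] {n : Type*} [Fintype n] [DecidableEq n]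

/-- If the scalar extensions of a set of matrices span over the big field, the set spans over the
small field. -/
theorem span_eq_top_of_span_map_eq_top (S : Set (Matrix n n k))
    (h : Submodule.span K ((fun m : Matrix n n k => m.map (algebraMap k K)) '' S) = ⊤) :
    Submodule.span k S = ⊤ := by
  by_contra hne
  obtain ⟨f, hf0, hf⟩ := Submodule.exists_le_ker_of_lt_top _ (lt_top_iff_ne_top.mpr hne)
  -- the extended functional
  let fK : Matrix n n K →ₗ[K] K :=
    { toFun := fun M => ∑ i, ∑ j, algebraMap k K (f (Matrix.single i j 1)) * M i j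
      map_add' := fun M M' => by
        simp only [Matrix.add_apply, mul_add, Finset.sum_add_distrib]
      map_smul' := fun c M => by
        simp only [Matrix.smul_apply, smul_eq_mul, RingHom.id_apply, Finset.mul_sum]
        refine Finset.sum_congr rfl fun i _ => Finset.sum_congr rfl fun j _ => ?_
        ring }
  have hfK : ∀ m : Matrix n n k, fK (m.map (algebraMap k K)) = algebraMap k K (f m) := by
    intro m
    show ∑ i, ∑ j, algebraMap k K (f (Matrix.single i j 1)) * (m.map (algebraMap k K)) i j = _
    conv_rhs => rw [Matrix.matrix_eq_sum_single m]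
    simp only [map_sum, Matrix.map_apply]
    refine Finset.sum_congr rfl fun i _ => Finset.sum_congr rfl fun j _ => ?_
    have : Matrix.single i j (m i j) = m i j • Matrix.single i j (1 : k) := by
      rw [Matrix.smul_single, smul_eq_mul, mul_one]
    rw [this, map_smul, smul_eq_mul, map_mul, mul_comm]
  have hker : (⊤ : Submodule K (Matrix n n K)) ≤ LinearMap.ker fK := by
    rw [← h, Submodule.span_le]
    rintro _ ⟨m, hm, rfl⟩
    have : f m = 0 := hf (Submodule.subset_span hm)
    show fK _ = 0
    rw [hfK, this, map_zero]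
  apply hf0
  apply LinearMap.ext
  intro m
  have := hker (Submodule.mem_top (x := m.map (algebraMap k K)))
  rw [LinearMap.mem_ker, hfK] at this
  simpa using this

end Descent

section GroupAlgEval

variable {𝒪 A B G : Type*} [CommRing 𝒪] [CommRing A] [Algebra 𝒪 A] [CommRing B] [Algebra 𝒪 B]
  {n : Type*}

/-- Evaluate a formal `𝒪`-linear combination of group elements on a matrix-valued function. -/
noncomputable def gaEval (r : G → Matrix n n A) (x : G →₀ 𝒪) : Matrix n n A :=
  x.sum fun g c => algebraMap 𝒪 A c • r g

theorem gaEval_map (φ : A →ₐ[𝒪] B) (r : G → Matrix n n A) (x : G →₀ 𝒪) :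
    (gaEval r x).map φ = gaEval (fun g => (r g).map φ) x := by
  unfold gaEval Finsupp.sum
  have hadd : ∀ (s : Finset G) (F : G → Matrix n n A),
      (∑ g ∈ s, F g).map φ = ∑ g ∈ s, (F g).map φ := by
    intro s F
    exact map_sum ((φ : A →+ B).mapMatrix : Matrix n n A →+ Matrix n n B) F s
  rw [hadd]
  refine Finset.sum_congr rfl fun g _ => ?_
  ext i j
  show φ ((algebraMap 𝒪 A (x g) • r g) i j) = (algebraMap 𝒪 B (x g) • (r g).map φ) i j
  rw [Matrix.smul_apply, Matrix.smul_apply, Matrix.map_apply, smul_eq_mul,
    smul_eq_mul, map_mul, AlgHom.commutes]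

theorem gaEval_intertwine [Fintype n] (r r' : G → Matrix n n A) (P : Matrix n n A)
    (h : ∀ g, P * r g = r' g * P) (x : G →₀ 𝒪) :
    P * gaEval r x = gaEval r' x * P := by
  unfold gaEval Finsupp.sum
  rw [Finset.mul_sum, Finset.sum_mul]
  refine Finset.sum_congr rfl fun g _ => ?_
  rw [Matrix.mul_smul, Matrix.smul_mul, h]

/-- Lift a finitely supported family of coefficients along a surjection. -/
theorem exists_gaEval_eq_of_mem_span {k : Type*} [Field k] [Algebra 𝒪 k]
    (hsurj : Function.Surjective (algebraMap 𝒪 k)) (r : G → Matrix n n k) (M : Matrix n n k)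
    (hM : M ∈ Submodule.span k (Set.range r)) :
    ∃ x : G →₀ 𝒪, gaEval r x = M := by
  obtain ⟨c, hc⟩ := (Finsupp.mem_span_range_iff_exists_finsupp).mp hM
  classical
  let s : k → 𝒪 := fun a => if a = 0 then 0 else Function.surjInv hsurj a
  have hs0 : s 0 = 0 := if_pos rfl
  have hs : ∀ a, algebraMap 𝒪 k (s a) = a := by
    intro a
    by_cases ha : a = 0
    · simp [s, ha]
    · simp only [s, if_neg ha]; exact Function.surjInv_eq hsurj a
  refine ⟨c.mapRange s hs0, ?_⟩
  rw [← hc]
  unfold gaEval
  rw [Finsupp.sum_mapRange_index (by intro g; simp)]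
  refine Finsupp.sum_congr fun g _ => ?_
  rw [hs]

end GroupAlgEval

section Residual

open scoped TensorProduct

local notation "Γℚ" => (AlgebraicClosure ℚ ≃ₐ[ℚ] AlgebraicClosure ℚ)

variable {k : Type} [Field k]

/-- The matrix form of a residual representation with respect to a basis. -/
noncomputable def resMat (ρbar : ResidualGaloisRep k) (b : Module.Basis (Fin 2) k ρbar.V) :
    Γℚ →* Matrix (Fin 2) (Fin 2) k :=
  ((LinearMap.toMatrixAlgEquiv b : Module.End k ρbar.V ≃ₐ[k] Matrix (Fin 2) (Fin 2) k) :
    Module.End k ρbar.V →* Matrix (Fin 2) (Fin 2) k).comp ρbar.ρ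

theorem resMat_apply (ρbar : ResidualGaloisRep k) (b : Module.Basis (Fin 2) k ρbar.V) (σ : Γℚ) :
    resMat ρbar b σ = LinearMap.toMatrix b b (ρbar.ρ σ) := rfl

/-- Burnside for absolutely irreducible residual representations, in matrix form. -/
theorem span_range_resMat_eq_top (ρbar : ResidualGaloisRep k) (habs : ρbar.IsAbsolutelyIrreducible)
    (b : Module.Basis (Fin 2) k ρbar.V) :
    Submodule.span k (Set.range (resMat ρbar b)) = ⊤ := by
  set K := AlgebraicClosure k with hK
  apply span_eq_top_of_span_map_eq_top (K := K)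
  set ρK := ρbar.baseChange K with hρK
  have hnt : Nontrivial ρK.V := by
    apply Module.nontrivial_of_finrank_pos (R := K)
    rw [ρK.finrank_eq]; norm_num
  have hspan := span_range_eq_top_of_irreducible (K := K) ρK.ρ habs
  -- transport along the matrix algebra equivalence
  let bK : Module.Basis (Fin 2) K ρK.V := Algebra.TensorProduct.basis K b
  let e : Module.End K ρK.V ≃ₗ[K] Matrix (Fin 2) (Fin 2) K := LinearMap.toMatrix bK bK
  have h2 := congrArg (Submodule.map (e : Module.End K ρK.V →ₗ[K] Matrix (Fin 2) (Fin 2) K)) hspan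
  rw [Submodule.map_span, Submodule.map_top, LinearMap.range_eq_top.mpr e.surjective] at h2
  rw [← h2]
  congr 1
  ext M
  constructor
  · rintro ⟨_, ⟨σ, rfl⟩, rfl⟩
    refine ⟨_, ⟨σ, rfl⟩, ?_⟩
    show LinearMap.toMatrix bK bK ((ρbar.ρ σ).baseChange K) = _
    rw [LinearMap.toMatrix_baseChange]
    rfl
  · rintro ⟨_, ⟨σ, rfl⟩, rfl⟩
    refine ⟨_, ⟨σ, rfl⟩, ?_⟩
    show _ = LinearMap.toMatrix bK bK ((ρbar.ρ σ).baseChange K)
    rw [LinearMap.toMatrix_baseChange]
    rfl


/-- Group-algebra elements over `𝒪` acting as the matrix units `E11` and `E21` on an absolutely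
irreducible residual representation. -/
theorem exists_rigidifying_elements {𝒪 : Type} [CommRing 𝒪] [IsLocalRing 𝒪]
    (ρbar : ResidualGaloisRep (IsLocalRing.ResidueField 𝒪)) (habs : ρbar.IsAbsolutelyIrreducible)
    (b : Module.Basis (Fin 2) (IsLocalRing.ResidueField 𝒪) ρbar.V) :
    ∃ x11 x21 : Γℚ →₀ 𝒪,
      gaEval (resMat ρbar b) x11 = Matrix.single 0 0 1 ∧
      gaEval (resMat ρbar b) x21 = Matrix.single 1 0 1 := by
  have hsurj : Function.Surjective (algebraMap 𝒪 (IsLocalRing.ResidueField 𝒪)) :=
    IsLocalRing.residue_surjective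
  have htop := span_range_resMat_eq_top ρbar habs b
  obtain ⟨x11, h11⟩ := exists_gaEval_eq_of_mem_span hsurj (resMat ρbar b) (Matrix.single 0 0 1)
    (htop ▸ Submodule.mem_top)
  obtain ⟨x21, h21⟩ := exists_gaEval_eq_of_mem_span hsurj (resMat ρbar b) (Matrix.single 1 0 1)
    (htop ▸ Submodule.mem_top)
  exact ⟨x11, x21, h11, h21⟩

end Residual

end Fermat.Agent.S53
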