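import Mathlib

/-!
Rigidification of 2x2 matrix pairs over a local ring.

Given `M ≡ E11` and `N ≡ E21` modulo the maximal ideal, there is a change of basis `P ≡ 1`
making `(M, N)` normalized (`e1` an eigenvector of `M`, `N e1 = e2`), and any intertwiner between
two normalized pairs is a scalar matrix.
-/

set_option autoImplicit false

namespace Fermat.Agent.S53

open IsLocalRing Matrix

variable {A : Type*} [CommRing A]

/-- `M` is congruent to the matrix unit `E11` modulo the ideal `I`. -/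
def CongE11 (I : Ideal A) (M : Matrix (Fin 2) (Fin 2) A) : Prop :=
  M 0 0 - 1 ∈ I ∧ M 0 1 ∈ I ∧ M 1 0 ∈ I ∧ M 1 1 ∈ I

/-- `N` is congruent to the matrix unit `E21` modulo the ideal `I`. -/
def CongE21 (I : Ideal A) (N : Matrix (Fin 2) (Fin 2) A) : Prop :=
  N 0 0 ∈ I ∧ N 0 1 ∈ I ∧ N 1 0 - 1 ∈ I ∧ N 1 1 ∈ I

/-- `P` is congruent to the identity matrix modulo the ideal `I`. -/
def CongOne (I : Ideal A) (P : Matrix (Fin 2) (Fin 2) A) : Prop :=
  P 0 0 - 1 ∈ I ∧ P 0 1 ∈ I ∧ P 1 0 ∈ I ∧ P 1 1 - 1 ∈ I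

/-- The pair `(M, N)` is normalized: `e1` is an eigenvector of `M` and `N e1 = e2`. -/
def IsNormalizedPair (M N : Matrix (Fin 2) (Fin 2) A) : Prop :=
  M 1 0 = 0 ∧ N 0 0 = 0 ∧ N 1 0 = 1

/-- The quadratic Hensel property we need: a root near `1` of `X^2 - t X + d` when
`t ≡ 1` and `d ≡ 0`. -/
def HasQuadraticHensel (A : Type*) [CommRing A] [IsLocalRing A] : Prop :=
  ∀ t d : A, t - 1 ∈ maximalIdeal A → d ∈ maximalIdeal A →
    ∃ α : A, α * α - t * α + d = 0 ∧ α - 1 ∈ maximalIdeal A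

theorem hasQuadraticHensel_of_henselian (A : Type*) [CommRing A] [HenselianLocalRing A] :
    HasQuadraticHensel A := by
  intro t d ht hd
  open Polynomial in
  have key := HenselianLocalRing.is_henselian (R := A)
    (X ^ 2 - C t * X + C d) (by monicity!) 1 (by
      have : (1 : A) ^ 2 - t * 1 + d = -(t - 1) + d := by ring
      simp only [eval_add, eval_sub, eval_pow, eval_X, eval_mul, eval_C]
      rw [this]
      exact Ideal.add_mem _ (Ideal.neg_mem_iff _ |>.mpr ht) hd) (by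
      simp only [derivative_add, derivative_sub, derivative_X_pow, derivative_mul, derivative_C,
        derivative_X, eval_add, eval_sub, eval_mul, eval_C, eval_X, eval_pow, eval_zero,
        eval_one]
      have : ((2 : ℕ) : A) * 1 ^ (2 - 1) - (0 * 1 + t * 1) + 0 = 1 - (t - 1) := by push_cast; ring
      rw [this]
      have h1 : (t - 1) ∈ nonunits A := (IsLocalRing.mem_maximalIdeal _).mp ht
      have := IsLocalRing.isUnit_one_sub_self_of_mem_nonunits _ h1
      exact this)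
  obtain ⟨α, hα, hα1⟩ := key
  refine ⟨α, ?_, hα1⟩
  open Polynomial in
  simp only [IsRoot.def, eval_add, eval_sub, eval_pow, eval_X, eval_mul, eval_C] at hα
  rw [← hα]; ring


section Exists

theorem inv_two_by_two (a b c e w : A) (h : (a * e - b * c) * w = 1) :
    (!![a, b; c, e] : Matrix (Fin 2) (Fin 2) A) * !![w * e, -(w * b); -(w * c), w * a] = 1 ∧
    (!![w * e, -(w * b); -(w * c), w * a] : Matrix (Fin 2) (Fin 2) A) * !![a, b; c, e] = 1 := by
  constructor
  · ext i j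
    fin_cases i <;> fin_cases j <;>
      simp [Matrix.mul_apply, Fin.sum_univ_two] <;> first | linear_combination h | ring
  · ext i j
    fin_cases i <;> fin_cases j <;>
      simp [Matrix.mul_apply, Fin.sum_univ_two] <;> first | linear_combination h | ring

/-- If the first column of `M * P` is `α` times the first column of `P`, and `Q * P = 1`, then
the first column of `Q * M * P` is `α e1`. -/
theorem conj_col_zero_of_eigen (M P Q : Matrix (Fin 2) (Fin 2) A) (α : A) (hQP : Q * P = 1)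
    (h : ∀ i, (M * P) i 0 = α * P i 0) (i : Fin 2) :
    (Q * M * P) i 0 = α * (1 : Matrix (Fin 2) (Fin 2) A) i 0 := by
  rw [Matrix.mul_assoc, Matrix.mul_apply]
  simp only [h]
  rw [← hQP, Matrix.mul_apply, Finset.mul_sum]
  refine Finset.sum_congr rfl fun j _ => ?_
  ring

/-- If the first column of `N * P` is the second column of `P`, and `Q * P = 1`, then
the first column of `Q * N * P` is `e2`. -/
theorem conj_col_zero_of_shift (N P Q : Matrix (Fin 2) (Fin 2) A) (hQP : Q * P = 1)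
    (h : ∀ i, (N * P) i 0 = P i 1) (i : Fin 2) :
    (Q * N * P) i 0 = (1 : Matrix (Fin 2) (Fin 2) A) i 1 := by
  rw [Matrix.mul_assoc, Matrix.mul_apply]
  simp only [h]
  rw [← hQP, Matrix.mul_apply]

variable [IsLocalRing A]

theorem isUnit_of_sub_one_mem {x : A} (h : x - 1 ∈ maximalIdeal A) : IsUnit x := by
  have h1 : IsUnit (1 - (1 - x)) := IsLocalRing.isUnit_one_sub_self_of_mem_nonunits _
    ((IsLocalRing.mem_maximalIdeal _).mp (by
      have : 1 - x = -(x - 1) := by ring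
      rw [this]; exact (maximalIdeal A).neg_mem h))
  simpa using h1

/-- Existence of a normalizing change of basis. -/
theorem exists_normalizing (hH : HasQuadraticHensel A) (M N : Matrix (Fin 2) (Fin 2) A)
    (hM : CongE11 (maximalIdeal A) M) (hN : CongE21 (maximalIdeal A) N) :
    ∃ P Q : Matrix (Fin 2) (Fin 2) A, P * Q = 1 ∧ Q * P = 1 ∧ CongOne (maximalIdeal A) P ∧
      IsNormalizedPair (Q * M * P) (Q * N * P) := by
  obtain ⟨h00, h01, h10, h11⟩ := hM
  obtain ⟨n00, n01, n10, n11⟩ := hN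
  obtain ⟨m, hm⟩ : ∃ m, m = maximalIdeal A := ⟨_, rfl⟩
  rw [← hm] at h00 h01 h10 h11 n00 n01 n10 n11
  -- trace and determinant
  obtain ⟨t, ht⟩ : ∃ t, t = M 0 0 + M 1 1 := ⟨_, rfl⟩
  obtain ⟨d, hd⟩ : ∃ d, d = M 0 0 * M 1 1 - M 0 1 * M 1 0 := ⟨_, rfl⟩
  have ht1 : t - 1 ∈ m := by
    have : t - 1 = (M 0 0 - 1) + M 1 1 := by rw [ht]; ring
    rw [this]; exact m.add_mem h00 h11
  have hdm : d ∈ m := by
    rw [hd]; exact m.sub_mem (m.mul_mem_left _ h11) (m.mul_mem_left _ h10)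
  obtain ⟨α, hα, hα1⟩ := hH t d (hm ▸ ht1) (hm ▸ hdm)
  rw [← hm] at hα1
  obtain ⟨β, hβ⟩ : ∃ β, β = t - α := ⟨_, rfl⟩
  have hβm : β ∈ m := by
    have : β = (t - 1) - (α - 1) := by rw [hβ]; ring
    rw [this]; exact m.sub_mem ht1 hα1
  -- first basis vector v1 = (M - β) e1, second basis vector v2 = N v1
  obtain ⟨a, ha⟩ : ∃ a, a = M 0 0 - β := ⟨_, rfl⟩
  obtain ⟨c, hc⟩ : ∃ c, c = M 1 0 := ⟨_, rfl⟩
  obtain ⟨b, hb⟩ : ∃ b, b = N 0 0 * a + N 0 1 * c := ⟨_, rfl⟩
  obtain ⟨e, he⟩ : ∃ e, e = N 1 0 * a + N 1 1 * c := ⟨_, rfl⟩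
  have ha1 : a - 1 ∈ m := by
    have : a - 1 = (M 0 0 - 1) - β := by rw [ha]; ring
    rw [this]; exact m.sub_mem h00 hβm
  have hcm : c ∈ m := hc ▸ h10
  have hbm : b ∈ m := by
    rw [hb]; exact m.add_mem (m.mul_mem_right _ n00) (m.mul_mem_right _ n01)
  have he1 : e - 1 ∈ m := by
    have : e - 1 = (N 1 0 - 1) * a + (a - 1) + N 1 1 * c := by rw [he]; ring
    rw [this]; exact m.add_mem (m.add_mem (m.mul_mem_right _ n10) ha1) (m.mul_mem_right _ n11)
  -- determinant of P is a unit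
  have hD1 : (a * e - b * c) - 1 ∈ m := by
    have : (a * e - b * c) - 1 = (a - 1) * e + (e - 1) - b * c := by ring
    rw [this]; exact m.sub_mem (m.add_mem (m.mul_mem_right _ ha1) he1) (m.mul_mem_right _ hbm)
  obtain ⟨u, hu⟩ := isUnit_of_sub_one_mem (hm ▸ hD1)
  have huD : (a * e - b * c) * (↑u⁻¹ : A) = 1 := by rw [← hu]; exact u.mul_inv
  obtain ⟨w, hw⟩ : ∃ w : A, w = ↑u⁻¹ := ⟨_, rfl⟩
  rw [← hw] at huD
  obtain ⟨hPQ, hQP⟩ := inv_two_by_two a b c e w huD
  refine ⟨!![a, b; c, e], !![w * e, -(w * b); -(w * c), w * a], hPQ, hQP, ?_, ?_⟩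
  · subst hm
    exact ⟨ha1, hbm, hcm, he1⟩
  · have hcol : ∀ i, (M * !![a, b; c, e]) i 0 = α * (!![a, b; c, e] : Matrix (Fin 2) (Fin 2) A) i 0 := by
      intro i
      fin_cases i
      · simp [Matrix.mul_apply, Fin.sum_univ_two]
        rw [ha, hc, hβ]
        linear_combination (-1 : A) * hα + hd - M 0 0 * ht
      · simp [Matrix.mul_apply, Fin.sum_univ_two]
        rw [ha, hc, hβ]
        linear_combination (-(M 1 0)) * ht
    have hcolN : ∀ i, (N * !![a, b; c, e]) i 0 = (!![a, b; c, e] : Matrix (Fin 2) (Fin 2) A) i 1 := by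
      intro i
      fin_cases i
      · simp [Matrix.mul_apply, Fin.sum_univ_two, hb]
      · simp [Matrix.mul_apply, Fin.sum_univ_two, he]
    refine ⟨?_, ?_, ?_⟩
    · rw [conj_col_zero_of_eigen M _ _ α hQP hcol 1]; simp
    · rw [conj_col_zero_of_shift N _ _ hQP hcolN 0]; simp
    · rw [conj_col_zero_of_shift N _ _ hQP hcolN 1]; simp

end Exists


section Unique

/-- Any intertwiner between two normalized pairs is a scalar matrix. -/
theorem scalar_of_intertwines (M M' N N' P : Matrix (Fin 2) (Fin 2) A)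
    (hM : M 1 0 = 0) (hM' : M' 1 0 = 0) (hu : IsUnit (M 0 0 - M' 1 1))
    (hN : N 0 0 = 0 ∧ N 1 0 = 1) (hN' : N' 0 0 = 0 ∧ N' 1 0 = 1)
    (h1 : P * M = M' * P) (h2 : P * N = N' * P) :
    P 1 0 = 0 ∧ P 0 1 = 0 ∧ P 1 1 = P 0 0 := by
  have e10 := congrFun (congrFun h1 1) 0
  have f00 := congrFun (congrFun h2 0) 0
  have f10 := congrFun (congrFun h2 1) 0
  simp only [Matrix.mul_apply, Fin.sum_univ_two, hM, hM', hN.1, hN.2, hN'.1, hN'.2, mul_zero,
    add_zero, mul_one, zero_mul, zero_add, one_mul] at e10 f00 f10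
  have hP10 : P 1 0 = 0 := by
    have h : P 1 0 * (M 0 0 - M' 1 1) = 0 := by linear_combination e10
    exact (hu.mul_left_eq_zero).mp h
  refine ⟨hP10, ?_, ?_⟩
  · rw [f00, hP10, mul_zero]
  · rw [f10, hP10, mul_zero, add_zero]

/-- Scalar intertwiners with unit scalar force equality. -/
theorem eq_of_scalar_intertwines (X X' P : Matrix (Fin 2) (Fin 2) A)
    (hP : P 1 0 = 0 ∧ P 0 1 = 0 ∧ P 1 1 = P 0 0) (hu : IsUnit (P 0 0))
    (h : P * X = X' * P) : X = X' := by
  have hPs : P = P 0 0 • (1 : Matrix (Fin 2) (Fin 2) A) := by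
    ext i j
    fin_cases i <;> fin_cases j <;> simp [hP.1, hP.2.1, hP.2.2]
  rw [hPs, Matrix.smul_mul, Matrix.mul_smul, Matrix.one_mul, Matrix.mul_one] at h
  ext i j
  have := congrFun (congrFun h i) j
  simp only [Matrix.smul_apply, smul_eq_mul] at this
  exact hu.mul_left_cancel this

end Unique

end Fermat.Agent.S53
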