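import Fermat.Agent.S53.MatrixRep
import Fermat.Agent.S53.Rigidify

/-!
S53 spine: normalized matrix lifts of a residual representation
(existence and uniqueness inside an equivalence class).
-/

set_option autoImplicit false

open scoped TensorProduct

namespace Fermat.Agent.S53

local notation "Γℚ" => (AlgebraicClosure ℚ ≃ₐ[ℚ] AlgebraicClosure ℚ)
local notation "M₂" => Matrix (Fin 2) (Fin 2)

section EvalComb

variable {𝒪 : Type} [CommRing 𝒪]

/-- Evaluation of a formal `𝒪`-linear combination of group elements under a matrix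
representation. -/
noncomputable def evalComb {A : Type} [CommRing A] [Algebra 𝒪 A] (r : Γℚ →* M₂ A)
    (x : Γℚ →₀ 𝒪) : M₂ A :=
  x.sum fun g c => algebraMap 𝒪 A c • r g

lemma evalComb_mapMat {A B : Type} [CommRing A] [CommRing B] [Algebra 𝒪 A] [Algebra 𝒪 B]
    (φ : A →+* B) (hφ : φ.comp (algebraMap 𝒪 A) = algebraMap 𝒪 B) (r : Γℚ →* M₂ A)
    (x : Γℚ →₀ 𝒪) : evalComb (mapMat φ r) x = (evalComb r x).map φ := by
  unfold evalComb
  have h1 : (x.sum fun g c => algebraMap 𝒪 A c • r g).map φ =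
      φ.mapMatrix (x.sum fun g c => algebraMap 𝒪 A c • r g) := rfl
  rw [h1, map_finsuppSum]
  refine Finsupp.sum_congr fun g _ => ?_
  ext i j
  simp only [mapMat_apply, Matrix.smul_apply, Matrix.map_apply, smul_eq_mul,
    RingHom.mapMatrix_apply, map_mul, ← hφ, RingHom.comp_apply]

lemma mul_evalComb_mul {A : Type} [CommRing A] [Algebra 𝒪 A] (r : Γℚ →* M₂ A)
    (Q P : M₂ A) (x : Γℚ →₀ 𝒪) :
    Q * evalComb r x * P = x.sum fun g c => algebraMap 𝒪 A c • (Q * r g * P) := by
  unfold evalComb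
  rw [Finsupp.sum, Finsupp.sum, Matrix.mul_sum, Matrix.sum_mul]
  refine Finset.sum_congr rfl fun g _ => ?_
  rw [Matrix.mul_smul, Matrix.smul_mul]

lemma evalComb_intertwine {A : Type} [CommRing A] [Algebra 𝒪 A] (r r' : Γℚ →* M₂ A)
    (P : M₂ A) (h : ∀ σ, P * r σ = r' σ * P) (x : Γℚ →₀ 𝒪) :
    P * evalComb r x = evalComb r' x * P := by
  unfold evalComb
  rw [Finsupp.sum, Finsupp.sum, Matrix.mul_sum, Matrix.sum_mul]
  refine Finset.sum_congr rfl fun g _ => ?_
  rw [Matrix.mul_smul, Matrix.smul_mul, h g]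

end EvalComb

section Conj

variable {A : Type} [CommRing A]

/-- Conjugate of a matrix representation: `σ ↦ Q * r σ * P` with `P`, `Q` mutually inverse. -/
noncomputable def conjRep (Q P : M₂ A) (hQP : Q * P = 1) (hPQ : P * Q = 1) (r : Γℚ →* M₂ A) :
    Γℚ →* M₂ A where
  toFun σ := Q * r σ * P
  map_one' := by rw [map_one, Matrix.mul_one, hQP]
  map_mul' σ τ := by
    rw [map_mul]
    calc Q * (r σ * r τ) * P = Q * r σ * (1 * (r τ * P)) := by
          rw [Matrix.one_mul]; simp only [Matrix.mul_assoc]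
      _ = Q * r σ * (P * Q * (r τ * P)) := by rw [hPQ]
      _ = Q * r σ * P * (Q * r τ * P) := by simp only [Matrix.mul_assoc]

@[simp] lemma conjRep_apply (Q P : M₂ A) (hQP : Q * P = 1) (hPQ : P * Q = 1) (r : Γℚ →* M₂ A)
    (σ : Γℚ) : conjRep Q P hQP hPQ r σ = Q * r σ * P := rfl

lemma evalComb_conjRep {𝒪 : Type} [CommRing 𝒪] [Algebra 𝒪 A] (Q P : M₂ A) (hQP : Q * P = 1)
    (hPQ : P * Q = 1) (r : Γℚ →* M₂ A) (x : Γℚ →₀ 𝒪) :
    evalComb (conjRep Q P hQP hPQ r) x = Q * evalComb r x * P := by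
  rw [mul_evalComb_mul]
  rfl

lemma conjRep_intertwine (Q P : M₂ A) (hQP : Q * P = 1) (hPQ : P * Q = 1) (r : Γℚ →* M₂ A)
    (σ : Γℚ) : Q * r σ = conjRep Q P hQP hPQ r σ * Q := by
  rw [conjRep_apply, Matrix.mul_assoc, hPQ, Matrix.mul_one]

lemma mapMat_conjRep {B : Type} [CommRing B] (φ : A →+* B) (Q P : M₂ A) (hQP : Q * P = 1)
    (hPQ : P * Q = 1) (r : Γℚ →* M₂ A) :
    mapMat φ (conjRep Q P hQP hPQ r) =
      conjRep (Q.map φ) (P.map φ)
        (by rw [← Matrix.map_mul, hQP, Matrix.map_one _ (map_zero φ) (map_one φ)])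
        (by rw [← Matrix.map_mul, hPQ, Matrix.map_one _ (map_zero φ) (map_one φ)])
        (mapMat φ r) := by
  ext σ : 1
  simp only [mapMat_apply, conjRep_apply, Matrix.map_mul]

variable [IsLocalRing A]

lemma IsMatCont.conjRep {r : Γℚ →* M₂ A} (hr : IsMatCont r) (Q P : M₂ A) (hQP : Q * P = 1)
    (hPQ : P * Q = 1) : IsMatCont (conjRep Q P hQP hPQ r) := by
  intro n
  obtain ⟨L, hL, h⟩ := hr n
  refine ⟨L, hL, fun σ hσ i j => ?_⟩
  have h1 : Fermat.Agent.S53.conjRep Q P hQP hPQ r σ - 1 = Q * (r σ - 1) * P := by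
    rw [conjRep_apply, Matrix.mul_sub, Matrix.sub_mul, Matrix.mul_one, hQP]
  rw [h1, Matrix.mul_apply]
  refine Ideal.sum_mem _ fun a _ => Ideal.mul_mem_right _ _ ?_
  rw [Matrix.mul_apply]
  exact Ideal.sum_mem _ fun b _ => Ideal.mul_mem_left _ _ (h σ hσ b a)

/-- A representation is equivalent to its conjugates. -/
noncomputable def equivConjRep {r : Γℚ →* M₂ A} (hr : IsMatCont r) (Q P : M₂ A)
    (hQP : Q * P = 1) (hPQ : P * Q = 1) :
    (ofMat r hr).Equiv (ofMat (conjRep Q P hQP hPQ r) (hr.conjRep Q P hQP hPQ)) :=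
  equivOfConj hr (hr.conjRep Q P hQP hPQ) ⟨Q, P, hQP, hPQ⟩
    (fun σ => conjRep_intertwine Q P hQP hPQ r σ)

end Conj

section Normalized

open IsLocalRing

variable {𝒪 : Type} [CommRing 𝒪] [IsLocalRing 𝒪]

/-- Rigidification data for a residual representation in matrix form: elements `x11`, `x21`
of the group algebra acting as the matrix units `E11`, `E21`. -/
structure RigidData (𝒪 : Type) [CommRing 𝒪] [IsLocalRing 𝒪] where
  rbar : Γℚ →* M₂ (ResidueField 𝒪)
  hrbar : GaloisFactorsThroughFiniteLevel rbar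
  x11 : Γℚ →₀ 𝒪
  x21 : Γℚ →₀ 𝒪
  h11 : evalComb rbar x11 = !![1, 0; 0, 0]
  h21 : evalComb rbar x21 = !![0, 0; 1, 0]

variable {A : Type} [CommRing A] [IsLocalRing A] [Algebra 𝒪 A] [IsLocalHom (algebraMap 𝒪 A)]

/-- The residual matrix representation base changed to the residue field of `A`. -/
noncomputable def RigidData.rbarAt (D : RigidData 𝒪) (A : Type) [CommRing A] [IsLocalRing A]
    [Algebra 𝒪 A] [IsLocalHom (algebraMap 𝒪 A)] : Γℚ →* M₂ (ResidueField A) :=
  mapMat (ResidueField.map (algebraMap 𝒪 A)) D.rbar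

/-- A normalized lift of `D.rbar` to `A`. -/
structure IsNormalizedLift (D : RigidData 𝒪) (r : Γℚ →* M₂ A) : Prop where
  cont : IsMatCont r
  red : mapMat (residue A) r = D.rbarAt A
  norm : IsNormalizedPair (evalComb r D.x11) (evalComb r D.x21)

lemma map_residue_evalComb (D : RigidData 𝒪) {r : Γℚ →* M₂ A} (hred : mapMat (residue A) r = D.rbarAt A)
    (x : Γℚ →₀ 𝒪) :
    (evalComb r x).map (residue A) =
      (evalComb D.rbar x).map (ResidueField.map (algebraMap 𝒪 A)) := by
  have h1 : evalComb (mapMat (residue A) r) x = (evalComb r x).map (residue A) :=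
    evalComb_mapMat (𝒪 := 𝒪) (residue A) rfl r x
  have h2 : evalComb (mapMat (ResidueField.map (algebraMap 𝒪 A)) D.rbar) x =
      (evalComb D.rbar x).map (ResidueField.map (algebraMap 𝒪 A)) := by
    refine evalComb_mapMat (𝒪 := 𝒪) (ResidueField.map (algebraMap 𝒪 A)) ?_ D.rbar x
    ext a
    exact ResidueField.map_residue (algebraMap 𝒪 A) a
  rw [← h1, hred, RigidData.rbarAt, h2]

lemma congE11_of_map_residue {M : M₂ A} (h : M.map (residue A) = !![1, 0; 0, 0]) :
    CongE11 (maximalIdeal A) M := by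
  have h' : ∀ i j, residue A (M i j) = (!![1, 0; 0, 0] : M₂ (ResidueField A)) i j := fun i j => by
    rw [← h]; rfl
  refine ⟨?_, ?_, ?_, ?_⟩
  · rw [← residue_eq_zero_iff, map_sub, h' 0 0]; simp
  · rw [← residue_eq_zero_iff, h' 0 1]; simp
  · rw [← residue_eq_zero_iff, h' 1 0]; simp
  · rw [← residue_eq_zero_iff, h' 1 1]; simp

lemma congE21_of_map_residue {M : M₂ A} (h : M.map (residue A) = !![0, 0; 1, 0]) :
    CongE21 (maximalIdeal A) M := by
  have h' : ∀ i j, residue A (M i j) = (!![0, 0; 1, 0] : M₂ (ResidueField A)) i j := fun i j => by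
    rw [← h]; rfl
  refine ⟨?_, ?_, ?_, ?_⟩
  · rw [← residue_eq_zero_iff, h' 0 0]; simp
  · rw [← residue_eq_zero_iff, h' 0 1]; simp
  · rw [← residue_eq_zero_iff, map_sub, h' 1 0]; simp
  · rw [← residue_eq_zero_iff, h' 1 1]; simp

lemma map_E11 {R S : Type} [CommRing R] [CommRing S] (φ : R →+* S) :
    (!![1, 0; 0, 0] : M₂ R).map φ = !![1, 0; 0, 0] := by
  ext i j
  fin_cases i <;> fin_cases j <;> simp

lemma map_E21 {R S : Type} [CommRing R] [CommRing S] (φ : R →+* S) :
    (!![0, 0; 1, 0] : M₂ R).map φ = !![0, 0; 1, 0] := by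
  ext i j
  fin_cases i <;> fin_cases j <;> simp

lemma congE11_evalComb (D : RigidData 𝒪) {r : Γℚ →* M₂ A}
    (hred : mapMat (residue A) r = D.rbarAt A) :
    CongE11 (maximalIdeal A) (evalComb r D.x11) :=
  congE11_of_map_residue (by rw [map_residue_evalComb D hred, D.h11, map_E11])

lemma congE21_evalComb (D : RigidData 𝒪) {r : Γℚ →* M₂ A}
    (hred : mapMat (residue A) r = D.rbarAt A) :
    CongE21 (maximalIdeal A) (evalComb r D.x21) :=
  congE21_of_map_residue (by rw [map_residue_evalComb D hred, D.h21, map_E21])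

lemma isNormalizedPair_map {R S : Type} [CommRing R] [CommRing S] (φ : R →+* S) {M N : M₂ R}
    (h : IsNormalizedPair M N) : IsNormalizedPair (M.map φ) (N.map φ) := by
  obtain ⟨h1, h2, h3⟩ := h
  refine ⟨?_, ?_, ?_⟩
  · rw [Matrix.map_apply, h1, map_zero]
  · rw [Matrix.map_apply, h2, map_zero]
  · rw [Matrix.map_apply, h3, map_one]

section Map

variable {B : Type} [CommRing B] [IsLocalRing B] [Algebra 𝒪 B] [IsLocalHom (algebraMap 𝒪 B)]

lemma RigidData.mapMat_rbarAt (D : RigidData 𝒪) (φ : A →ₐ[𝒪] B) [IsLocalHom (φ : A →+* B)] :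
    mapMat (ResidueField.map (φ : A →+* B)) (D.rbarAt A) = D.rbarAt B := by
  rw [RigidData.rbarAt, RigidData.rbarAt, mapMat_comp]
  congr 1
  ext x
  obtain ⟨x, rfl⟩ := residue_surjective x
  simp [ResidueField.map_residue]

/-- Normalized lifts are stable under local algebra homs. -/
theorem IsNormalizedLift.map {D : RigidData 𝒪} {r : Γℚ →* M₂ A} (h : IsNormalizedLift D r)
    (φ : A →ₐ[𝒪] B) (hφ : IsLocalHom (φ : A →+* B)) :
    IsNormalizedLift D (mapMat (φ : A →+* B) r) := by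
  refine ⟨h.cont.map _ hφ, ?_, ?_⟩
  · have := hφ
    rw [mapMat_comp, ← ResidueField.map_comp_residue, ← mapMat_comp, h.red, D.mapMat_rbarAt]
  · have hc : (φ : A →+* B).comp (algebraMap 𝒪 A) = algebraMap 𝒪 B := by
      ext a
      exact φ.commutes a
    rw [evalComb_mapMat _ hc, evalComb_mapMat _ hc]
    exact isNormalizedPair_map _ h.norm

end Map

/-- Two normalized lifts which are conjugate are equal. -/
theorem IsNormalizedLift.eq_of_conj {D : RigidData 𝒪} {r r' : Γℚ →* M₂ A}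
    (h : IsNormalizedLift D r) (h' : IsNormalizedLift D r') (P : GL (Fin 2) A)
    (hP : ∀ σ, (P : M₂ A) * r σ = r' σ * (P : M₂ A)) : r = r' := by
  have hM := congE11_evalComb D h.red
  have hM' := congE11_evalComb D h'.red
  have hu : IsUnit (evalComb r D.x11 0 0 - evalComb r' D.x11 1 1) := by
    apply isUnit_of_sub_one_mem
    have : evalComb r D.x11 0 0 - evalComb r' D.x11 1 1 - 1 =
        (evalComb r D.x11 0 0 - 1) - evalComb r' D.x11 1 1 := by ring
    rw [this]
    exact Ideal.sub_mem _ hM.1 hM'.2.2.2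
  have hsc := scalar_of_intertwines (evalComb r D.x11) (evalComb r' D.x11) (evalComb r D.x21)
    (evalComb r' D.x21) (P : M₂ A) h.norm.1 h'.norm.1 hu h.norm.2 h'.norm.2
    (evalComb_intertwine r r' _ hP D.x11) (evalComb_intertwine r r' _ hP D.x21)
  have hdet : IsUnit ((P : M₂ A) 0 0) := by
    have h1 : IsUnit (P : M₂ A).det := (Matrix.isUnit_iff_isUnit_det _).mp P.isUnit
    rw [Matrix.det_fin_two, hsc.1, hsc.2.2, mul_zero, sub_zero] at h1
    exact isUnit_of_mul_isUnit_left h1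
  ext σ : 1
  exact eq_of_scalar_intertwines (r σ) (r' σ) (P : M₂ A) hsc hdet (hP σ)

/-- Two normalized lifts giving equivalent representations are equal. -/
theorem IsNormalizedLift.eq_of_isEquiv {D : RigidData 𝒪} {r r' : Γℚ →* M₂ A}
    (h : IsNormalizedLift D r) (h' : IsNormalizedLift D r')
    (he : (ofMat r h.cont).IsEquiv (ofMat r' h'.cont)) : r = r' := by
  obtain ⟨P, hP⟩ := (ofMat_isEquiv_iff h.cont h'.cont).mp he
  exact h.eq_of_conj h' P hP

/-- The residual representation of a normalized lift. -/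
noncomputable def IsNormalizedLift.residualEquiv {D : RigidData 𝒪} {r : Γℚ →* M₂ A}
    (h : IsNormalizedLift D r) :
    (ofMat r h.cont).residual.Equiv
      ((ofMatRes D.rbar D.hrbar).baseChangeAlong (ResidueField.map (algebraMap 𝒪 A))) :=
  ((residualOfMatEquiv r h.cont).trans
    (ofMatResCongr (factorsThroughFiniteLevel_residue h.cont)
      (factorsThroughFiniteLevel_mapMat _ D.hrbar) h.red)).trans
    (ofMatResBaseChangeEquiv D.rbar D.hrbar (ResidueField.map (algebraMap 𝒪 A))).symm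

theorem IsNormalizedLift.residual_isEquiv {D : RigidData 𝒪} {r : Γℚ →* M₂ A}
    (h : IsNormalizedLift D r) {ρbar : ResidualGaloisRep (ResidueField 𝒪)}
    (e0 : ρbar.Equiv (ofMatRes D.rbar D.hrbar)) :
    (ofMat r h.cont).residual.IsEquiv
      (ρbar.baseChangeAlong (ResidueField.map (algebraMap 𝒪 A))) :=
  ⟨h.residualEquiv.trans (ResidualGaloisRep.Equiv.baseChangeAlong _ e0).symm⟩

lemma map_residue_eq_one_of_congOne {P : M₂ A} (h : CongOne (maximalIdeal A) P) :
    P.map (residue A) = 1 := by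
  obtain ⟨h00, h01, h10, h11⟩ := h
  rw [← residue_eq_zero_iff, map_sub, map_one, sub_eq_zero] at h00 h11
  rw [← residue_eq_zero_iff] at h01 h10
  ext i j
  fin_cases i <;> fin_cases j <;> simp [h00, h01, h10, h11]

omit [IsLocalRing A] in
lemma mapMat_conjRep_of_map_eq_one {B : Type} [CommRing B] (φ : A →+* B) (Q P : M₂ A)
    (hQP : Q * P = 1) (hPQ : P * Q = 1) (r : Γℚ →* M₂ A) (hP : P.map φ = 1) :
    mapMat φ (conjRep Q P hQP hPQ r) = mapMat φ r := by
  have hQ : Q.map φ = 1 := by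
    have h1 : (Q * P).map φ = 1 := by rw [hQP, Matrix.map_one _ (map_zero φ) (map_one φ)]
    rwa [Matrix.map_mul, hP, Matrix.mul_one] at h1
  ext σ : 1
  simp only [mapMat_apply, conjRep_apply, Matrix.map_mul, hP, hQ, Matrix.mul_one, Matrix.one_mul]

/-- Existence of a normalized lift in every equivalence class of lifts. -/
theorem exists_normalizedLift_equiv (D : RigidData 𝒪) (hH : HasQuadraticHensel A)
    {ρbar : ResidualGaloisRep (ResidueField 𝒪)} (e0 : ρbar.Equiv (ofMatRes D.rbar D.hrbar))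
    (ρA : GaloisRepAdic A)
    (hres : ρA.residual.IsEquiv (ρbar.baseChangeAlong (ResidueField.map (algebraMap 𝒪 A)))) :
    ∃ (r : Γℚ →* M₂ A) (h : IsNormalizedLift D r), ρA.IsEquiv (ofMat r h.cont) := by
  obtain ⟨eres⟩ := hres
  -- step 1: a matrix form
  let b := chosenBasis ρA
  let r0 := toMatOfBasis ρA b
  have hr0 : IsMatCont r0 := isMatCont_toMatOfBasis ρA b
  let E0 : ρA.Equiv (ofMat r0 hr0) := equivOfMatOfBasis ρA b
  -- step 2: residual conjugacy
  have hconj : (ofMatRes (mapMat (residue A) r0) (factorsThroughFiniteLevel_residue hr0)).IsEquiv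
      (ofMatRes (D.rbarAt A) (factorsThroughFiniteLevel_mapMat _ D.hrbar)) :=
    ⟨(((residualOfMatEquiv r0 hr0).symm.trans E0.symm.residual).trans eres).trans
      ((ResidualGaloisRep.Equiv.baseChangeAlong _ e0).trans
        (ofMatResBaseChangeEquiv D.rbar D.hrbar (ResidueField.map (algebraMap 𝒪 A))))⟩
  obtain ⟨Pbar, hPbar⟩ := (ofMatRes_isEquiv_iff _ _).mp hconj
  -- step 3: lift the conjugating matrix
  let P0 : M₂ A := fun i j => (residue_surjective ((Pbar : M₂ (ResidueField A)) i j)).choose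
  have hP0 : P0.map (residue A) = (Pbar : M₂ (ResidueField A)) := by
    ext i j
    exact (residue_surjective ((Pbar : M₂ (ResidueField A)) i j)).choose_spec
  have hdet : IsUnit P0.det := by
    have h1 : residue A P0.det = (Pbar : M₂ (ResidueField A)).det := by
      rw [RingHom.map_det, RingHom.mapMatrix_apply, hP0]
    have h2 : IsUnit (residue A P0.det) := by
      rw [h1]
      exact (Matrix.isUnit_iff_isUnit_det _).mp Pbar.isUnit
    exact (isUnit_map_iff (residue A) _).mp h2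
  have hPQ0 : P0 * P0⁻¹ = 1 := Matrix.mul_nonsing_inv _ hdet
  have hQP0 : P0⁻¹ * P0 = 1 := Matrix.nonsing_inv_mul _ hdet
  -- step 4: exact reduction
  obtain ⟨r1, hr1def⟩ : ∃ r1, r1 = conjRep P0 P0⁻¹ hPQ0 hQP0 r0 := ⟨_, rfl⟩
  have hr1 : IsMatCont r1 := hr1def ▸ hr0.conjRep P0 P0⁻¹ hPQ0 hQP0
  have hred1 : mapMat (residue A) r1 = D.rbarAt A := by
    rw [hr1def]
    ext σ : 1
    have h1 : (P0⁻¹).map (residue A) = ((Pbar⁻¹ : GL (Fin 2) (ResidueField A)) : M₂ _) := by
      have h2 : (Pbar : M₂ (ResidueField A)) * (P0⁻¹).map (residue A) = 1 := by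
        rw [← hP0, ← Matrix.map_mul, hPQ0, Matrix.map_one _ (map_zero _) (map_one _)]
      calc (P0⁻¹).map (residue A)
          = ((Pbar⁻¹ : GL (Fin 2) (ResidueField A)) : M₂ _) *
              ((Pbar : M₂ (ResidueField A)) * (P0⁻¹).map (residue A)) := by
            rw [← Matrix.mul_assoc, ← Units.val_mul, inv_mul_cancel, Units.val_one,
              Matrix.one_mul]
        _ = ((Pbar⁻¹ : GL (Fin 2) (ResidueField A)) : M₂ _) := by rw [h2, Matrix.mul_one]
    show mapMat (residue A) (conjRep P0 P0⁻¹ hPQ0 hQP0 r0) σ = D.rbarAt A σ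
    rw [mapMat_apply, conjRep_apply, Matrix.map_mul, Matrix.map_mul, hP0, h1,
      ← mapMat_apply, hPbar σ, Matrix.mul_assoc, ← Units.val_mul, mul_inv_cancel,
      Units.val_one, Matrix.mul_one]
  -- step 5: normalize
  obtain ⟨P, Q, hPQ, hQP, hP1, hnorm⟩ := exists_normalizing hH (evalComb r1 D.x11)
    (evalComb r1 D.x21) (congE11_evalComb D hred1) (congE21_evalComb D hred1)
  let r2 := conjRep Q P hQP hPQ r1
  have hr2 : IsMatCont r2 := hr1.conjRep Q P hQP hPQ
  have hN : IsNormalizedLift D r2 := by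
    refine ⟨hr2, ?_, ?_⟩
    · rw [← hred1]
      exact mapMat_conjRep_of_map_eq_one (residue A) Q P hQP hPQ r1
        (map_residue_eq_one_of_congOne hP1)
    · show IsNormalizedPair (evalComb (conjRep Q P hQP hPQ r1) D.x11)
        (evalComb (conjRep Q P hQP hPQ r1) D.x21)
      rw [evalComb_conjRep, evalComb_conjRep]
      exact hnorm
  have E1 : (ofMat r0 hr0).Equiv (ofMat r1 hr1) := by
    subst hr1def
    exact equivConjRep hr0 P0 P0⁻¹ hPQ0 hQP0
  exact ⟨r2, hN, ⟨(E0.trans E1).trans (equivConjRep hr1 Q P hQP hPQ)⟩⟩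

end Normalized

end Fermat.Agent.S53
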