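import Mathlib
import Fermat.Prelude.Def_GaloisRep_DeformationCondition
import Fermat.Agent.S53.NormalizedLift

/-!
S53, module M4: the index set of good ideals of the big polynomial ring.
-/

set_option autoImplicit false
set_option linter.style.haveILetI false
set_option linter.unusedSectionVars false

noncomputable section

namespace Fermat.Agent.S53

open IsLocalRing GaloisRep

local notation "Γℚ" => (AlgebraicClosure ℚ ≃ₐ[ℚ] AlgebraicClosure ℚ)
local notation "M₂" => Matrix (Fin 2) (Fin 2)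

variable {𝒪 : Type} [CommRing 𝒪] [IsLocalRing 𝒪]

/-- The big polynomial ring on the matrix entries of all group elements. -/
abbrev BigB (𝒪 : Type) [CommRing 𝒪] : Type := MvPolynomial (Γℚ × Fin 2 × Fin 2) 𝒪

/-- The generic matrix attached to a group element. -/
def gen (𝒪 : Type) [CommRing 𝒪] (g : Γℚ) : M₂ (BigB 𝒪) :=
  Matrix.of fun i j => MvPolynomial.X (g, i, j)

@[simp] lemma gen_apply (g : Γℚ) (i j : Fin 2) : gen 𝒪 g i j = MvPolynomial.X (g, i, j) := rfl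

/-- The classifying map of a matrix valued function. -/
def classify {A : Type} [CommRing A] [Algebra 𝒪 A] (r : Γℚ → M₂ A) : BigB 𝒪 →ₐ[𝒪] A :=
  MvPolynomial.aeval fun x : Γℚ × Fin 2 × Fin 2 => r x.1 x.2.1 x.2.2

@[simp] lemma classify_X {A : Type} [CommRing A] [Algebra 𝒪 A] (r : Γℚ → M₂ A) (g : Γℚ)
    (i j : Fin 2) : classify (𝒪 := 𝒪) r (MvPolynomial.X (g, i, j)) = r g i j := by
  simp [classify]

lemma map_classify_gen {A : Type} [CommRing A] [Algebra 𝒪 A] (r : Γℚ → M₂ A) (g : Γℚ) :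
    (gen 𝒪 g).map (classify (𝒪 := 𝒪) r) = r g := by
  ext i j
  simp

/-- Evaluation of the generic matrices at the residual representation. -/
def resEval (D : RigidData 𝒪) : BigB 𝒪 →ₐ[𝒪] ResidueField 𝒪 :=
  classify fun g => D.rbar g

@[simp] lemma resEval_X (D : RigidData 𝒪) (g : Γℚ) (i j : Fin 2) :
    resEval D (MvPolynomial.X (g, i, j)) = D.rbar g i j := by
  simp [resEval]

lemma resEval_algebraMap (D : RigidData 𝒪) (a : 𝒪) :
    resEval D (algebraMap 𝒪 (BigB 𝒪) a) = residue 𝒪 a := by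
  rw [AlgHom.commutes]; rfl

lemma resEval_surjective (D : RigidData 𝒪) : Function.Surjective (resEval D) := by
  intro x
  obtain ⟨a, rfl⟩ := residue_surjective x
  exact ⟨algebraMap 𝒪 (BigB 𝒪) a, resEval_algebraMap D a⟩

/-- The maximal ideal of the big ring. -/
def mB (D : RigidData 𝒪) : Ideal (BigB 𝒪) :=
  RingHom.ker (resEval D : BigB 𝒪 →+* ResidueField 𝒪)

lemma mem_mB {D : RigidData 𝒪} {x : BigB 𝒪} : x ∈ mB D ↔ resEval D x = 0 := Iff.rfl

lemma mB_isMaximal (D : RigidData 𝒪) : (mB D).IsMaximal :=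
  RingHom.ker_isMaximal_of_surjective _ (resEval_surjective D)

lemma mB_ne_top (D : RigidData 𝒪) : mB D ≠ ⊤ := (mB_isMaximal D).ne_top

lemma exists_sub_algebraMap_mem_mB (D : RigidData 𝒪) (x : BigB 𝒪) :
    ∃ a : 𝒪, x - algebraMap 𝒪 (BigB 𝒪) a ∈ mB D := by
  obtain ⟨a, ha⟩ := residue_surjective (resEval D x)
  refine ⟨a, ?_⟩
  rw [mem_mB, map_sub, resEval_algebraMap, ha, sub_self]

lemma map_maximalIdeal_le_mB (D : RigidData 𝒪) :
    (maximalIdeal 𝒪).map (algebraMap 𝒪 (BigB 𝒪)) ≤ mB D := by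
  rw [Ideal.map_le_iff_le_comap]
  intro a ha
  rw [Ideal.mem_comap, mem_mB, resEval_algebraMap]
  exact (residue_eq_zero_iff a).mpr ha

/-! ### Admissible ideals -/

/-- Admissible ideals: between a power of `mB` and `mB`, with finite quotient. -/
structure Adm (D : RigidData 𝒪) (b : Ideal (BigB 𝒪)) : Prop where
  le : b ≤ mB D
  pow_le : ∃ n : ℕ, mB D ^ n ≤ b
  finite : Finite (BigB 𝒪 ⧸ b)

namespace Adm

variable {D : RigidData 𝒪} {b : Ideal (BigB 𝒪)}

/-- The residue map of an admissible quotient. -/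
def resQ (h : Adm D b) : (BigB 𝒪 ⧸ b) →ₐ[𝒪] ResidueField 𝒪 :=
  Ideal.Quotient.liftₐ b (resEval D) fun x hx => h.le hx

@[simp] lemma resQ_mk (h : Adm D b) (x : BigB 𝒪) :
    h.resQ (Ideal.Quotient.mk b x) = resEval D x := rfl

lemma isUnit_mk_of_resEval_ne_zero (h : Adm D b) {y : BigB 𝒪} (hy : resEval D y ≠ 0) :
    IsUnit (Ideal.Quotient.mk b y) := by
  obtain ⟨z, hz⟩ := resEval_surjective D (resEval D y)⁻¹
  have h1 : y * z - 1 ∈ mB D := by
    rw [mem_mB, map_sub, map_mul, hz, mul_inv_cancel₀ hy, map_one, sub_self]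
  obtain ⟨n, hn⟩ := h.pow_le
  have h2 : (y * z - 1) ^ n ∈ b := hn (Ideal.pow_mem_pow h1 n)
  have h3 : IsNilpotent (Ideal.Quotient.mk b (y * z - 1)) :=
    ⟨n, by rw [← map_pow]; exact Ideal.Quotient.eq_zero_iff_mem.mpr h2⟩
  have h4 : IsUnit (Ideal.Quotient.mk b (y * z - 1) + 1) := h3.isUnit_add_one
  have h5 : Ideal.Quotient.mk b (y * z - 1) + 1 =
      Ideal.Quotient.mk b y * Ideal.Quotient.mk b z := by
    rw [← map_mul, ← map_one (Ideal.Quotient.mk b), ← map_add]; congr 1; ring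
  rw [h5] at h4
  exact isUnit_of_mul_isUnit_left h4

lemma nontrivial (h : Adm D b) : Nontrivial (BigB 𝒪 ⧸ b) :=
  Ideal.Quotient.nontrivial_iff.mpr fun hb => mB_ne_top D (top_le_iff.mp (hb ▸ h.le))

theorem isLocalRing (h : Adm D b) : IsLocalRing (BigB 𝒪 ⧸ b) := by
  have := h.nontrivial
  refine IsLocalRing.of_isUnit_or_isUnit_one_sub_self fun x => ?_
  obtain ⟨y, rfl⟩ := Ideal.Quotient.mk_surjective x
  by_cases hy : resEval D y = 0
  · right
    rw [← map_one (Ideal.Quotient.mk b), ← map_sub]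
    apply h.isUnit_mk_of_resEval_ne_zero
    rw [map_sub, map_one, hy, sub_zero]
    exact one_ne_zero
  · left
    exact h.isUnit_mk_of_resEval_ne_zero hy

lemma isUnit_iff (h : Adm D b) (x : BigB 𝒪 ⧸ b) : IsUnit x ↔ h.resQ x ≠ 0 := by
  constructor
  · intro hx
    exact (hx.map h.resQ).ne_zero
  · intro hx
    obtain ⟨y, rfl⟩ := Ideal.Quotient.mk_surjective x
    exact h.isUnit_mk_of_resEval_ne_zero hx

theorem isLocalHom (h : Adm D b) : IsLocalHom (algebraMap 𝒪 (BigB 𝒪 ⧸ b)) := by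
  refine ⟨fun a ha => ?_⟩
  have h1 := (h.isUnit_iff _).mp ha
  rw [AlgHom.commutes] at h1
  by_contra hna
  exact h1 ((residue_eq_zero_iff a).mpr ((IsLocalRing.mem_maximalIdeal a).mpr hna))

theorem mem_maximalIdeal_iff (h : Adm D b) (x : BigB 𝒪 ⧸ b) :
    haveI := h.isLocalRing
    x ∈ maximalIdeal (BigB 𝒪 ⧸ b) ↔ h.resQ x = 0 := by
  haveI := h.isLocalRing
  rw [IsLocalRing.mem_maximalIdeal, mem_nonunits_iff, h.isUnit_iff, not_not]

theorem mk_mem_maximalIdeal_iff (h : Adm D b) (y : BigB 𝒪) :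
    haveI := h.isLocalRing
    Ideal.Quotient.mk b y ∈ maximalIdeal (BigB 𝒪 ⧸ b) ↔ y ∈ mB D := by
  rw [h.mem_maximalIdeal_iff]; rfl

theorem maximalIdeal_eq (h : Adm D b) :
    haveI := h.isLocalRing
    maximalIdeal (BigB 𝒪 ⧸ b) = (mB D).map (Ideal.Quotient.mk b) := by
  haveI := h.isLocalRing
  ext x
  obtain ⟨y, rfl⟩ := Ideal.Quotient.mk_surjective x
  rw [h.mk_mem_maximalIdeal_iff]
  constructor
  · intro hy
    exact Ideal.mem_map_of_mem _ hy
  · intro hy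
    obtain ⟨z, hz, hzy⟩ := (Ideal.mem_map_iff_of_surjective _ Ideal.Quotient.mk_surjective).mp hy
    have : y - z ∈ b := Ideal.Quotient.eq.mp hzy.symm
    have h2 : y = (y - z) + z := by ring
    rw [h2]
    exact Ideal.add_mem _ (h.le this) hz

theorem maximalIdeal_pow_eq_bot (h : Adm D b) :
    haveI := h.isLocalRing
    ∃ n : ℕ, maximalIdeal (BigB 𝒪 ⧸ b) ^ n = ⊥ := by
  haveI := h.isLocalRing
  obtain ⟨n, hn⟩ := h.pow_le
  refine ⟨n, ?_⟩
  rw [h.maximalIdeal_eq, ← Ideal.map_pow, eq_bot_iff]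
  calc (mB D ^ n).map (Ideal.Quotient.mk b) ≤ b.map (Ideal.Quotient.mk b) := Ideal.map_mono hn
    _ = ⊥ := Ideal.map_quotient_self b

theorem residue_algebraMap_surjective (h : Adm D b) :
    haveI := h.isLocalRing
    Function.Surjective (residue (BigB 𝒪 ⧸ b) ∘ algebraMap 𝒪 (BigB 𝒪 ⧸ b)) := by
  haveI := h.isLocalRing
  intro z
  obtain ⟨x, rfl⟩ := residue_surjective z
  obtain ⟨y, rfl⟩ := Ideal.Quotient.mk_surjective x
  obtain ⟨a, ha⟩ := exists_sub_algebraMap_mem_mB D y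
  refine ⟨a, ?_⟩
  have h1 : Ideal.Quotient.mk b y - algebraMap 𝒪 (BigB 𝒪 ⧸ b) a ∈
      maximalIdeal (BigB 𝒪 ⧸ b) := by
    have : algebraMap 𝒪 (BigB 𝒪 ⧸ b) a = Ideal.Quotient.mk b (algebraMap 𝒪 (BigB 𝒪) a) := rfl
    rw [this, ← map_sub, h.mk_mem_maximalIdeal_iff]
    exact ha
  rw [← residue_eq_zero_iff, map_sub, sub_eq_zero] at h1
  exact h1.symm

theorem isArtinianTestAlgebra (h : Adm D b) :
    haveI := h.isLocalRing
    IsArtinianTestAlgebra 𝒪 (BigB 𝒪 ⧸ b) := by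
  haveI := h.isLocalRing
  haveI := h.finite
  exact ⟨h.isLocalHom, h.residue_algebraMap_surjective, isArtinian_of_finite⟩

theorem of_le (h : Adm D b) {b' : Ideal (BigB 𝒪)} (hle : b ≤ b') (hb' : b' ≤ mB D) :
    Adm D b' := by
  refine ⟨hb', ?_, ?_⟩
  · obtain ⟨n, hn⟩ := h.pow_le
    exact ⟨n, hn.trans hle⟩
  · haveI := h.finite
    exact Finite.of_surjective (Ideal.Quotient.factor hle) (Ideal.Quotient.factor_surjective hle)

theorem inf {b₁ b₂ : Ideal (BigB 𝒪)} (h₁ : Adm D b₁) (h₂ : Adm D b₂) : Adm D (b₁ ⊓ b₂) := by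
  refine ⟨inf_le_left.trans h₁.le, ?_, ?_⟩
  · obtain ⟨n₁, hn₁⟩ := h₁.pow_le
    obtain ⟨n₂, hn₂⟩ := h₂.pow_le
    refine ⟨max n₁ n₂, le_inf ?_ ?_⟩
    · exact (Ideal.pow_le_pow_right (le_max_left n₁ n₂)).trans hn₁
    · exact (Ideal.pow_le_pow_right (le_max_right n₁ n₂)).trans hn₂
  · haveI := h₁.finite
    haveI := h₂.finite
    let f : (BigB 𝒪 ⧸ b₁ ⊓ b₂) → (BigB 𝒪 ⧸ b₁) × (BigB 𝒪 ⧸ b₂) := fun x =>
      (Ideal.Quotient.factor inf_le_left x, Ideal.Quotient.factor inf_le_right x)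
    refine Finite.of_injective f ?_
    intro x y hxy
    obtain ⟨x, rfl⟩ := Ideal.Quotient.mk_surjective x
    obtain ⟨y, rfl⟩ := Ideal.Quotient.mk_surjective y
    simp only [f, Prod.mk.injEq, Ideal.Quotient.factor_mk] at hxy
    rw [Ideal.Quotient.eq] at hxy ⊢
    rw [Ideal.Quotient.eq] at hxy
    exact ⟨hxy.1, hxy.2⟩

theorem sup {b₁ b₂ : Ideal (BigB 𝒪)} (h₁ : Adm D b₁) (h₂ : Adm D b₂) : Adm D (b₁ ⊔ b₂) :=
  h₁.of_le le_sup_left (sup_le h₁.le h₂.le)

end Adm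

end Fermat.Agent.S53
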