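import Mathlib
import Fermat.Prelude.Def_GaloisRep_DeformationCondition
import Fermat.Agent.S53.IndexSetAdm

/-!
S53, module M4 (second part): good ideals of the big polynomial ring.
-/

set_option autoImplicit false
set_option linter.style.haveILetI false
set_option linter.unusedSectionVars false

noncomputable section

namespace Fermat.Agent.S53

open IsLocalRing GaloisRep

local notation "Γℚ" => (AlgebraicClosure ℚ ≃ₐ[ℚ] AlgebraicClosure ℚ)
local notation "M₂" => Matrix (Fin 2) (Fin 2)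

/-! ### Finite level -/

lemma isMatCont_iff_of_pow_eq_bot {A : Type} [CommRing A] [IsLocalRing A]
    (hA : ∃ n : ℕ, maximalIdeal A ^ n = ⊥) (r : Γℚ →* M₂ A) :
    IsMatCont r ↔ ∃ L : IntermediateField ℚ (AlgebraicClosure ℚ), FiniteDimensional ℚ L ∧
      ∀ σ : Γℚ, (∀ x ∈ L, σ x = x) → r σ = 1 := by
  constructor
  · intro h
    obtain ⟨n, hn⟩ := hA
    obtain ⟨L, hL, hσ⟩ := h n
    refine ⟨L, hL, fun σ hfix => ?_⟩
    ext i j
    have h1 := hσ σ hfix i j
    rw [hn, Ideal.mem_bot, Matrix.sub_apply] at h1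
    exact sub_eq_zero.mp h1
  · rintro ⟨L, hL, hσ⟩ n
    refine ⟨L, hL, fun σ hfix i j => ?_⟩
    rw [hσ σ hfix, sub_self]
    exact Ideal.zero_mem _

variable {𝒪 : Type} [CommRing 𝒪] [IsLocalRing 𝒪]

/-! ### Finiteness of Artinian test algebras -/

lemma residueFieldMap_surjective_of_testAlgebra {A : Type} [CommRing A] [IsLocalRing A]
    [Algebra 𝒪 A] [IsLocalHom (algebraMap 𝒪 A)]
    (hs : Function.Surjective (residue A ∘ algebraMap 𝒪 A)) :
    Function.Surjective (ResidueField.map (algebraMap 𝒪 A)) := by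
  intro z
  obtain ⟨a, ha⟩ := hs z
  exact ⟨residue 𝒪 a, by rw [ResidueField.map_residue]; exact ha⟩

theorem finite_of_isArtinianTestAlgebra [Finite (ResidueField 𝒪)] {A : Type} [CommRing A]
    [IsLocalRing A] [Algebra 𝒪 A] (hA : IsArtinianTestAlgebra 𝒪 A) : Finite A := by
  haveI := hA.isLocalHom
  haveI := hA.isArtinian
  haveI : Finite (A ⧸ maximalIdeal A) :=
    Finite.of_surjective (ResidueField.map (algebraMap 𝒪 A))
      (residueFieldMap_surjective_of_testAlgebra hA.residue_surjective)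
  obtain ⟨n, hn⟩ := IsArtinianRing.isNilpotent_jacobson_bot (R := A)
  rw [jacobson_eq_maximalIdeal ⊥ bot_ne_top] at hn
  have h1 : Finite (A ⧸ maximalIdeal A ^ n) :=
    Ideal.finite_quotient_pow (IsNoetherian.noetherian (maximalIdeal A)) n
  rw [hn] at h1
  exact Finite.of_equiv _ (RingEquiv.quotientBot A).toEquiv

theorem maximalIdeal_pow_eq_bot_of_isArtinianTestAlgebra {A : Type} [CommRing A]
    [IsLocalRing A] [Algebra 𝒪 A] (hA : IsArtinianTestAlgebra 𝒪 A) :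
    ∃ n : ℕ, maximalIdeal A ^ n = ⊥ := by
  haveI := hA.isArtinian
  obtain ⟨n, hn⟩ := IsArtinianRing.isNilpotent_jacobson_bot (R := A)
  rw [jacobson_eq_maximalIdeal ⊥ bot_ne_top] at hn
  exact ⟨n, hn⟩

/-! ### Generic combinations -/

/-- Evaluation of a formal combination on the generic matrices. -/
def evalGen (x : Γℚ →₀ 𝒪) : M₂ (BigB 𝒪) :=
  x.sum fun g c => algebraMap 𝒪 (BigB 𝒪) c • gen 𝒪 g

lemma evalComb_eq_map_evalGen {A : Type} [CommRing A] [Algebra 𝒪 A] (φ : BigB 𝒪 →ₐ[𝒪] A)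
    (r : Γℚ →* M₂ A) (hr : ∀ g, r g = (gen 𝒪 g).map φ) (x : Γℚ →₀ 𝒪) :
    evalComb r x = (evalGen x).map φ := by
  unfold evalComb evalGen
  have h1 : (x.sum fun g c => algebraMap 𝒪 (BigB 𝒪) c • gen 𝒪 g).map φ =
      (φ : BigB 𝒪 →+* A).mapMatrix (x.sum fun g c => algebraMap 𝒪 (BigB 𝒪) c • gen 𝒪 g) := rfl
  rw [h1, map_finsuppSum]
  refine Finsupp.sum_congr fun g _ => ?_
  ext i j
  simp only [hr, Matrix.smul_apply, Matrix.map_apply, smul_eq_mul, RingHom.mapMatrix_apply,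
    map_mul, RingHom.coe_coe, AlgHom.commutes]

lemma map_eq_map_iff_sub_mem_ker {A : Type} [CommRing A] (φ : BigB 𝒪 →+* A)
    (M N : M₂ (BigB 𝒪)) :
    M.map φ = N.map φ ↔ ∀ i j, M i j - N i j ∈ RingHom.ker φ := by
  constructor
  · intro h i j
    rw [RingHom.mem_ker, map_sub, sub_eq_zero]
    have := congrFun (congrFun h i) j
    simpa using this
  · intro h
    ext i j
    have := h i j
    rw [RingHom.mem_ker, map_sub, sub_eq_zero] at this
    simpa using this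

lemma map_mk_eq_map_mk_iff (b : Ideal (BigB 𝒪)) (M N : M₂ (BigB 𝒪)) :
    M.map (Ideal.Quotient.mk b) = N.map (Ideal.Quotient.mk b) ↔ ∀ i j, M i j - N i j ∈ b := by
  rw [map_eq_map_iff_sub_mem_ker]
  simp only [Ideal.mk_ker]

/-! ### Residues in admissible quotients -/

namespace Adm

variable {D : RigidData 𝒪} {b : Ideal (BigB 𝒪)}

theorem residue_mk (h : Adm D b) (y : BigB 𝒪) :
    haveI := h.isLocalRing
    haveI := h.isLocalHom
    residue (BigB 𝒪 ⧸ b) (Ideal.Quotient.mk b y) =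
      ResidueField.map (algebraMap 𝒪 (BigB 𝒪 ⧸ b)) (resEval D y) := by
  haveI := h.isLocalRing
  haveI := h.isLocalHom
  obtain ⟨a, ha⟩ := exists_sub_algebraMap_mem_mB D y
  have h1 : resEval D y = residue 𝒪 a := by
    rw [mem_mB, map_sub, resEval_algebraMap, sub_eq_zero] at ha
    exact ha
  rw [h1, ResidueField.map_residue, ← sub_eq_zero, ← map_sub, residue_eq_zero_iff]
  have h2 : algebraMap 𝒪 (BigB 𝒪 ⧸ b) a = Ideal.Quotient.mk b (algebraMap 𝒪 (BigB 𝒪) a) := rfl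
  rw [h2, ← map_sub, h.mk_mem_maximalIdeal_iff]
  exact ha

theorem red (h : Adm D b) (r : Γℚ →* M₂ (BigB 𝒪 ⧸ b))
    (hr : ∀ g, r g = (gen 𝒪 g).map (Ideal.Quotient.mk b)) :
    haveI := h.isLocalRing
    haveI := h.isLocalHom
    mapMat (residue (BigB 𝒪 ⧸ b)) r = D.rbarAt (BigB 𝒪 ⧸ b) := by
  haveI := h.isLocalRing
  haveI := h.isLocalHom
  ext g i j
  rw [mapMat_apply, Matrix.map_apply, hr, Matrix.map_apply, gen_apply, h.residue_mk, resEval_X,
    RigidData.rbarAt, mapMat_apply, Matrix.map_apply]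

end Adm

/-! ### Pre-good ideals -/

/-- Ideals modulo which the generic matrices form a normalized lift. -/
structure PreGood (D : RigidData 𝒪) (b : Ideal (BigB 𝒪)) : Prop where
  adm : Adm D b
  one_mem : ∀ i j, gen 𝒪 1 i j - (1 : M₂ (BigB 𝒪)) i j ∈ b
  mul_mem : ∀ g h i j, gen 𝒪 (g * h) i j - (gen 𝒪 g * gen 𝒪 h) i j ∈ b
  cont : ∃ L : IntermediateField ℚ (AlgebraicClosure ℚ), FiniteDimensional ℚ L ∧
    ∀ σ : Γℚ, (∀ x ∈ L, σ x = x) → ∀ i j, gen 𝒪 σ i j - (1 : M₂ (BigB 𝒪)) i j ∈ b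
  norm : evalGen D.x11 1 0 ∈ b ∧ evalGen D.x21 0 0 ∈ b ∧ evalGen D.x21 1 0 - 1 ∈ b

namespace PreGood

variable {D : RigidData 𝒪} {b : Ideal (BigB 𝒪)}

theorem of_le (h : PreGood D b) {b' : Ideal (BigB 𝒪)} (hle : b ≤ b') (hb' : b' ≤ mB D) :
    PreGood D b' := by
  refine ⟨h.adm.of_le hle hb', fun i j => hle (h.one_mem i j),
    fun g k i j => hle (h.mul_mem g k i j), ?_, ⟨hle h.norm.1, hle h.norm.2.1, hle h.norm.2.2⟩⟩
  obtain ⟨L, hL, hσ⟩ := h.cont
  exact ⟨L, hL, fun σ hfix i j => hle (hσ σ hfix i j)⟩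

theorem inf {b₁ b₂ : Ideal (BigB 𝒪)} (h₁ : PreGood D b₁) (h₂ : PreGood D b₂) :
    PreGood D (b₁ ⊓ b₂) := by
  refine ⟨h₁.adm.inf h₂.adm, fun i j => ⟨h₁.one_mem i j, h₂.one_mem i j⟩,
    fun g k i j => ⟨h₁.mul_mem g k i j, h₂.mul_mem g k i j⟩, ?_,
    ⟨⟨h₁.norm.1, h₂.norm.1⟩, ⟨h₁.norm.2.1, h₂.norm.2.1⟩, ⟨h₁.norm.2.2, h₂.norm.2.2⟩⟩⟩
  obtain ⟨L₁, hL₁, hσ₁⟩ := h₁.cont
  obtain ⟨L₂, hL₂, hσ₂⟩ := h₂.cont
  refine ⟨L₁ ⊔ L₂, IntermediateField.finiteDimensional_sup L₁ L₂, fun σ hfix i j =>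
    ⟨hσ₁ σ (fun x hx => hfix x ((le_sup_left : L₁ ≤ L₁ ⊔ L₂) hx)) i j,
      hσ₂ σ (fun x hx => hfix x ((le_sup_right : L₂ ≤ L₁ ⊔ L₂) hx)) i j⟩⟩

/-- The tautological representation over the quotient by a pre-good ideal. -/
def rep (h : PreGood D b) : Γℚ →* M₂ (BigB 𝒪 ⧸ b) where
  toFun g := (gen 𝒪 g).map (Ideal.Quotient.mk b)
  map_one' := by
    have h1 : (1 : M₂ (BigB 𝒪 ⧸ b)) = (1 : M₂ (BigB 𝒪)).map (Ideal.Quotient.mk b) :=
      (Matrix.map_one _ (map_zero _) (map_one _)).symm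
    rw [h1]
    exact (map_mk_eq_map_mk_iff b _ _).mpr h.one_mem
  map_mul' g k := by
    rw [← Matrix.map_mul]
    exact (map_mk_eq_map_mk_iff b _ _).mpr (h.mul_mem g k)

lemma rep_apply (h : PreGood D b) (g : Γℚ) :
    h.rep g = (gen 𝒪 g).map (Ideal.Quotient.mk b) := rfl

lemma rep_apply_apply (h : PreGood D b) (g : Γℚ) (i j : Fin 2) :
    h.rep g i j = Ideal.Quotient.mk b (MvPolynomial.X (g, i, j)) := rfl

theorem isNormalizedLift (h : PreGood D b) :
    haveI := h.adm.isLocalRing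
    haveI := h.adm.isLocalHom
    IsNormalizedLift D h.rep := by
  haveI := h.adm.isLocalRing
  haveI := h.adm.isLocalHom
  refine ⟨?_, h.adm.red h.rep h.rep_apply, ?_⟩
  · rw [isMatCont_iff_of_pow_eq_bot h.adm.maximalIdeal_pow_eq_bot]
    obtain ⟨L, hL, hσ⟩ := h.cont
    refine ⟨L, hL, fun σ hfix => ?_⟩
    have h1 : (1 : M₂ (BigB 𝒪 ⧸ b)) = (1 : M₂ (BigB 𝒪)).map (Ideal.Quotient.mk b) :=
      (Matrix.map_one _ (map_zero _) (map_one _)).symm
    rw [h1, rep_apply]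
    exact (map_mk_eq_map_mk_iff b _ _).mpr (hσ σ hfix)
  · have e1 := evalComb_eq_map_evalGen (Ideal.Quotient.mkₐ 𝒪 b) h.rep (fun g => rfl) D.x11
    have e2 := evalComb_eq_map_evalGen (Ideal.Quotient.mkₐ 𝒪 b) h.rep (fun g => rfl) D.x21
    rw [e1, e2]
    refine ⟨?_, ?_, ?_⟩
    · exact Ideal.Quotient.eq_zero_iff_mem.mpr h.norm.1
    · exact Ideal.Quotient.eq_zero_iff_mem.mpr h.norm.2.1
    · have := Ideal.Quotient.eq_zero_iff_mem.mpr h.norm.2.2
      rw [map_sub, sub_eq_zero, map_one] at this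
      exact this

end PreGood

/-! ### Kernel of a classifying map -/

section Classify

variable {D : RigidData 𝒪} {A : Type} [CommRing A] [IsLocalRing A] [Algebra 𝒪 A]
  [IsLocalHom (algebraMap 𝒪 A)]

lemma map_eq_map_iff_sub_mem_ker' (φ : BigB 𝒪 →ₐ[𝒪] A) (M N : M₂ (BigB 𝒪)) :
    M.map φ = N.map φ ↔ ∀ i j, M i j - N i j ∈ RingHom.ker φ := by
  constructor
  · intro h i j
    rw [RingHom.mem_ker, map_sub, sub_eq_zero]
    have := congrFun (congrFun h i) j
    simpa using this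
  · intro h
    ext i j
    have := h i j
    rw [RingHom.mem_ker, map_sub, sub_eq_zero] at this
    simpa using this

lemma residue_classify (r : Γℚ →* M₂ A) (hred : mapMat (residue A) r = D.rbarAt A)
    (y : BigB 𝒪) :
    residue A (classify (𝒪 := 𝒪) r y) = ResidueField.map (algebraMap 𝒪 A) (resEval D y) := by
  induction y using MvPolynomial.induction_on with
  | C a =>
    have h1 : classify (𝒪 := 𝒪) r (MvPolynomial.C a) = algebraMap 𝒪 A a := by
      simp [classify]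
    have h2 : resEval D (MvPolynomial.C a) = residue 𝒪 a := resEval_algebraMap D a
    rw [h1, h2, ResidueField.map_residue]
  | add p q hp hq => rw [map_add, map_add, map_add, map_add, hp, hq]
  | mul_X p x hp =>
    obtain ⟨g, i, j⟩ := x
    rw [map_mul, map_mul, map_mul, map_mul, hp, classify_X, resEval_X]
    congr 1
    have h3 := congrFun (congrFun (DFunLike.congr_fun hred g) i) j
    rw [mapMat_apply, Matrix.map_apply, RigidData.rbarAt, mapMat_apply, Matrix.map_apply] at h3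
    exact h3

lemma ker_classify_le_mB (r : Γℚ →* M₂ A) (hred : mapMat (residue A) r = D.rbarAt A) :
    RingHom.ker (classify (𝒪 := 𝒪) r) ≤ mB D := by
  intro y hy
  rw [mem_mB]
  have h1 := residue_classify r hred y
  rw [(RingHom.mem_ker).mp hy, map_zero] at h1
  exact (map_eq_zero _).mp h1.symm

lemma classify_mem_maximalIdeal (r : Γℚ →* M₂ A) (hred : mapMat (residue A) r = D.rbarAt A)
    {y : BigB 𝒪} (hy : y ∈ mB D) : classify (𝒪 := 𝒪) r y ∈ maximalIdeal A := by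
  rw [← residue_eq_zero_iff, residue_classify r hred, mem_mB.mp hy, map_zero]

lemma pow_mB_le_ker_classify (r : Γℚ →* M₂ A) (hred : mapMat (residue A) r = D.rbarAt A)
    {n : ℕ} (hn : maximalIdeal A ^ n = ⊥) : mB D ^ n ≤ RingHom.ker (classify (𝒪 := 𝒪) r) := by
  have h1 : (mB D).map (classify (𝒪 := 𝒪) r) ≤ maximalIdeal A :=
    Ideal.map_le_iff_le_comap.mpr fun y hy => classify_mem_maximalIdeal r hred hy
  have h2 : (mB D ^ n).map (classify (𝒪 := 𝒪) r) ≤ ⊥ := by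
    rw [Ideal.map_pow]
    exact (Ideal.pow_right_mono h1 n).trans hn.le
  intro y hy
  rw [RingHom.mem_ker]
  exact (Ideal.mem_bot).mp (h2 (Ideal.mem_map_of_mem _ hy))

theorem adm_ker_classify [Finite A] (hn : ∃ n : ℕ, maximalIdeal A ^ n = ⊥) (r : Γℚ →* M₂ A)
    (hred : mapMat (residue A) r = D.rbarAt A) :
    Adm D (RingHom.ker (classify (𝒪 := 𝒪) r)) := by
  obtain ⟨n, hn⟩ := hn
  exact ⟨ker_classify_le_mB r hred, ⟨n, pow_mB_le_ker_classify r hred hn⟩,
    Finite.of_injective (Ideal.kerLiftAlg (classify (𝒪 := 𝒪) r))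
      (Ideal.kerLiftAlg_injective _)⟩

theorem preGood_ker_classify [Finite A] (hn : ∃ n : ℕ, maximalIdeal A ^ n = ⊥)
    (r : Γℚ →* M₂ A) (hr : IsNormalizedLift D r) :
    PreGood D (RingHom.ker (classify (𝒪 := 𝒪) r)) := by
  have hone : (1 : M₂ (BigB 𝒪)).map (classify (𝒪 := 𝒪) r) = 1 :=
    Matrix.map_one _ (map_zero _) (map_one _)
  refine ⟨adm_ker_classify hn r hr.red, ?_, ?_, ?_, ?_⟩
  · refine (map_eq_map_iff_sub_mem_ker' (classify (𝒪 := 𝒪) r) _ _).mp ?_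
    rw [map_classify_gen, hone, map_one]
  · intro g k
    refine (map_eq_map_iff_sub_mem_ker' (classify (𝒪 := 𝒪) r) _ _).mp ?_
    have h1 : (gen 𝒪 g * gen 𝒪 k).map (classify (𝒪 := 𝒪) r) =
        (gen 𝒪 g).map (classify (𝒪 := 𝒪) r) * (gen 𝒪 k).map (classify (𝒪 := 𝒪) r) :=
      Matrix.map_mul (f := ((classify (𝒪 := 𝒪) r : BigB 𝒪 →ₐ[𝒪] A) : BigB 𝒪 →+* A))
    rw [h1, map_classify_gen, map_classify_gen, map_classify_gen, map_mul]
  · obtain ⟨L, hL, hσ⟩ := (isMatCont_iff_of_pow_eq_bot hn r).mp hr.cont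
    refine ⟨L, hL, fun σ hfix => ?_⟩
    refine (map_eq_map_iff_sub_mem_ker' (classify (𝒪 := 𝒪) r) _ _).mp ?_
    rw [map_classify_gen, hone, hσ σ hfix]
  · have e1 := evalComb_eq_map_evalGen (classify (𝒪 := 𝒪) r) r
      (fun g => (map_classify_gen r g).symm) D.x11
    have e2 := evalComb_eq_map_evalGen (classify (𝒪 := 𝒪) r) r
      (fun g => (map_classify_gen r g).symm) D.x21
    obtain ⟨n1, n2, n3⟩ := hr.norm
    rw [e1] at n1
    rw [e2] at n2 n3
    refine ⟨n1, n2, ?_⟩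
    rw [RingHom.mem_ker, map_sub, map_one, sub_eq_zero]
    exact n3

end Classify

/-! ### Local homs out of admissible quotients -/

namespace Adm

variable {D : RigidData 𝒪} {b : Ideal (BigB 𝒪)}

theorem isLocalHom_of_residue (h : Adm D b) {A : Type} [CommRing A] [IsLocalRing A]
    [Algebra 𝒪 A] [IsLocalHom (algebraMap 𝒪 A)] (ι : (BigB 𝒪 ⧸ b) →+* A)
    (hι : ∀ y, residue A (ι (Ideal.Quotient.mk b y)) =
      ResidueField.map (algebraMap 𝒪 A) (resEval D y)) : IsLocalHom ι := by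
  refine ⟨fun x hx => ?_⟩
  obtain ⟨y, rfl⟩ := Ideal.Quotient.mk_surjective x
  apply h.isUnit_mk_of_resEval_ne_zero
  intro hy
  have h1 := hι y
  rw [hy, map_zero] at h1
  exact (hx.map (residue A)).ne_zero h1

/-- The map out of an admissible quotient induced by a lift whose classifying map kills `b`. -/
def liftHom (_h : Adm D b) {A : Type} [CommRing A] [Algebra 𝒪 A] (r : Γℚ →* M₂ A)
    (hle : b ≤ RingHom.ker (classify (𝒪 := 𝒪) r)) : (BigB 𝒪 ⧸ b) →ₐ[𝒪] A :=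
  Ideal.Quotient.liftₐ b (classify (𝒪 := 𝒪) r) fun _ ha => (RingHom.mem_ker).mp (hle ha)

@[simp] lemma liftHom_mk (h : Adm D b) {A : Type} [CommRing A] [Algebra 𝒪 A] (r : Γℚ →* M₂ A)
    (hle : b ≤ RingHom.ker (classify (𝒪 := 𝒪) r)) (y : BigB 𝒪) :
    h.liftHom r hle (Ideal.Quotient.mk b y) = classify (𝒪 := 𝒪) r y := rfl

theorem isLocalHom_liftHom (h : Adm D b) {A : Type} [CommRing A] [IsLocalRing A]
    [Algebra 𝒪 A] [IsLocalHom (algebraMap 𝒪 A)] (r : Γℚ →* M₂ A)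
    (hred : mapMat (residue A) r = D.rbarAt A)
    (hle : b ≤ RingHom.ker (classify (𝒪 := 𝒪) r)) :
    IsLocalHom (h.liftHom r hle : (BigB 𝒪 ⧸ b) →+* A) :=
  h.isLocalHom_of_residue _ fun y => residue_classify r hred y

end Adm

namespace PreGood

variable {D : RigidData 𝒪} {b : Ideal (BigB 𝒪)}

theorem mapMat_liftHom_rep (h : PreGood D b) {A : Type} [CommRing A] [Algebra 𝒪 A]
    (r : Γℚ →* M₂ A) (hle : b ≤ RingHom.ker (classify (𝒪 := 𝒪) r)) :
    mapMat (h.adm.liftHom r hle : (BigB 𝒪 ⧸ b) →+* A) h.rep = r := by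
  ext g i j
  simp [rep_apply_apply]

theorem mapMat_factor_rep (h : PreGood D b) {b' : Ideal (BigB 𝒪)} (h' : PreGood D b')
    (hle : b ≤ b') :
    mapMat (Ideal.Quotient.factorₐ 𝒪 hle : (BigB 𝒪 ⧸ b) →+* (BigB 𝒪 ⧸ b')) h.rep = h'.rep := by
  ext g i j
  rfl

end PreGood

/-! ### Good ideals -/

section GoodSec

variable (𝒟 : ∀ ⦃A : Type⦄ [CommRing A] [IsLocalRing A] [Algebra 𝒪 A], GaloisRepAdic A → Prop)

/-- Good ideals: pre-good, and the tautological lift satisfies the deformation condition. -/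
structure Good (D : RigidData 𝒪) (b : Ideal (BigB 𝒪)) : Prop where
  pre : PreGood D b
  dcond' : haveI := pre.adm.isLocalRing
    haveI := pre.adm.isLocalHom
    𝒟 (ofMat pre.rep pre.isNormalizedLift.cont)

namespace Good

variable {𝒟} {D : RigidData 𝒪} {b : Ideal (BigB 𝒪)}

theorem adm (h : Good 𝒟 D b) : Adm D b := h.pre.adm

/-- The tautological representation over the quotient by a good ideal. -/
def rep (h : Good 𝒟 D b) : Γℚ →* M₂ (BigB 𝒪 ⧸ b) := h.pre.rep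

lemma rep_apply (h : Good 𝒟 D b) (g : Γℚ) :
    h.rep g = (gen 𝒪 g).map (Ideal.Quotient.mk b) := rfl

lemma rep_apply_apply (h : Good 𝒟 D b) (g : Γℚ) (i j : Fin 2) :
    h.rep g i j = Ideal.Quotient.mk b (MvPolynomial.X (g, i, j)) := rfl

theorem isNormalizedLift (h : Good 𝒟 D b) :
    haveI := h.adm.isLocalRing
    haveI := h.adm.isLocalHom
    IsNormalizedLift D h.rep := h.pre.isNormalizedLift

theorem dcond (h : Good 𝒟 D b) :
    haveI := h.adm.isLocalRing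
    haveI := h.adm.isLocalHom
    𝒟 (ofMat h.rep h.isNormalizedLift.cont) := h.dcond'

theorem of_le (hD : IsDeformationCondition 𝒪 𝒟) (h : Good 𝒟 D b) {b' : Ideal (BigB 𝒪)}
    (hle : b ≤ b') (hb' : b' ≤ mB D) : Good 𝒟 D b' := by
  have pre' : PreGood D b' := h.pre.of_le hle hb'
  refine ⟨pre', ?_⟩
  haveI := h.adm.isLocalRing
  haveI := h.adm.isLocalHom
  haveI := pre'.adm.isLocalRing
  haveI := pre'.adm.isLocalHom
  have hφ : IsLocalHom (Ideal.Quotient.factorₐ 𝒪 hle : (BigB 𝒪 ⧸ b) →+* (BigB 𝒪 ⧸ b')) :=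
    IsLocalHom.of_surjective _ (Ideal.Quotient.factor_surjective hle)
  have h1 := hD.baseChangeAlong h.adm.isArtinianTestAlgebra pre'.adm.isArtinianTestAlgebra
    (Ideal.Quotient.factorₐ 𝒪 hle) hφ h.dcond
  refine hD.of_isEquiv pre'.adm.isArtinianTestAlgebra ?_ h1
  exact ⟨(ofMatBaseChangeEquiv h.rep h.isNormalizedLift.cont _ hφ).trans
    (ofMatCongr _ _ (h.pre.mapMat_factor_rep pre' hle))⟩

theorem inf (hD : IsDeformationCondition 𝒪 𝒟) {b₁ b₂ : Ideal (BigB 𝒪)} (h₁ : Good 𝒟 D b₁)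
    (h₂ : Good 𝒟 D b₂) : Good 𝒟 D (b₁ ⊓ b₂) := by
  have preP : PreGood D (b₁ ⊓ b₂) := h₁.pre.inf h₂.pre
  have admC : Adm D (b₁ ⊔ b₂) := h₁.adm.sup h₂.adm
  refine ⟨preP, ?_⟩
  haveI := h₁.adm.isLocalRing
  haveI := h₁.adm.isLocalHom
  haveI := h₂.adm.isLocalRing
  haveI := h₂.adm.isLocalHom
  haveI := preP.adm.isLocalRing
  haveI := preP.adm.isLocalHom
  haveI := admC.isLocalRing
  haveI := admC.isLocalHom
  have hpA : IsLocalHom (Ideal.Quotient.factorₐ 𝒪 (inf_le_left : b₁ ⊓ b₂ ≤ b₁) :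
      (BigB 𝒪 ⧸ b₁ ⊓ b₂) →+* (BigB 𝒪 ⧸ b₁)) :=
    IsLocalHom.of_surjective _ (Ideal.Quotient.factor_surjective inf_le_left)
  have hpB : IsLocalHom (Ideal.Quotient.factorₐ 𝒪 (inf_le_right : b₁ ⊓ b₂ ≤ b₂) :
      (BigB 𝒪 ⧸ b₁ ⊓ b₂) →+* (BigB 𝒪 ⧸ b₂)) :=
    IsLocalHom.of_surjective _ (Ideal.Quotient.factor_surjective inf_le_right)
  refine hD.of_fibreProduct h₁.adm.isArtinianTestAlgebra h₂.adm.isArtinianTestAlgebra
    admC.isArtinianTestAlgebra preP.adm.isArtinianTestAlgebra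
    (Ideal.Quotient.factorₐ 𝒪 (le_sup_left : b₁ ≤ b₁ ⊔ b₂))
    (Ideal.Quotient.factorₐ 𝒪 (le_sup_right : b₂ ≤ b₁ ⊔ b₂))
    (Ideal.Quotient.factorₐ 𝒪 (inf_le_left : b₁ ⊓ b₂ ≤ b₁))
    (Ideal.Quotient.factorₐ 𝒪 (inf_le_right : b₁ ⊓ b₂ ≤ b₂)) hpA hpB ?_ ?_ ?_ ?_ ?_
  · refine AlgHom.ext fun x => ?_
    obtain ⟨x, rfl⟩ := Ideal.Quotient.mk_surjective x
    rfl
  · intro x y hxy
    obtain ⟨x, rfl⟩ := Ideal.Quotient.mk_surjective x
    obtain ⟨y, rfl⟩ := Ideal.Quotient.mk_surjective y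
    simp only [Prod.mk.injEq, Ideal.Quotient.factorₐ_apply_mk] at hxy
    rw [Ideal.Quotient.eq] at hxy ⊢
    rw [Ideal.Quotient.eq] at hxy
    exact ⟨hxy.1, hxy.2⟩
  · intro u v huv
    obtain ⟨u, rfl⟩ := Ideal.Quotient.mk_surjective u
    obtain ⟨v, rfl⟩ := Ideal.Quotient.mk_surjective v
    simp only [Ideal.Quotient.factorₐ_apply_mk] at huv
    rw [Ideal.Quotient.eq, Submodule.mem_sup] at huv
    obtain ⟨β₁, hβ₁, β₂, hβ₂, hsum⟩ := huv
    refine ⟨Ideal.Quotient.mk _ (u - β₁), ?_, ?_⟩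
    · simp only [Ideal.Quotient.factorₐ_apply_mk]
      rw [Ideal.Quotient.eq]
      have : u - β₁ - u = -β₁ := by ring
      rw [this]
      exact b₁.neg_mem hβ₁
    · simp only [Ideal.Quotient.factorₐ_apply_mk]
      rw [Ideal.Quotient.eq]
      have : u - β₁ - v = β₂ := by linear_combination -hsum
      rw [this]
      exact hβ₂
  · refine hD.of_isEquiv h₁.adm.isArtinianTestAlgebra ?_ h₁.dcond
    exact ⟨((ofMatBaseChangeEquiv preP.rep preP.isNormalizedLift.cont _ hpA).trans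
      (ofMatCongr _ _ (preP.mapMat_factor_rep h₁.pre inf_le_left))).symm⟩
  · refine hD.of_isEquiv h₂.adm.isArtinianTestAlgebra ?_ h₂.dcond
    exact ⟨((ofMatBaseChangeEquiv preP.rep preP.isNormalizedLift.cont _ hpB).trans
      (ofMatCongr _ _ (preP.mapMat_factor_rep h₂.pre inf_le_right))).symm⟩

end Good

variable {𝒟}

/-- The kernel of the classifying map of a normalized lift of the prescribed type to an Artinian
test algebra is good. -/
theorem good_ker_classify [Finite (ResidueField 𝒪)] (hD : IsDeformationCondition 𝒪 𝒟)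
    {D : RigidData 𝒪} {A : Type} [CommRing A] [IsLocalRing A] [Algebra 𝒪 A]
    [IsLocalHom (algebraMap 𝒪 A)] (hA : IsArtinianTestAlgebra 𝒪 A) (r : Γℚ →* M₂ A)
    (hr : IsNormalizedLift D r) (hd : 𝒟 (ofMat r hr.cont)) :
    Good 𝒟 D (RingHom.ker (classify (𝒪 := 𝒪) r)) := by
  haveI := finite_of_isArtinianTestAlgebra hA
  have pre : PreGood D (RingHom.ker (classify (𝒪 := 𝒪) r)) :=
    preGood_ker_classify (maximalIdeal_pow_eq_bot_of_isArtinianTestAlgebra hA) r hr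
  refine ⟨pre, ?_⟩
  haveI := pre.adm.isLocalRing
  haveI := pre.adm.isLocalHom
  have hι : IsLocalHom (pre.adm.liftHom r le_rfl :
      (BigB 𝒪 ⧸ RingHom.ker (classify (𝒪 := 𝒪) r)) →+* A) :=
    pre.adm.isLocalHom_liftHom r hr.red le_rfl
  refine hD.of_baseChangeAlong_injective pre.adm.isArtinianTestAlgebra hA
    (pre.adm.liftHom r le_rfl) hι ?_ ?_
  · intro x y hxy
    exact Ideal.kerLiftAlg_injective (classify (𝒪 := 𝒪) r) hxy
  · refine hD.of_isEquiv hA ?_ hd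
    exact ⟨((ofMatBaseChangeEquiv pre.rep pre.isNormalizedLift.cont _ hι).trans
      (ofMatCongr _ _ (pre.mapMat_liftHom_rep r le_rfl))).symm⟩

/-! ### The maximal ideal is good -/

instance isLocalHom_algebraMap_residueField : IsLocalHom (algebraMap 𝒪 (ResidueField 𝒪)) :=
  inferInstanceAs (IsLocalHom (residue 𝒪))

theorem isArtinianTestAlgebra_residueField : IsArtinianTestAlgebra 𝒪 (ResidueField 𝒪) := by
  refine ⟨inferInstance, ?_, inferInstance⟩
  exact (residue_surjective (R := ResidueField 𝒪)).comp (residue_surjective (R := 𝒪))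

theorem isNormalizedLift_rbar (D : RigidData 𝒪) :
    IsNormalizedLift (A := ResidueField 𝒪) D D.rbar := by
  refine ⟨?_, ?_, ?_⟩
  · exact (isMatCont_iff_of_pow_eq_bot
      ⟨1, by rw [pow_one]; exact IsLocalRing.maximalIdeal_eq_bot⟩ D.rbar).mpr D.hrbar
  · rw [RigidData.rbarAt]
    congr 1
    ext x
    obtain ⟨a, rfl⟩ := residue_surjective x
    exact (ResidueField.map_residue (algebraMap 𝒪 (ResidueField 𝒪)) a).symm
  · rw [D.h11, D.h21]
    exact ⟨by simp, by simp, by simp⟩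

theorem mB_eq_ker_classify (D : RigidData 𝒪) :
    mB D = RingHom.ker (classify (𝒪 := 𝒪) (A := ResidueField 𝒪) D.rbar) := rfl

/-- The maximal ideal of the big ring is good, provided the residual representation satisfies
the deformation condition. -/
theorem good_mB [Finite (ResidueField 𝒪)] (hD : IsDeformationCondition 𝒪 𝒟) (D : RigidData 𝒪)
    {ρbar : ResidualGaloisRep (ResidueField 𝒪)} (e0 : ρbar.Equiv (ofMatRes D.rbar D.hrbar))
    (hbar : 𝒟 (GaloisRepAdic.ofResidualGaloisRep ρbar)) : Good 𝒟 D (mB D) := by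
  rw [mB_eq_ker_classify]
  refine good_ker_classify hD isArtinianTestAlgebra_residueField D.rbar
    (isNormalizedLift_rbar D) ?_
  refine hD.of_isEquiv isArtinianTestAlgebra_residueField ?_ hbar
  exact ⟨⟨e0.toLinearEquiv, e0.map_apply⟩⟩

end GoodSec

end Fermat.Agent.S53
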