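import Mathlib.RingTheory.MvPowerSeries.Inverse
import Mathlib.RingTheory.MvPowerSeries.Equiv
import Mathlib.RingTheory.AdicCompletion.Noetherian

set_option autoImplicit false

open IsLocalRing MvPowerSeries

namespace Fermat.Agent.S53

section Filtration

variable (σ : Type*) (A : Type*) [CommRing A] [IsLocalRing A]

/-- The ideal of power series whose coefficient at `α` lies in `m ^ (n - deg α)`. -/
def coeffFiltration (n : ℕ) : Ideal (MvPowerSeries σ A) where
  carrier := {g | ∀ α : σ →₀ ℕ, coeff α g ∈ maximalIdeal A ^ (n - α.degree)}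
  add_mem' := by
    intro f g hf hg α
    rw [map_add]
    exact Ideal.add_mem _ (hf α) (hg α)
  zero_mem' := by
    intro α
    rw [map_zero]
    exact Ideal.zero_mem _
  smul_mem' := by
    intro c g hg α
    classical
    rw [smul_eq_mul, coeff_mul]
    refine Ideal.sum_mem _ fun p hp => ?_
    refine Ideal.mul_mem_left _ _ ?_
    have hle : (p.2).degree ≤ α.degree := by
      rw [Finset.mem_antidiagonal] at hp
      rw [← hp, map_add]
      exact Nat.le_add_left _ _
    exact Ideal.pow_le_pow_right (by omega) (hg p.2)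

variable {σ A}

theorem mem_coeffFiltration {n : ℕ} {g : MvPowerSeries σ A} :
    g ∈ coeffFiltration σ A n ↔ ∀ α : σ →₀ ℕ, coeff α g ∈ maximalIdeal A ^ (n - α.degree) :=
  Iff.rfl

theorem coeffFiltration_mul_le (a b : ℕ) :
    coeffFiltration σ A a * coeffFiltration σ A b ≤ coeffFiltration σ A (a + b) := by
  rw [Ideal.mul_le]
  intro f hf g hg α
  classical
  rw [coeff_mul]
  refine Ideal.sum_mem _ fun p hp => ?_
  have hdeg : (p.1).degree + (p.2).degree = α.degree := by
    rw [Finset.mem_antidiagonal] at hp
    rw [← hp, map_add]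
  have h1 := hf p.1
  have h2 := hg p.2
  have h3 : coeff p.1 f * coeff p.2 g ∈
      maximalIdeal A ^ ((a - (p.1).degree) + (b - (p.2).degree)) := by
    rw [pow_add]
    exact Ideal.mul_mem_mul h1 h2
  exact Ideal.pow_le_pow_right (by omega) h3

theorem maximalIdeal_le_coeffFiltration_one :
    maximalIdeal (MvPowerSeries σ A) ≤ coeffFiltration σ A 1 := by
  intro g hg α
  by_cases hα : α = 0
  · subst hα
    rw [mem_maximalIdeal, mem_nonunits_iff, MvPowerSeries.isUnit_iff_constantCoeff] at hg
    simpa using hg
  · have : 1 - α.degree = 0 := by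
      have : α.degree ≠ 0 := by
        rwa [Ne, Finsupp.degree_eq_zero_iff]
      omega
    rw [this, pow_zero, Ideal.one_eq_top]
    exact Submodule.mem_top

theorem maximalIdeal_pow_le_coeffFiltration (n : ℕ) :
    maximalIdeal (MvPowerSeries σ A) ^ n ≤ coeffFiltration σ A n := by
  induction n with
  | zero =>
    intro g _ α
    simp
  | succ n ih =>
    rw [pow_succ]
    exact (Ideal.mul_mono ih maximalIdeal_le_coeffFiltration_one).trans
      (coeffFiltration_mul_le n 1)

end Filtration

section Decomp

variable {σ : Type*} {A : Type*} [CommRing A]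

open Classical in
/-- choose a variable occurring in a nonzero monomial -/
noncomputable def selVar (α : σ →₀ ℕ) : Option σ :=
  if h : α.support.Nonempty then some h.choose else none

theorem selVar_zero : selVar (0 : σ →₀ ℕ) = none := by
  simp [selVar]

theorem selVar_of_ne_zero {α : σ →₀ ℕ} (h : α ≠ 0) :
    ∃ s, selVar α = some s ∧ Finsupp.single s 1 ≤ α := by
  have hne : α.support.Nonempty := Finsupp.support_nonempty_iff.mpr h
  refine ⟨hne.choose, by simp [selVar, hne], ?_⟩
  have hmem := hne.choose_spec
  rw [Finsupp.mem_support_iff] at hmem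
  rw [Finsupp.single_le_iff]
  omega

open Classical in
/-- the part of `g` divisible by `X s` according to `selVar`, divided by `X s` -/
noncomputable def shiftPart (g : MvPowerSeries σ A) (s : σ) : MvPowerSeries σ A :=
  fun β => if selVar (β + Finsupp.single s 1) = some s then coeff (β + Finsupp.single s 1) g else 0

open Classical in
theorem coeff_shiftPart (g : MvPowerSeries σ A) (s : σ) (β : σ →₀ ℕ) :
    coeff β (shiftPart g s) =
      if selVar (β + Finsupp.single s 1) = some s then coeff (β + Finsupp.single s 1) g else 0 :=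
  rfl

theorem eq_C_add_sum_X_mul_shiftPart [Fintype σ] (g : MvPowerSeries σ A) :
    g = C (constantCoeff g) + ∑ s, X s * shiftPart g s := by
  classical
  ext α
  rw [map_add, map_sum]
  by_cases hα : α = 0
  · subst hα
    rw [coeff_zero_C, Finset.sum_eq_zero, add_zero, coeff_zero_eq_constantCoeff_apply]
    intro s _
    rw [X, coeff_monomial_mul, if_neg]
    intro hle
    have := Finsupp.le_def.mp hle s
    simp at this
  · obtain ⟨s₀, hs₀, hle₀⟩ := selVar_of_ne_zero hα
    rw [coeff_C, if_neg hα, zero_add]
    rw [Finset.sum_eq_single s₀]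
    · rw [X, coeff_monomial_mul, if_pos hle₀, one_mul, coeff_shiftPart,
        tsub_add_cancel_of_le hle₀, if_pos hs₀]
    · intro s _ hs
      rw [X, coeff_monomial_mul]
      split_ifs with hle
      · rw [one_mul, coeff_shiftPart, tsub_add_cancel_of_le hle, if_neg]
        rw [hs₀]
        intro h
        exact hs (Option.some.inj h).symm
      · rfl
    · intro h
      exact absurd (Finset.mem_univ s₀) h

end Decomp

section LemmaB

variable {σ : Type*} {A : Type*} [CommRing A] [IsLocalRing A]

theorem X_mem_maximalIdeal (s : σ) : (X s : MvPowerSeries σ A) ∈ maximalIdeal (MvPowerSeries σ A) := by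
  rw [mem_maximalIdeal, mem_nonunits_iff, MvPowerSeries.isUnit_iff_constantCoeff]
  simp

theorem map_C_maximalIdeal_le :
    (maximalIdeal A).map (C : A →+* MvPowerSeries σ A) ≤ maximalIdeal (MvPowerSeries σ A) := by
  rw [Ideal.map_le_iff_le_comap]
  intro a ha
  rw [Ideal.mem_comap, mem_maximalIdeal, mem_nonunits_iff, MvPowerSeries.isUnit_iff_constantCoeff]
  simpa using ha

theorem C_mem_maximalIdeal_pow {a : A} {k : ℕ} (ha : a ∈ maximalIdeal A ^ k) :
    (C a : MvPowerSeries σ A) ∈ maximalIdeal (MvPowerSeries σ A) ^ k := by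
  have h1 : (C a : MvPowerSeries σ A) ∈ (maximalIdeal A ^ k).map (C : A →+* MvPowerSeries σ A) :=
    Ideal.mem_map_of_mem _ ha
  rw [Ideal.map_pow] at h1
  exact Ideal.pow_right_mono map_C_maximalIdeal_le k h1

theorem coeffFiltration_le_maximalIdeal_pow [Fintype σ] (n : ℕ) :
    coeffFiltration σ A n ≤ maximalIdeal (MvPowerSeries σ A) ^ n := by
  induction n with
  | zero => simp
  | succ n ih =>
    intro g hg
    rw [eq_C_add_sum_X_mul_shiftPart g]
    refine Ideal.add_mem _ ?_ (Ideal.sum_mem _ fun s _ => ?_)
    · apply C_mem_maximalIdeal_pow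
      have h0 := hg 0
      simpa using h0
    · rw [pow_succ']
      refine Ideal.mul_mem_mul (X_mem_maximalIdeal s) (ih ?_)
      intro β
      rw [coeff_shiftPart]
      split_ifs
      · have h1 := hg (β + Finsupp.single s 1)
        have h2 : n + 1 - (β + Finsupp.single s 1).degree = n - β.degree := by
          rw [map_add, Finsupp.degree_single]
          omega
        rwa [h2] at h1
      · exact Ideal.zero_mem _

end LemmaB

section Complete

variable {σ : Type*} {A : Type*} [CommRing A] [IsLocalRing A]

theorem isPrecomplete_mvPowerSeries [Fintype σ] [IsPrecomplete (maximalIdeal A) A] :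
    IsPrecomplete (maximalIdeal (MvPowerSeries σ A)) (MvPowerSeries σ A) := by
  refine ⟨fun f hf => ?_⟩
  have hf' : ∀ {m n}, m ≤ n → f m - f n ∈ maximalIdeal (MvPowerSeries σ A) ^ m := by
    intro m n hmn
    have h1 := hf hmn
    rw [SModEq.sub_mem] at h1
    simpa using h1
  have hcoeff : ∀ α : σ →₀ ℕ, ∃ L : A, ∀ j,
      coeff α (f (j + α.degree)) ≡ L [SMOD (maximalIdeal A ^ j • ⊤ : Submodule A A)] := by
    intro α
    apply IsPrecomplete.prec ‹_›
    intro m n hmn
    rw [SModEq.sub_mem]
    have h1 := maximalIdeal_pow_le_coeffFiltration _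
      (hf' (show m + α.degree ≤ n + α.degree by omega)) α
    rw [map_sub] at h1
    simpa using h1
  choose L hL using hcoeff
  obtain ⟨Lser, hLser⟩ : ∃ Lser : MvPowerSeries σ A, ∀ α, coeff α Lser = L α :=
    ⟨fun α => L α, fun α => rfl⟩
  refine ⟨Lser, fun n => ?_⟩
  rw [SModEq.sub_mem]
  have hmem : f n - Lser ∈ coeffFiltration σ A n := by
    intro α
    rw [map_sub, hLser]
    by_cases h : α.degree ≤ n
    · have h1 := hL α (n - α.degree)
      rw [Nat.sub_add_cancel h, SModEq.sub_mem] at h1
      simpa using h1
    · have h0 : n - α.degree = 0 := by omega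
      rw [h0, pow_zero, Ideal.one_eq_top]
      exact Submodule.mem_top
  simpa using coeffFiltration_le_maximalIdeal_pow n hmem

theorem isAdicComplete_mvPowerSeries [Finite σ] [IsNoetherianRing A]
    [IsAdicComplete (maximalIdeal A) A] :
    IsAdicComplete (maximalIdeal (MvPowerSeries σ A)) (MvPowerSeries σ A) := by
  cases nonempty_fintype σ
  have := isPrecomplete_mvPowerSeries (σ := σ) (A := A)
  exact { }

end Complete

end Fermat.Agent.S53
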