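import Mathlib.RingTheory.MvPowerSeries.Inverse
import Mathlib.RingTheory.MvPowerSeries.Equiv
import Mathlib.RingTheory.AdicCompletion.Noetherian
import Mathlib.RingTheory.AdicCompletion.RingHom
import Mathlib.RingTheory.Ideal.Quotient.Noetherian
import Fermat.Prelude.Thm_IsLocalRing_isAdicComplete_of_module_finite
import Fermat.Agent.S53.PowerSeriesComplete

set_option autoImplicit false

open IsLocalRing MvPowerSeries

namespace Fermat.Agent.S53

/-- Hypotheses on a tower of quotients `B ⧸ b n` of a fixed `𝒪`-algebra `B`. -/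
structure TowerHyp {𝒪 : Type} [CommRing 𝒪] [IsLocalRing 𝒪] {B : Type} [CommRing B] [Algebra 𝒪 B]
    (mB : Ideal B) (b : ℕ → Ideal B) {d : ℕ} (t : Fin d → B) : Prop where
  ne_top : mB ≠ ⊤
  res : ∀ x : B, ∃ a : 𝒪, x - algebraMap 𝒪 B a ∈ mB
  map_le : (maximalIdeal 𝒪).map (algebraMap 𝒪 B) ≤ mB
  pow_le : ∀ n, mB ^ n ≤ b n
  le_max : ∀ n, 1 ≤ n → b n ≤ mB
  anti : ∀ n, b (n + 1) ≤ b n
  step : ∀ n, b n ≤ b (n + 1) ⊔ mB ^ n
  t_mem : ∀ i, t i ∈ mB
  gen : mB ≤ Ideal.span (Set.range t) ⊔ (maximalIdeal 𝒪).map (algebraMap 𝒪 B) ⊔ mB ^ 2 ⊔ b 2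

section Construction

variable {𝒪 : Type} [CommRing 𝒪] [IsLocalRing 𝒪]
  {B : Type} [CommRing B] [Algebra 𝒪 B]
  {mB : Ideal B} {b : ℕ → Ideal B} {d : ℕ} {t : Fin d → B}

namespace TowerHyp

variable (h : TowerHyp (𝒪 := 𝒪) mB b t)
include h

theorem antitone {m n : ℕ} (hmn : m ≤ n) : b n ≤ b m := by
  induction hmn with
  | refl => exact le_rfl
  | step _ ih => exact (h.anti _).trans ih

/-- the maximal ideal of `B ⧸ b n` has vanishing `n`-th power -/
theorem map_mk_pow_eq_bot (n : ℕ) : (mB.map (Ideal.Quotient.mk (b n))) ^ n = ⊥ := by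
  rw [← Ideal.map_pow]
  exact Ideal.map_mk_eq_bot_of_le (h.pow_le n)

end TowerHyp

/-- polynomial evaluation at `t` modulo `b n` -/
noncomputable def evalPoly (𝒪 : Type) [CommRing 𝒪] {B : Type} [CommRing B] [Algebra 𝒪 B]
    (b : ℕ → Ideal B) {d : ℕ} (t : Fin d → B) (n : ℕ) :
    MvPolynomial (Fin d) 𝒪 →ₐ[𝒪] B ⧸ b n :=
  MvPolynomial.aeval (fun i => Ideal.Quotient.mk (b n) (t i))

@[simp]
theorem evalPoly_X (n : ℕ) (i : Fin d) :
    evalPoly 𝒪 b t n (MvPolynomial.X i) = Ideal.Quotient.mk (b n) (t i) := by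
  simp [evalPoly]

theorem TowerHyp.evalPoly_eq_zero (h : TowerHyp (𝒪 := 𝒪) mB b t) (n : ℕ)
    (q : MvPolynomial (Fin d) 𝒪) (hq : q ∈ MvPolynomial.idealOfVars (Fin d) 𝒪 ^ n) :
    evalPoly 𝒪 b t n q = 0 := by
  have h1 : MvPolynomial.idealOfVars (Fin d) 𝒪 ≤
      (mB.map (Ideal.Quotient.mk (b n))).comap (evalPoly 𝒪 b t n : _ →+* _) := by
    rw [MvPolynomial.idealOfVars, Ideal.span_le]
    rintro _ ⟨i, rfl⟩
    rw [SetLike.mem_coe, Ideal.mem_comap]
    show evalPoly 𝒪 b t n (MvPolynomial.X i) ∈ _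
    rw [evalPoly_X]
    exact Ideal.mem_map_of_mem _ (h.t_mem i)
  have h2 := (Ideal.pow_right_mono h1 n).trans (Ideal.le_comap_pow _ n)
  have h3 := h2 hq
  rw [Ideal.mem_comap, h.map_mk_pow_eq_bot n] at h3
  exact h3

/-- The map `𝒪⟦X₁..X_d⟧ → B ⧸ b n` sending `X i` to `t i`. -/
noncomputable def TowerHyp.phi (h : TowerHyp (𝒪 := 𝒪) mB b t) (n : ℕ) :
    MvPowerSeries (Fin d) 𝒪 →ₐ[𝒪] B ⧸ b n :=
  (Ideal.Quotient.liftₐ (MvPolynomial.idealOfVars (Fin d) 𝒪 ^ n) (evalPoly 𝒪 b t n)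
    (h.evalPoly_eq_zero n)).comp ((truncTotalAlgHom (Fin d) 𝒪 n).restrictScalars 𝒪)

theorem TowerHyp.phi_apply (h : TowerHyp (𝒪 := 𝒪) mB b t) (n : ℕ) (p : MvPowerSeries (Fin d) 𝒪) :
    h.phi n p = evalPoly 𝒪 b t n (truncTotal n p) := by
  rfl

namespace TowerHyp

variable (h : TowerHyp (𝒪 := 𝒪) mB b t)
include h

theorem phi_coe (n : ℕ) (q : MvPolynomial (Fin d) 𝒪) :
    h.phi n (q : MvPowerSeries (Fin d) 𝒪) = evalPoly 𝒪 b t n q := by
  have h1 : (truncTotalAlgHom (Fin d) 𝒪 n) (q : MvPowerSeries (Fin d) 𝒪) =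
      Ideal.Quotient.mk _ q :=
    (truncTotalAlgHom (Fin d) 𝒪 n).commutes q
  show (Ideal.Quotient.liftₐ (MvPolynomial.idealOfVars (Fin d) 𝒪 ^ n) (evalPoly 𝒪 b t n)
    (h.evalPoly_eq_zero n)) ((truncTotalAlgHom (Fin d) 𝒪 n) (q : MvPowerSeries (Fin d) 𝒪)) = _
  rw [h1]
  rfl

theorem phi_X (n : ℕ) (i : Fin d) :
    h.phi n (X i) = Ideal.Quotient.mk (b n) (t i) := by
  rw [← MvPolynomial.coe_X, phi_coe, evalPoly_X]

theorem phi_C (n : ℕ) (a : 𝒪) :
    h.phi n (C a) = Ideal.Quotient.mk (b n) (algebraMap 𝒪 B a) := by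
  have h1 : (C a : MvPowerSeries (Fin d) 𝒪) = algebraMap 𝒪 (MvPowerSeries (Fin d) 𝒪) a := by
    rw [MvPowerSeries.algebraMap_apply]
    rfl
  rw [h1, AlgHom.commutes]
  rfl

theorem factor_comp_phi {m n : ℕ} (hmn : m ≤ n) :
    (Ideal.Quotient.factorₐ 𝒪 (h.antitone hmn)).comp (h.phi n) = h.phi m := by
  ext p
  rw [AlgHom.comp_apply, phi_apply, phi_apply]
  have h1 : (Ideal.Quotient.factorₐ 𝒪 (h.antitone hmn)).comp (evalPoly 𝒪 b t n) =
      evalPoly 𝒪 b t m := by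
    apply MvPolynomial.algHom_ext
    intro i
    rw [AlgHom.comp_apply, evalPoly_X, evalPoly_X]
    rfl
  have h2 : (Ideal.Quotient.factorₐ 𝒪 (h.antitone hmn)) (evalPoly 𝒪 b t n (truncTotal n p)) =
      evalPoly 𝒪 b t m (truncTotal n p) := by
    rw [← AlgHom.comp_apply, h1]
  rw [h2, ← sub_eq_zero, ← map_sub]
  exact h.evalPoly_eq_zero m _
    (truncTotal_sub_truncTotal_mem_pow_idealOfVars hmn le_rfl p)

theorem phi_mem_of_mem_maximalIdeal (n : ℕ) {p : MvPowerSeries (Fin d) 𝒪}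
    (hp : p ∈ maximalIdeal (MvPowerSeries (Fin d) 𝒪)) :
    h.phi n p ∈ mB.map (Ideal.Quotient.mk (b n)) := by
  rw [eq_C_add_sum_X_mul_shiftPart p, map_add, map_sum]
  refine Ideal.add_mem _ ?_ (Ideal.sum_mem _ fun s _ => ?_)
  · rw [phi_C]
    refine Ideal.mem_map_of_mem _ (h.map_le (Ideal.mem_map_of_mem _ ?_))
    rw [mem_maximalIdeal, mem_nonunits_iff, MvPowerSeries.isUnit_iff_constantCoeff] at hp
    exact hp
  · rw [map_mul, phi_X]
    exact Ideal.mul_mem_right _ _ (Ideal.mem_map_of_mem _ (h.t_mem s))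

theorem b_two_le (n : ℕ) : b 2 ≤ b n ⊔ mB ^ 2 := by
  rcases le_total n 2 with hn | hn
  · exact (h.antitone hn).trans le_sup_left
  · induction n, hn using Nat.le_induction with
    | base => exact le_sup_left
    | succ n hn ih =>
      refine ih.trans (sup_le ?_ le_sup_right)
      refine (h.step n).trans (sup_le le_sup_left ?_)
      exact (Ideal.pow_le_pow_right hn).trans le_sup_right

theorem maxB_le_aux (n j : ℕ) (hj : 2 ≤ j) :
    mB ≤ Ideal.span (Set.range t) ⊔ (maximalIdeal 𝒪).map (algebraMap 𝒪 B) ⊔ b n ⊔ mB ^ j := by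
  set T := Ideal.span (Set.range t) ⊔ (maximalIdeal 𝒪).map (algebraMap 𝒪 B) with hT
  have h2 : mB ≤ T ⊔ b n ⊔ mB ^ 2 := by
    refine h.gen.trans (sup_le (sup_le ?_ le_sup_right) ?_)
    · exact le_sup_left.trans le_sup_left
    · exact (h.b_two_le n).trans (sup_le (le_sup_right.trans le_sup_left) le_sup_right)
  induction j, hj using Nat.le_induction with
  | base => exact h2
  | succ j hj ih =>
    have h3 : mB ^ 2 ≤ T ⊔ b n ⊔ mB ^ (j + 1) := by
      have a1 : mB * T ≤ T := Ideal.mul_le_right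
      have a2 : mB * b n ≤ b n := Ideal.mul_le_right
      have a3 : mB * mB ^ j = mB ^ (j + 1) := (pow_succ' mB j).symm
      calc mB ^ 2 = mB * mB := pow_two mB
        _ ≤ mB * (T ⊔ b n ⊔ mB ^ j) := Ideal.mul_mono_right ih
        _ = mB * T ⊔ mB * b n ⊔ mB * mB ^ j := by rw [Ideal.mul_sup, Ideal.mul_sup]
        _ ≤ T ⊔ b n ⊔ mB ^ (j + 1) := sup_le_sup (sup_le_sup a1 a2) a3.le
    exact h2.trans (sup_le le_sup_left h3)

theorem maxB_le (n : ℕ) :
    mB ≤ Ideal.span (Set.range t) ⊔ (maximalIdeal 𝒪).map (algebraMap 𝒪 B) ⊔ b n := by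
  refine (h.maxB_le_aux n (max n 2) (le_max_right _ _)).trans (sup_le le_rfl ?_)
  exact ((Ideal.pow_le_pow_right (le_max_left n 2)).trans (h.pow_le n)).trans le_sup_right

theorem map_phi_maximalIdeal (n : ℕ) :
    (maximalIdeal (MvPowerSeries (Fin d) 𝒪)).map (h.phi n : MvPowerSeries (Fin d) 𝒪 →+* B ⧸ b n) =
      mB.map (Ideal.Quotient.mk (b n)) := by
  apply le_antisymm
  · rw [Ideal.map_le_iff_le_comap]
    intro p hp
    exact h.phi_mem_of_mem_maximalIdeal n hp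
  · refine (Ideal.map_mono (h.maxB_le n)).trans ?_
    rw [Ideal.map_sup, Ideal.map_sup, Ideal.map_span, Ideal.map_map]
    refine sup_le (sup_le ?_ ?_) ?_
    · rw [Ideal.span_le]
      rintro _ ⟨_, ⟨i, rfl⟩, rfl⟩
      have h1 : (Ideal.Quotient.mk (b n)) (t i) = (h.phi n : MvPowerSeries (Fin d) 𝒪 →+* B ⧸ b n) (X i) :=
        (h.phi_X n i).symm
      rw [h1]
      exact Ideal.mem_map_of_mem _ (X_mem_maximalIdeal i)
    · rw [Ideal.map_le_iff_le_comap]
      intro a ha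
      rw [Ideal.mem_comap]
      have h1 : ((Ideal.Quotient.mk (b n)).comp (algebraMap 𝒪 B)) a =
          (h.phi n : MvPowerSeries (Fin d) 𝒪 →+* B ⧸ b n) (C a) := (h.phi_C n a).symm
      rw [h1]
      refine Ideal.mem_map_of_mem _ (map_C_maximalIdeal_le (Ideal.mem_map_of_mem _ ha))
    · rw [Ideal.map_mk_eq_bot_of_le le_rfl]
      exact bot_le

theorem exists_sub_phi_mem (n : ℕ) (c : B ⧸ b n) :
    ∃ q : MvPowerSeries (Fin d) 𝒪, c - h.phi n q ∈ mB.map (Ideal.Quotient.mk (b n)) := by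
  obtain ⟨x, rfl⟩ := Ideal.Quotient.mk_surjective c
  obtain ⟨a, ha⟩ := h.res x
  refine ⟨C a, ?_⟩
  rw [phi_C, ← map_sub]
  exact Ideal.mem_map_of_mem _ ha

theorem exists_sub_phi_mem_pow_succ (n j : ℕ) (y : B ⧸ b n)
    (hy : y ∈ (mB.map (Ideal.Quotient.mk (b n))) ^ j) :
    ∃ q ∈ maximalIdeal (MvPowerSeries (Fin d) 𝒪) ^ j,
      y - h.phi n q ∈ (mB.map (Ideal.Quotient.mk (b n))) ^ (j + 1) := by
  have hmap : ∀ q ∈ maximalIdeal (MvPowerSeries (Fin d) 𝒪) ^ j,
      h.phi n q ∈ (mB.map (Ideal.Quotient.mk (b n))) ^ j := by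
    intro q hq
    rw [← h.map_phi_maximalIdeal n, ← Ideal.map_pow]
    exact Ideal.mem_map_of_mem _ hq
  rw [← h.map_phi_maximalIdeal n, ← Ideal.map_pow, Ideal.map] at hy
  induction hy using Submodule.span_induction with
  | mem y hy =>
    obtain ⟨p, hp, rfl⟩ := hy
    exact ⟨p, hp, by simp⟩
  | zero => exact ⟨0, Ideal.zero_mem _, by simp⟩
  | add y z _ _ ihy ihz =>
    obtain ⟨q1, hq1, h1⟩ := ihy
    obtain ⟨q2, hq2, h2⟩ := ihz
    refine ⟨q1 + q2, Ideal.add_mem _ hq1 hq2, ?_⟩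
    have : y + z - h.phi n (q1 + q2) = (y - h.phi n q1) + (z - h.phi n q2) := by
      rw [map_add]; ring
    rw [this]
    exact Ideal.add_mem _ h1 h2
  | smul c y _ ihy =>
    obtain ⟨q, hq, h1⟩ := ihy
    obtain ⟨qc, hqc⟩ := h.exists_sub_phi_mem n c
    refine ⟨qc * q, Ideal.mul_mem_left _ _ hq, ?_⟩
    have : c • y - h.phi n (qc * q) = c * (y - h.phi n q) + (c - h.phi n qc) * h.phi n q := by
      rw [map_mul, smul_eq_mul]; ring
    rw [this]
    refine Ideal.add_mem _ (Ideal.mul_mem_left _ _ h1) ?_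
    rw [pow_succ']
    exact Ideal.mul_mem_mul hqc (hmap q hq)

theorem exists_sub_phi_mem_pow (n j : ℕ) (c : B ⧸ b n) :
    ∃ q : MvPowerSeries (Fin d) 𝒪, c - h.phi n q ∈ (mB.map (Ideal.Quotient.mk (b n))) ^ j := by
  induction j with
  | zero => exact ⟨0, by simp⟩
  | succ j ih =>
    obtain ⟨q, hq⟩ := ih
    obtain ⟨q', -, hq'⟩ := h.exists_sub_phi_mem_pow_succ n j _ hq
    refine ⟨q + q', ?_⟩
    have : c - h.phi n (q + q') = c - h.phi n q - h.phi n q' := by
      rw [map_add]; ring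
    rw [this]
    exact hq'

theorem phi_surjective (n : ℕ) : Function.Surjective (h.phi n) := by
  intro c
  obtain ⟨q, hq⟩ := h.exists_sub_phi_mem_pow n n c
  rw [h.map_mk_pow_eq_bot n, Ideal.mem_bot, sub_eq_zero] at hq
  exact ⟨q, hq.symm⟩

/-- the kernel of `phi n` -/
noncomputable def ker (n : ℕ) : Ideal (MvPowerSeries (Fin d) 𝒪) :=
  RingHom.ker (h.phi n : MvPowerSeries (Fin d) 𝒪 →+* B ⧸ b n)

theorem mem_ker {n : ℕ} {p : MvPowerSeries (Fin d) 𝒪} : p ∈ h.ker n ↔ h.phi n p = 0 :=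
  Iff.rfl

theorem pow_le_ker (n : ℕ) : maximalIdeal (MvPowerSeries (Fin d) 𝒪) ^ n ≤ h.ker n := by
  intro p hp
  rw [mem_ker]
  have h1 : h.phi n p ∈ (maximalIdeal (MvPowerSeries (Fin d) 𝒪) ^ n).map
      (h.phi n : MvPowerSeries (Fin d) 𝒪 →+* B ⧸ b n) := Ideal.mem_map_of_mem _ hp
  rw [Ideal.map_pow, h.map_phi_maximalIdeal n, h.map_mk_pow_eq_bot n] at h1
  exact h1

theorem ker_antitone {m n : ℕ} (hmn : m ≤ n) : h.ker n ≤ h.ker m := by
  intro p hp
  rw [mem_ker] at hp ⊢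
  rw [← h.factor_comp_phi hmn, AlgHom.comp_apply, hp, map_zero]

theorem ker_le_sup (n : ℕ) :
    h.ker n ≤ h.ker (n + 1) ⊔ maximalIdeal (MvPowerSeries (Fin d) 𝒪) ^ n := by
  intro p hp
  rw [mem_ker] at hp
  obtain ⟨x, hx⟩ := Ideal.Quotient.mk_surjective (h.phi (n + 1) p)
  have h1 : x ∈ b n := by
    rw [← Ideal.Quotient.eq_zero_iff_mem, ← hp, ← h.factor_comp_phi (Nat.le_succ n),
      AlgHom.comp_apply, ← hx]
    rfl
  have h2 : h.phi (n + 1) p ∈ (mB.map (Ideal.Quotient.mk (b (n + 1)))) ^ n := by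
    rw [← hx, ← Ideal.map_pow]
    have h3 := Ideal.mem_map_of_mem (Ideal.Quotient.mk (b (n + 1))) (h.step n h1)
    rwa [Ideal.map_sup, Ideal.map_mk_eq_bot_of_le le_rfl, bot_sup_eq] at h3
  rw [← h.map_phi_maximalIdeal (n + 1), ← Ideal.map_pow] at h2
  obtain ⟨p', hp', hpp'⟩ := (Ideal.mem_map_iff_of_surjective
    (h.phi (n + 1) : MvPowerSeries (Fin d) 𝒪 →+* B ⧸ b (n + 1)) (h.phi_surjective (n + 1))).mp h2
  have h4 : p - p' ∈ h.ker (n + 1) := by
    rw [mem_ker, map_sub, sub_eq_zero]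
    exact hpp'.symm
  have : p = (p - p') + p' := by ring
  rw [this]
  exact Ideal.add_mem _ (Ideal.mem_sup_left h4) (Ideal.mem_sup_right hp')

theorem ker_le_maximalIdeal {n : ℕ} (hn : 1 ≤ n) :
    h.ker n ≤ maximalIdeal (MvPowerSeries (Fin d) 𝒪) := by
  intro p hp
  rw [mem_ker] at hp
  rw [mem_maximalIdeal, mem_nonunits_iff]
  intro hu
  have h1 : IsUnit (h.phi n p) := hu.map (h.phi n)
  rw [hp, isUnit_zero_iff] at h1
  have h2 : (1 : B) ∈ b n := by
    rw [← Ideal.Quotient.eq_zero_iff_mem, map_one]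
    exact h1.symm
  exact h.ne_top ((Ideal.eq_top_iff_one _).mpr (h.le_max n hn h2))

/-- the intersection of the kernels of all `phi n` -/
noncomputable def kerInf : Ideal (MvPowerSeries (Fin d) 𝒪) := ⨅ n, h.ker n

theorem kerInf_le (n : ℕ) : h.kerInf ≤ h.ker n := iInf_le _ n

theorem ker_le_kerInf_sup [IsNoetherianRing 𝒪] [IsAdicComplete (maximalIdeal 𝒪) 𝒪] (n : ℕ) :
    h.ker n ≤ h.kerInf ⊔ maximalIdeal (MvPowerSeries (Fin d) 𝒪) ^ n := by
  intro p hp
  have key : ∀ (j : ℕ) (q : MvPowerSeries (Fin d) 𝒪), q ∈ h.ker (n + j) →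
      ∃ q', q' ∈ h.ker (n + j + 1) ∧
        q - q' ∈ maximalIdeal (MvPowerSeries (Fin d) 𝒪) ^ (n + j) := by
    intro j q hq
    obtain ⟨y, hy, z, hz, hyz⟩ := Submodule.mem_sup.mp (h.ker_le_sup (n + j) hq)
    refine ⟨y, hy, ?_⟩
    rw [← hyz, add_sub_cancel_left]
    exact hz
  choose! next hnext1 hnext2 using key
  let q : ℕ → MvPowerSeries (Fin d) 𝒪 := fun j => Nat.rec p (fun j qj => next j qj) j
  have hqs : ∀ j, q (j + 1) = next j (q j) := fun j => rfl
  have hqmem : ∀ j, q j ∈ h.ker (n + j) := by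
    intro j
    induction j with
    | zero => exact hp
    | succ j ih => rw [hqs]; exact hnext1 j (q j) ih
  have hqdiff : ∀ j, q j - q (j + 1) ∈ maximalIdeal (MvPowerSeries (Fin d) 𝒪) ^ (n + j) := by
    intro j
    rw [hqs]
    exact hnext2 j (q j) (hqmem j)
  have hcauchy : ∀ i j, i ≤ j →
      (p - q i) - (p - q j) ∈ maximalIdeal (MvPowerSeries (Fin d) 𝒪) ^ (n + i) := by
    intro i j hij
    induction j, hij using Nat.le_induction with
    | base => simp
    | succ j hij ih =>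
      have e : (p - q i) - (p - q (j + 1)) = ((p - q i) - (p - q j)) - (q j - q (j + 1)) := by
        ring
      rw [e]
      exact Ideal.sub_mem _ ih (Ideal.pow_le_pow_right (by omega) (hqdiff j))
  have hP : IsAdicComplete (maximalIdeal (MvPowerSeries (Fin d) 𝒪)) (MvPowerSeries (Fin d) 𝒪) :=
    isAdicComplete_mvPowerSeries
  obtain ⟨L, hL⟩ := IsPrecomplete.prec hP.toIsPrecomplete (f := fun j => p - q j) (by
    intro i j hij
    rw [SModEq.sub_mem]
    have h1 := hcauchy i j hij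
    have h2 : maximalIdeal (MvPowerSeries (Fin d) 𝒪) ^ (n + i) ≤
        maximalIdeal (MvPowerSeries (Fin d) 𝒪) ^ i := Ideal.pow_le_pow_right (by omega)
    simpa using h2 h1)
  have hL' : ∀ j, (p - q j) - L ∈ maximalIdeal (MvPowerSeries (Fin d) 𝒪) ^ j := by
    intro j
    have h1 := hL j
    rw [SModEq.sub_mem] at h1
    simpa using h1
  have hLn : L ∈ maximalIdeal (MvPowerSeries (Fin d) 𝒪) ^ n := by
    have h1 : (p - p) - (p - q n) ∈ maximalIdeal (MvPowerSeries (Fin d) 𝒪) ^ n :=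
      hcauchy 0 n (Nat.zero_le n)
    have h2 := hL' n
    rw [sub_self, zero_sub, neg_mem_iff] at h1
    have e : L = (p - q n) - ((p - q n) - L) := by ring
    rw [e]
    exact Ideal.sub_mem _ h1 h2
  have hpL : p - L ∈ h.kerInf := by
    rw [kerInf, Ideal.mem_iInf]
    intro j
    have e : p - L = q j + ((p - q j) - L) := by ring
    rw [e]
    exact Ideal.add_mem _ (h.ker_antitone (Nat.le_add_left j n) (hqmem j))
      (h.pow_le_ker j (hL' j))
  have e : p = (p - L) + L := by ring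
  rw [e]
  exact Ideal.add_mem _ (Ideal.mem_sup_left hpL) (Ideal.mem_sup_right hLn)

theorem kerInf_le_maximalIdeal : h.kerInf ≤ maximalIdeal (MvPowerSeries (Fin d) 𝒪) :=
  (h.kerInf_le 1).trans (h.ker_le_maximalIdeal le_rfl)

theorem kerInf_ne_top : h.kerInf ≠ ⊤ := by
  intro e
  have h1 := h.kerInf_le_maximalIdeal
  rw [e, top_le_iff] at h1
  exact (maximalIdeal.isMaximal (MvPowerSeries (Fin d) 𝒪)).ne_top h1

end TowerHyp

/-- the limit ring, a quotient of the power series ring -/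
abbrev LimitRing (h : TowerHyp (𝒪 := 𝒪) mB b t) : Type :=
  MvPowerSeries (Fin d) 𝒪 ⧸ h.kerInf

namespace TowerHyp

variable (h : TowerHyp (𝒪 := 𝒪) mB b t)

theorem nontrivial_limitRing : Nontrivial (LimitRing h) :=
  Ideal.Quotient.nontrivial_iff.mpr h.kerInf_ne_top

theorem isLocalRing_limitRing : IsLocalRing (LimitRing h) :=
  haveI := h.nontrivial_limitRing
  IsLocalRing.of_surjective' (Ideal.Quotient.mk h.kerInf) Ideal.Quotient.mk_surjective

theorem isLocalHom_mk :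
    IsLocalHom (Ideal.Quotient.mk h.kerInf) :=
  haveI := h.nontrivial_limitRing
  IsLocalHom.of_surjective (Ideal.Quotient.mk h.kerInf) Ideal.Quotient.mk_surjective

theorem map_mk_maximalIdeal :
    haveI := h.isLocalRing_limitRing
    (maximalIdeal (MvPowerSeries (Fin d) 𝒪)).map (Ideal.Quotient.mk h.kerInf) =
      maximalIdeal (LimitRing h) := by
  haveI := h.nontrivial_limitRing
  haveI := h.isLocalRing_limitRing
  haveI := h.isLocalHom_mk
  ext x
  obtain ⟨x, rfl⟩ := Ideal.Quotient.mk_surjective x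
  simp [sup_eq_left.mpr (le_maximalIdeal h.kerInf_ne_top)]

theorem isAdicComplete_limitRing [IsNoetherianRing 𝒪] [IsAdicComplete (maximalIdeal 𝒪) 𝒪] :
    haveI := h.isLocalRing_limitRing
    IsAdicComplete (maximalIdeal (LimitRing h)) (LimitRing h) := by
  haveI := h.isLocalRing_limitRing
  haveI : IsAdicComplete (maximalIdeal (MvPowerSeries (Fin d) 𝒪)) (MvPowerSeries (Fin d) 𝒪) :=
    isAdicComplete_mvPowerSeries
  haveI : IsLocalHom (algebraMap (MvPowerSeries (Fin d) 𝒪) (LimitRing h)) := h.isLocalHom_mk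
  exact IsLocalRing.isAdicComplete_of_module_finite (𝒪 := MvPowerSeries (Fin d) 𝒪)
    (T := LimitRing h)

theorem isLocalHom_C : IsLocalHom (C : 𝒪 →+* MvPowerSeries (Fin d) 𝒪) := by
  constructor
  intro a ha
  rw [MvPowerSeries.isUnit_iff_constantCoeff] at ha
  simpa using ha

theorem isLocalHom_algebraMap_limitRing :
    IsLocalHom (algebraMap 𝒪 (LimitRing h)) := by
  haveI := h.isLocalHom_mk
  haveI := isLocalHom_C (𝒪 := 𝒪) (d := d)
  have e : algebraMap 𝒪 (LimitRing h) =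
      (Ideal.Quotient.mk h.kerInf).comp (C : 𝒪 →+* MvPowerSeries (Fin d) 𝒪) := by
    ext a
    rfl
  rw [e]
  exact RingHom.isLocalHom_comp _ _

theorem residue_surjective_limitRing :
    haveI := h.isLocalRing_limitRing
    Function.Surjective (residue (LimitRing h) ∘ algebraMap 𝒪 (LimitRing h)) := by
  haveI := h.isLocalRing_limitRing
  intro r
  obtain ⟨x, rfl⟩ := residue_surjective r
  obtain ⟨p, rfl⟩ := Ideal.Quotient.mk_surjective x
  refine ⟨constantCoeff p, ?_⟩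
  rw [Function.comp_apply, ← sub_eq_zero, ← map_sub, residue_eq_zero_iff,
    ← h.map_mk_maximalIdeal]
  have e : algebraMap 𝒪 (LimitRing h) (constantCoeff p) - Ideal.Quotient.mk h.kerInf p =
      Ideal.Quotient.mk h.kerInf (C (constantCoeff p) - p) := by
    rw [map_sub]
    rfl
  rw [e]
  apply Ideal.mem_map_of_mem
  rw [mem_maximalIdeal, mem_nonunits_iff, MvPowerSeries.isUnit_iff_constantCoeff]
  simp

/-- the projection from the limit ring to the `n`-th level of the tower -/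
noncomputable def psi (n : ℕ) : LimitRing h →ₐ[𝒪] B ⧸ b n :=
  Ideal.Quotient.liftₐ h.kerInf (h.phi n) (fun _ ha => h.kerInf_le n ha)

theorem psi_mk (n : ℕ) (p : MvPowerSeries (Fin d) 𝒪) :
    h.psi n (Ideal.Quotient.mk h.kerInf p) = h.phi n p := rfl

theorem psi_surjective (n : ℕ) : Function.Surjective (h.psi n) := by
  intro c
  obtain ⟨p, rfl⟩ := h.phi_surjective n c
  exact ⟨Ideal.Quotient.mk h.kerInf p, rfl⟩

theorem factor_comp_psi {m n : ℕ} (hmn : m ≤ n) :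
    (Ideal.Quotient.factorₐ 𝒪 (h.antitone hmn)).comp (h.psi n) = h.psi m := by
  apply AlgHom.ext
  intro x
  obtain ⟨p, rfl⟩ := Ideal.Quotient.mk_surjective x
  rw [AlgHom.comp_apply, psi_mk, psi_mk, ← h.factor_comp_phi hmn]
  rfl

theorem ker_psi [IsNoetherianRing 𝒪] [IsAdicComplete (maximalIdeal 𝒪) 𝒪] (n : ℕ) :
    haveI := h.isLocalRing_limitRing
    RingHom.ker (h.psi n : LimitRing h →+* B ⧸ b n) = maximalIdeal (LimitRing h) ^ n := by
  haveI := h.isLocalRing_limitRing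
  rw [← h.map_mk_maximalIdeal, ← Ideal.map_pow]
  ext x
  obtain ⟨p, rfl⟩ := Ideal.Quotient.mk_surjective x
  rw [Ideal.mem_quotient_iff_mem_sup, RingHom.mem_ker]
  show h.phi n p = 0 ↔ _
  rw [← mem_ker]
  constructor
  · intro hp
    rw [sup_comm]
    exact h.ker_le_kerInf_sup n hp
  · intro hp
    exact (sup_le (h.pow_le_ker n) (h.kerInf_le n)) hp

/-- the maximal ideal of the limit ring, as the image of the maximal ideal of the power series
ring -/
noncomputable def maxR : Ideal (LimitRing h) :=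
  (maximalIdeal (MvPowerSeries (Fin d) 𝒪)).map (Ideal.Quotient.mk h.kerInf)

theorem maxR_eq :
    haveI := h.isLocalRing_limitRing
    h.maxR = maximalIdeal (LimitRing h) := h.map_mk_maximalIdeal

section Complete

variable [IsNoetherianRing 𝒪] [IsAdicComplete (maximalIdeal 𝒪) 𝒪]

theorem ker_psi' (n : ℕ) : RingHom.ker (h.psi n) = h.maxR ^ n := by
  have h1 := h.ker_psi n
  rw [← h.maxR_eq] at h1
  exact h1

theorem isAdicComplete_maxR : IsAdicComplete h.maxR (LimitRing h) := by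
  have h1 := h.isAdicComplete_limitRing
  rw [← h.maxR_eq] at h1
  exact h1

/-- `R ⧸ m_R ^ n ≃ B ⧸ b n` -/
noncomputable def levelEquiv (n : ℕ) : (LimitRing h ⧸ h.maxR ^ n) ≃ₐ[𝒪] B ⧸ b n :=
  (Ideal.quotientEquivAlgOfEq 𝒪 (h.ker_psi' n).symm).trans
    (Ideal.quotientKerAlgEquivOfSurjective (h.psi_surjective n))

theorem levelEquiv_mk (n : ℕ) (r : LimitRing h) :
    h.levelEquiv n (Ideal.Quotient.mk _ r) = h.psi n r := rfl

/-- `B → R ⧸ m_R ^ n` -/
noncomputable def levelMap (n : ℕ) : B →ₐ[𝒪] LimitRing h ⧸ h.maxR ^ n :=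
  ((h.levelEquiv n).symm : (B ⧸ b n) →ₐ[𝒪] LimitRing h ⧸ h.maxR ^ n).comp
    (Ideal.Quotient.mkₐ 𝒪 (b n))

theorem levelMap_eq (n : ℕ) (x : B) (r : LimitRing h)
    (hr : h.psi n r = Ideal.Quotient.mk (b n) x) :
    h.levelMap n x = Ideal.Quotient.mk _ r := by
  show (h.levelEquiv n).symm (Ideal.Quotient.mk (b n) x) = _
  rw [AlgEquiv.symm_apply_eq, levelEquiv_mk, hr]

theorem levelMap_compat {m n : ℕ} (hmn : m ≤ n) :
    (Ideal.Quotient.factorₐ 𝒪 (Ideal.pow_le_pow_right hmn)).comp (h.levelMap n) =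
      h.levelMap m := by
  apply AlgHom.ext
  intro x
  obtain ⟨r, hr⟩ := h.psi_surjective n (Ideal.Quotient.mk (b n) x)
  have hr' : h.psi m r = Ideal.Quotient.mk (b m) x := by
    rw [← h.factor_comp_psi hmn, AlgHom.comp_apply, hr]
    rfl
  rw [AlgHom.comp_apply, h.levelMap_eq n x r hr, h.levelMap_eq m x r hr']
  rfl

/-- the canonical map from `B` to the limit ring -/
noncomputable def iota : B →ₐ[𝒪] LimitRing h :=
  haveI := h.isAdicComplete_maxR
  IsAdicComplete.liftAlgHom h.maxR h.levelMap (fun hle => h.levelMap_compat hle)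

theorem mk_iota (n : ℕ) (x : B) :
    Ideal.Quotient.mk (h.maxR ^ n) (h.iota x) = h.levelMap n x := by
  haveI := h.isAdicComplete_maxR
  exact IsAdicComplete.mk_liftAlgHom h.maxR h.levelMap (fun hle => h.levelMap_compat hle) n x

theorem psi_iota (n : ℕ) (x : B) : h.psi n (h.iota x) = Ideal.Quotient.mk (b n) x := by
  have h1 := h.mk_iota n x
  have h2 : h.levelMap n x = (h.levelEquiv n).symm (Ideal.Quotient.mk (b n) x) := rfl
  rw [h2, eq_comm, AlgEquiv.symm_apply_eq, levelEquiv_mk] at h1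
  exact h1.symm

theorem mk_comp_iota_surjective (n : ℕ) :
    Function.Surjective ((Ideal.Quotient.mk (h.maxR ^ n)).comp (h.iota : B →+* LimitRing h)) := by
  intro y
  obtain ⟨r, rfl⟩ := Ideal.Quotient.mk_surjective y
  obtain ⟨x, hx⟩ := Ideal.Quotient.mk_surjective (h.psi n r)
  refine ⟨x, ?_⟩
  rw [RingHom.comp_apply, Ideal.Quotient.eq, ← h.ker_psi' n, RingHom.mem_ker, map_sub,
    sub_eq_zero]
  show h.psi n (h.iota x) = h.psi n r
  rw [h.psi_iota, hx]

theorem ker_mk_comp_iota (n : ℕ) :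
    RingHom.ker ((Ideal.Quotient.mk (h.maxR ^ n)).comp (h.iota : B →+* LimitRing h)) = b n := by
  ext x
  rw [RingHom.mem_ker, RingHom.comp_apply, Ideal.Quotient.eq_zero_iff_mem, ← h.ker_psi' n,
    RingHom.mem_ker]
  show h.psi n (h.iota x) = 0 ↔ _
  rw [h.psi_iota, Ideal.Quotient.eq_zero_iff_mem]

end Complete

end TowerHyp

theorem exists_limitRing [IsNoetherianRing 𝒪] [IsAdicComplete (maximalIdeal 𝒪) 𝒪]
    (h : TowerHyp (𝒪 := 𝒪) mB b t) :
    ∃ (R : Type) (_ : CommRing R) (_ : IsLocalRing R) (_ : IsNoetherianRing R)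
      (_ : IsAdicComplete (maximalIdeal R) R) (_ : Algebra 𝒪 R) (_ : IsLocalHom (algebraMap 𝒪 R))
      (ι : B →ₐ[𝒪] R),
      Function.Surjective (residue R ∘ algebraMap 𝒪 R) ∧
      (∀ n, Function.Surjective ((Ideal.Quotient.mk (maximalIdeal R ^ n)).comp (ι : B →+* R))) ∧
      (∀ n, RingHom.ker ((Ideal.Quotient.mk (maximalIdeal R ^ n)).comp (ι : B →+* R)) = b n) := by
  refine ⟨LimitRing h, inferInstance, h.isLocalRing_limitRing, inferInstance,
    h.isAdicComplete_limitRing, inferInstance, h.isLocalHom_algebraMap_limitRing, h.iota,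
    h.residue_surjective_limitRing, ?_, ?_⟩
  · intro n
    have h1 := h.mk_comp_iota_surjective n
    have h2 := h.maxR_eq
    rw [h2] at h1
    exact h1
  · intro n
    have h1 := h.ker_mk_comp_iota n
    have h2 := h.maxR_eq
    rw [h2] at h1
    exact h1

end Construction

end Fermat.Agent.S53
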