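import Mathlib

/-!
Abstract tower construction: from a family of "good" ideals closed under finite intersections
and enlargement, with bounded finite quotients, produce the chain of least good ideals
containing the powers of a fixed ideal.
-/

set_option autoImplicit false

namespace Fermat.Agent.S53

section Tower

variable {B : Type*} [CommRing B] (mB : Ideal B) (Good : Ideal B → Prop)

/-- Hypotheses on the family of good ideals. -/
structure GoodFamily : Prop where
  le : ∀ b, Good b → b ≤ mB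
  mono : ∀ b b', Good b → b ≤ b' → b' ≤ mB → Good b'
  inf : ∀ b b', Good b → Good b' → Good (b ⊓ b')
  self : Good mB
  finite : ∀ b, Good b → Finite (B ⧸ b)
  card : ∀ n : ℕ, ∃ C : ℕ, ∀ b, Good b → mB ^ n ≤ b → Nat.card (B ⧸ b) ≤ C

variable {mB Good}

/-- If `b ≤ b'` and the quotients are finite of the same cardinality then `b = b'`. -/
theorem Tower.eq_of_le_of_card_le {b b' : Ideal B} (hle : b ≤ b') [Finite (B ⧸ b)]
    (hcard : Nat.card (B ⧸ b) ≤ Nat.card (B ⧸ b')) : b = b' := by
  apply le_antisymm hle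
  have hsurj : Function.Surjective (Ideal.Quotient.factor hle) :=
    Ideal.Quotient.factor_surjective hle
  have : Finite (B ⧸ b') := Finite.of_surjective _ hsurj
  have hinj : Function.Injective (Ideal.Quotient.factor hle) := by
    have hbij : Function.Bijective (Ideal.Quotient.factor hle) := by
      rw [Nat.bijective_iff_surjective_and_card]
      exact ⟨hsurj, le_antisymm (Nat.card_le_card_of_surjective _ hsurj) hcard |>.symm⟩
    exact hbij.1
  intro x hx
  have h0 : Ideal.Quotient.factor hle (Ideal.Quotient.mk b x) = 0 := by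
    rw [Ideal.Quotient.factor_mk]
    exact Ideal.Quotient.eq_zero_iff_mem.mpr hx
  have := hinj (h0.trans (map_zero _).symm)
  exact Ideal.Quotient.eq_zero_iff_mem.mp this

/-- Existence of a least good ideal containing `mB ^ n`, for `n ≥ 1`. -/
theorem Tower.exists_least (h : GoodFamily mB Good) (n : ℕ) (hn : 1 ≤ n) :
    ∃ b, Good b ∧ mB ^ n ≤ b ∧ ∀ b', Good b' → mB ^ n ≤ b' → b ≤ b' := by
  obtain ⟨C, hC⟩ := h.card n
  let T : Set ℕ := {c | ∃ b, Good b ∧ mB ^ n ≤ b ∧ Nat.card (B ⧸ b) = c}
  have hne : T.Nonempty :=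
    ⟨_, mB, h.self, Ideal.pow_le_self (Nat.one_le_iff_ne_zero.mp hn), rfl⟩
  have hbdd : BddAbove T := ⟨C, by rintro c ⟨b, hb, hbn, rfl⟩; exact hC b hb hbn⟩
  obtain ⟨b, hb, hbn, hbc⟩ := Nat.sSup_mem hne hbdd
  refine ⟨b, hb, hbn, fun b' hb' hbn' => ?_⟩
  have hinf : Good (b ⊓ b') := h.inf b b' hb hb'
  have hinfn : mB ^ n ≤ b ⊓ b' := le_inf hbn hbn'
  have : Finite (B ⧸ (b ⊓ b')) := h.finite _ hinf
  have hle : Nat.card (B ⧸ (b ⊓ b')) ≤ Nat.card (B ⧸ b) := by
    rw [hbc]
    exact le_csSup hbdd ⟨b ⊓ b', hinf, hinfn, rfl⟩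
  have := Tower.eq_of_le_of_card_le (inf_le_left : b ⊓ b' ≤ b) hle
  rw [← this]
  exact inf_le_right

/-- The tower of least good ideals. -/
noncomputable def towerIdeal (h : GoodFamily mB Good) (n : ℕ) : Ideal B :=
  if hn : 1 ≤ n then (Tower.exists_least h n hn).choose else ⊤

theorem towerIdeal_zero (h : GoodFamily mB Good) : towerIdeal h 0 = ⊤ := by
  simp [towerIdeal]

theorem towerIdeal_good (h : GoodFamily mB Good) {n : ℕ} (hn : 1 ≤ n) :
    Good (towerIdeal h n) := by
  rw [towerIdeal, dif_pos hn]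
  exact (Tower.exists_least h n hn).choose_spec.1

theorem pow_le_towerIdeal (h : GoodFamily mB Good) (n : ℕ) : mB ^ n ≤ towerIdeal h n := by
  by_cases hn : 1 ≤ n
  · rw [towerIdeal, dif_pos hn]
    exact (Tower.exists_least h n hn).choose_spec.2.1
  · rw [towerIdeal, dif_neg hn]
    exact le_top

theorem towerIdeal_le (h : GoodFamily mB Good) {n : ℕ} (hn : 1 ≤ n) {b' : Ideal B}
    (hb' : Good b') (hbn' : mB ^ n ≤ b') : towerIdeal h n ≤ b' := by
  rw [towerIdeal, dif_pos hn]
  exact (Tower.exists_least h n hn).choose_spec.2.2 b' hb' hbn'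

theorem towerIdeal_le_max (h : GoodFamily mB Good) {n : ℕ} (hn : 1 ≤ n) :
    towerIdeal h n ≤ mB :=
  h.le _ (towerIdeal_good h hn)

theorem towerIdeal_anti (h : GoodFamily mB Good) (n : ℕ) :
    towerIdeal h (n + 1) ≤ towerIdeal h n := by
  by_cases hn : 1 ≤ n
  · exact towerIdeal_le h (Nat.le_add_left 1 n) (towerIdeal_good h hn)
      ((Ideal.pow_le_pow_right (Nat.le_succ n)).trans (pow_le_towerIdeal h n))
  · have : n = 0 := by omega
    subst this
    rw [towerIdeal_zero]
    exact le_top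

theorem towerIdeal_step (h : GoodFamily mB Good) (n : ℕ) :
    towerIdeal h n ≤ towerIdeal h (n + 1) ⊔ mB ^ n := by
  by_cases hn : 1 ≤ n
  · have h1 : 1 ≤ n + 1 := Nat.le_add_left 1 n
    apply towerIdeal_le h hn _ le_sup_right
    exact h.mono _ _ (towerIdeal_good h h1) le_sup_left
      (sup_le (towerIdeal_le_max h h1) (Ideal.pow_le_self (Nat.one_le_iff_ne_zero.mp hn)))
  · have : n = 0 := by omega
    subst this
    rw [pow_zero, Ideal.one_eq_top]
    exact le_sup_right

end Tower

end Fermat.Agent.S53
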