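import Fermat.Agent.S53.NormalizedLift
import Fermat.Prelude.Def_GaloisRep_DeformationCondition

/-!
S53, module M8: the universal representation over the limit ring.

Core statement (`exists_univRep_of_hasLevel`): `R` complete noetherian local `𝒪`-algebra, a family
of generic matrices `genR g` over `R`, and for every `n ≥ 1` an Artinian test algebra quotient
`π : R → A` with kernel `m_R ^ n` over which the matrices `(genR g).map π` form a normalized lift
of type `𝒟`.  Then `g ↦ genR g` is a normalized lift of type `𝒟` over `R`.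
-/

set_option autoImplicit false

namespace Fermat.Agent.S53

open IsLocalRing

local notation "Γℚ" => (AlgebraicClosure ℚ ≃ₐ[ℚ] AlgebraicClosure ℚ)
local notation "M₂" => Matrix (Fin 2) (Fin 2)

section Hausdorff

variable {R : Type} [CommRing R] [IsLocalRing R]

lemma UnivRep.eq_zero_of_forall_mem_pow [IsHausdorff (maximalIdeal R) R] {x : R}
    (h : ∀ n, 1 ≤ n → x ∈ maximalIdeal R ^ n) : x = 0 := by
  refine IsHausdorff.haus' (I := maximalIdeal R) (M := R) x fun n => ?_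
  rw [SModEq.zero, smul_eq_mul, Ideal.mul_top]
  rcases Nat.eq_zero_or_pos n with rfl | hn
  · rw [pow_zero, Ideal.one_eq_top]; exact Submodule.mem_top (R := R) (M := R)
  · exact h n hn

lemma UnivRep.eq_of_forall_sub_mem_pow [IsHausdorff (maximalIdeal R) R] {x y : R}
    (h : ∀ n, 1 ≤ n → x - y ∈ maximalIdeal R ^ n) : x = y :=
  sub_eq_zero.mp (UnivRep.eq_zero_of_forall_mem_pow h)

end Hausdorff

section Level

variable {𝒪 : Type} [CommRing 𝒪] [IsLocalRing 𝒪]

/-- Level `n` data for a family of generic matrices over `R`: a surjection of `R` onto an Artinian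
test algebra with kernel `m_R ^ n` over which the generic matrices become a normalized lift of
type `𝒟`. -/
def HasLevel (D : RigidData 𝒪)
    (𝒟 : ∀ ⦃A : Type⦄ [CommRing A] [IsLocalRing A] [Algebra 𝒪 A], GaloisRepAdic A → Prop)
    {R : Type} [CommRing R] [IsLocalRing R] [Algebra 𝒪 R] (genR : Γℚ → M₂ R) (n : ℕ) : Prop :=
  ∃ (A : Type) (_ : CommRing A) (_ : IsLocalRing A) (_ : Algebra 𝒪 A)
    (_ : IsLocalHom (algebraMap 𝒪 A)) (π : R →ₐ[𝒪] A),
    GaloisRep.IsArtinianTestAlgebra 𝒪 A ∧ Function.Surjective π ∧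
    RingHom.ker (π : R →+* A) = maximalIdeal R ^ n ∧
    ∃ (r : Γℚ →* M₂ A) (hr : IsNormalizedLift D r),
      (∀ g, r g = (genR g).map π) ∧ 𝒟 (ofMat r hr.cont)

variable {D : RigidData 𝒪}
  {𝒟 : ∀ ⦃A : Type⦄ [CommRing A] [IsLocalRing A] [Algebra 𝒪 A], GaloisRepAdic A → Prop}
  {R : Type} [CommRing R] [IsLocalRing R] [Algebra 𝒪 R] {genR : Γℚ → M₂ R}

lemma HasLevel.mul_sub_mem {n : ℕ} (h : HasLevel D 𝒟 genR n) (g g' : Γℚ) (i j : Fin 2) :
    genR (g * g') i j - (genR g * genR g') i j ∈ maximalIdeal R ^ n := by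
  obtain ⟨A, _, _, _, _, π, -, -, hk, r, -, hrg, -⟩ := h
  rw [← hk, RingHom.mem_ker, map_sub, sub_eq_zero]
  have h1 : (π : R →+* A) (genR (g * g') i j) = r (g * g') i j := by rw [hrg]; rfl
  have h2 : (π : R →+* A) ((genR g * genR g') i j) = (r g * r g') i j := by
    rw [hrg, hrg, ← Matrix.map_mul]; rfl
  rw [h1, h2, map_mul]

lemma HasLevel.one_sub_mem {n : ℕ} (h : HasLevel D 𝒟 genR n) (i j : Fin 2) :
    genR 1 i j - (1 : M₂ R) i j ∈ maximalIdeal R ^ n := by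
  obtain ⟨A, _, _, _, _, π, -, -, hk, r, -, hrg, -⟩ := h
  rw [← hk, RingHom.mem_ker, map_sub, sub_eq_zero]
  have h1 : (π : R →+* A) (genR 1 i j) = r 1 i j := by rw [hrg]; rfl
  have h2 : (π : R →+* A) ((1 : M₂ R) i j) = (1 : M₂ A) i j := by
    rw [Matrix.one_apply, Matrix.one_apply]
    split_ifs <;> simp
  rw [h1, h2, map_one]

/-- The monoid hom attached to generic matrices having all levels. -/
noncomputable def univMonoidHom [IsHausdorff (maximalIdeal R) R] (genR : Γℚ → M₂ R)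
    (H : ∀ n, 1 ≤ n → HasLevel D 𝒟 genR n) : Γℚ →* M₂ R where
  toFun := genR
  map_one' := by
    ext i j
    exact UnivRep.eq_of_forall_sub_mem_pow fun n hn => (H n hn).one_sub_mem i j
  map_mul' g g' := by
    ext i j
    exact UnivRep.eq_of_forall_sub_mem_pow fun n hn => (H n hn).mul_sub_mem g g' i j

@[simp] lemma univMonoidHom_apply [IsHausdorff (maximalIdeal R) R] (genR : Γℚ → M₂ R)
    (H : ∀ n, 1 ≤ n → HasLevel D 𝒟 genR n) (g : Γℚ) : univMonoidHom genR H g = genR g := rfl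

end Level

section Main

set_option linter.unusedSectionVars false

variable {𝒪 : Type} [CommRing 𝒪] [IsLocalRing 𝒪] {D : RigidData 𝒪}
  {𝒟 : ∀ ⦃A : Type⦄ [CommRing A] [IsLocalRing A] [Algebra 𝒪 A], GaloisRepAdic A → Prop}
  {R : Type} [CommRing R] [IsLocalRing R] [Algebra 𝒪 R] [IsLocalHom (algebraMap 𝒪 R)]
  {genR : Γℚ → M₂ R}

/-- Repackaging of a level: the level representation is the image of any monoid hom agreeing with
the generic matrices. -/
lemma HasLevel.exists_mapMat {n : ℕ} (h : HasLevel D 𝒟 genR n) (ρ : Γℚ →* M₂ R)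
    (hρ : ∀ g, ρ g = genR g) :
    ∃ (A : Type) (_ : CommRing A) (_ : IsLocalRing A) (_ : Algebra 𝒪 A)
      (_ : IsLocalHom (algebraMap 𝒪 A)) (π : R →ₐ[𝒪] A) (_ : IsLocalHom (π : R →+* A)),
      GaloisRep.IsArtinianTestAlgebra 𝒪 A ∧ Function.Surjective π ∧
      RingHom.ker (π : R →+* A) = maximalIdeal R ^ n ∧
      ∃ hr : IsNormalizedLift D (mapMat (π : R →+* A) ρ),
        𝒟 (ofMat (mapMat (π : R →+* A) ρ) hr.cont) := by
  obtain ⟨A, i1, i2, i3, i4, π, hAT, hs, hk, r, hr, hrg, hrD⟩ := h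
  have hr' : r = mapMat (π : R →+* A) ρ := by
    ext g : 1
    rw [hrg, mapMat_apply, hρ]
    rfl
  subst hr'
  have hloc : IsLocalHom (π : R →+* A) := Function.Surjective.isLocalHom (π : R →+* A) hs
  exact ⟨A, i1, i2, i3, i4, π, hloc, hAT, hs, hk, hr, hrD⟩

lemma UnivRep.maximalIdeal_pow_eq_bot {A : Type} [CommRing A] [IsLocalRing A] (π : R →+* A)
    (hs : Function.Surjective π) {n : ℕ} (hk : RingHom.ker π = maximalIdeal R ^ n) :
    maximalIdeal A ^ n = ⊥ := by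
  have h1 : maximalIdeal A ≤ (maximalIdeal R).map π := by
    intro x hx
    obtain ⟨y, rfl⟩ := hs x
    refine Ideal.mem_map_of_mem π ?_
    rw [mem_maximalIdeal, mem_nonunits_iff] at hx ⊢
    exact fun hy => hx (hy.map π)
  refine le_bot_iff.mp ((Ideal.pow_right_mono h1 n).trans ?_)
  rw [← Ideal.map_pow, ← hk, (Ideal.map_eq_bot_iff_le_ker π).mpr le_rfl]

lemma UnivRep.isMatCont (ρ : Γℚ →* M₂ R) (hρ : ∀ g, ρ g = genR g)
    (H : ∀ n, 1 ≤ n → HasLevel D 𝒟 genR n) : IsMatCont ρ := by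
  intro n
  rcases Nat.eq_zero_or_pos n with rfl | hn
  · refine ⟨⊥, inferInstance, fun σ _ i j => ?_⟩
    rw [pow_zero, Ideal.one_eq_top]
    exact Submodule.mem_top (R := R) (M := R)
  · obtain ⟨A, _, _, _, _, π, hπ, -, hs, hk, hr, -⟩ := (H n hn).exists_mapMat ρ hρ
    obtain ⟨L, hL, h⟩ := hr.cont n
    refine ⟨L, hL, fun σ hσ i j => ?_⟩
    have h1 := h σ hσ i j
    rw [UnivRep.maximalIdeal_pow_eq_bot (π : R →+* A) hs hk, Ideal.mem_bot] at h1
    rw [← hk, RingHom.mem_ker, ← h1]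
    simp only [mapMat_apply, Matrix.sub_apply, Matrix.map_apply, Matrix.one_apply, map_sub]
    split_ifs <;> simp

lemma UnivRep.red (ρ : Γℚ →* M₂ R) (hρ : ∀ g, ρ g = genR g) (H : HasLevel D 𝒟 genR 1) :
    mapMat (residue R) ρ = D.rbarAt R := by
  obtain ⟨A, _, _, _, _, π, hπ, -, hs, hk, hr, -⟩ := H.exists_mapMat ρ hρ
  have h1 := hr.red
  rw [mapMat_comp, ← ResidueField.map_comp_residue, ← mapMat_comp, ← D.mapMat_rbarAt π] at h1
  ext σ i j
  have h2 := congrArg (fun f : Γℚ →* M₂ (ResidueField A) => f σ i j) h1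
  simp only [mapMat_apply, Matrix.map_apply] at h2
  exact (ResidueField.map (π : R →+* A)).injective h2

lemma UnivRep.entry_eq_of_levels [IsHausdorff (maximalIdeal R) R] (ρ : Γℚ →* M₂ R)
    (hρ : ∀ g, ρ g = genR g) (H : ∀ n, 1 ≤ n → HasLevel D 𝒟 genR n) (x : Γℚ →₀ 𝒪) (i j : Fin 2)
    (c : 𝒪)
    (hc : ∀ (A : Type) [CommRing A] [IsLocalRing A] [Algebra 𝒪 A] [IsLocalHom (algebraMap 𝒪 A)]
      (r : Γℚ →* M₂ A), IsNormalizedLift D r → evalComb r x i j = algebraMap 𝒪 A c) :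
    evalComb ρ x i j = algebraMap 𝒪 R c := by
  refine UnivRep.eq_of_forall_sub_mem_pow fun n hn => ?_
  obtain ⟨A, _, _, _, _, π, hπ, -, hs, hk, hr, -⟩ := (H n hn).exists_mapMat ρ hρ
  have hcomm : (π : R →+* A).comp (algebraMap 𝒪 R) = algebraMap 𝒪 A := by
    ext a
    exact π.commutes a
  have h1 := hc A _ hr
  rw [evalComb_mapMat _ hcomm, Matrix.map_apply] at h1
  rw [← hk, RingHom.mem_ker, map_sub, h1, sub_eq_zero]
  exact (π.commutes c).symm

lemma UnivRep.norm [IsHausdorff (maximalIdeal R) R] (ρ : Γℚ →* M₂ R)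
    (hρ : ∀ g, ρ g = genR g) (H : ∀ n, 1 ≤ n → HasLevel D 𝒟 genR n) :
    IsNormalizedPair (evalComb ρ D.x11) (evalComb ρ D.x21) := by
  refine ⟨?_, ?_, ?_⟩
  · rw [UnivRep.entry_eq_of_levels ρ hρ H D.x11 1 0 0 fun A _ _ _ _ r hr => by
      rw [hr.norm.1, map_zero], map_zero]
  · rw [UnivRep.entry_eq_of_levels ρ hρ H D.x21 0 0 0 fun A _ _ _ _ r hr => by
      rw [hr.norm.2.1, map_zero], map_zero]
  · rw [UnivRep.entry_eq_of_levels ρ hρ H D.x21 1 0 1 fun A _ _ _ _ r hr => by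
      rw [hr.norm.2.2, map_one], map_one]

/-- The generic matrices form a normalized lift over `R`. -/
theorem UnivRep.isNormalizedLift [IsHausdorff (maximalIdeal R) R] (ρ : Γℚ →* M₂ R)
    (hρ : ∀ g, ρ g = genR g) (H : ∀ n, 1 ≤ n → HasLevel D 𝒟 genR n) :
    IsNormalizedLift D ρ :=
  ⟨UnivRep.isMatCont ρ hρ H, UnivRep.red ρ hρ (H 1 le_rfl), UnivRep.norm ρ hρ H⟩

lemma UnivRep.exists_maximalIdeal_pow_eq_bot (A : Type) [CommRing A] [IsLocalRing A]
    [IsArtinianRing A] : ∃ n : ℕ, 1 ≤ n ∧ maximalIdeal A ^ n = ⊥ := by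
  obtain ⟨n, hn⟩ := IsArtinianRing.isNilpotent_jacobson_bot (R := A)
  rw [IsLocalRing.jacobson_eq_maximalIdeal ⊥ bot_ne_top] at hn
  exact ⟨n + 1, Nat.le_add_left 1 n, by rw [pow_succ, hn, Ideal.zero_eq_bot, Ideal.bot_mul]⟩

/-- The generic matrices over `R` give a representation of type `𝒟`. -/
theorem UnivRep.isOfType [IsNoetherianRing R] [IsAdicComplete (maximalIdeal R) R]
    (hD : GaloisRep.IsDeformationCondition 𝒪 𝒟)
    (hres : Function.Surjective (residue R ∘ algebraMap 𝒪 R))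
    (ρ : Γℚ →* M₂ R) (hρ : ∀ g, ρ g = genR g) (H : ∀ n, 1 ≤ n → HasLevel D 𝒟 genR n)
    (hcont : IsMatCont ρ) : 𝒟 (ofMat ρ hcont) := by
  rw [hD.iff_forall_surjective (inferInstance : IsLocalHom (algebraMap 𝒪 R)) hres]
  intro A' _ _ _ hA' q hq hqs
  have := hA'.isArtinian
  obtain ⟨n, hn1, hn⟩ := UnivRep.exists_maximalIdeal_pow_eq_bot A'
  obtain ⟨A, _, _, _, _, π, hπ, hA, hs, hk, hr, hrD⟩ := (H n hn1).exists_mapMat ρ hρ
  -- `q` kills `m_R ^ n`
  have hle : RingHom.ker (π : R →+* A) ≤ RingHom.ker (q : R →+* A') := by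
    rw [hk]
    intro x hx
    rw [RingHom.mem_ker, ← Ideal.mem_bot, ← hn]
    have h1 : (maximalIdeal R ^ n).map (q : R →+* A') ≤ maximalIdeal A' ^ n := by
      rw [Ideal.map_pow]
      exact Ideal.pow_right_mono (map_maximalIdeal_le (q : R →+* A')) n
    exact h1 (Ideal.mem_map_of_mem _ hx)
  let qbar : A →ₐ[𝒪] A' := AlgHom.liftOfSurjective π hs q hle
  have hqbar : ∀ x, qbar (π x) = q x := fun x => AlgHom.liftOfSurjective_apply π hs q hle x
  have hqbars : Function.Surjective qbar := fun y => by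
    obtain ⟨x, rfl⟩ := hqs y
    exact ⟨π x, hqbar x⟩
  have hqbarloc : IsLocalHom (qbar : A →+* A') :=
    Function.Surjective.isLocalHom (qbar : A →+* A') hqbars
  have h1 := hD.baseChangeAlong hA hA' qbar hqbarloc hrD
  have hcomp : mapMat (qbar : A →+* A') (mapMat (π : R →+* A) ρ) = mapMat (q : R →+* A') ρ := by
    rw [mapMat_comp]
    congr 1
    ext x
    exact hqbar x
  refine hD.of_isEquiv hA' ⟨?_⟩ h1
  exact ((ofMatBaseChangeEquiv _ hr.cont (qbar : A →+* A') hqbarloc).trans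
    (ofMatCongr _ (hcont.map (q : R →+* A') hq) hcomp)).trans
    (ofMatBaseChangeEquiv ρ hcont (q : R →+* A') hq).symm

/-- **Module M8, core.** Generic matrices over a complete noetherian local `𝒪`-algebra `R` having
all levels form a normalized lift of type `𝒟`. -/
theorem exists_univRep_of_hasLevel [IsNoetherianRing R] [IsAdicComplete (maximalIdeal R) R]
    (hD : GaloisRep.IsDeformationCondition 𝒪 𝒟)
    (hres : Function.Surjective (residue R ∘ algebraMap 𝒪 R))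
    (H : ∀ n, 1 ≤ n → HasLevel D 𝒟 genR n) :
    ∃ (ρ : Γℚ →* M₂ R) (h : IsNormalizedLift D ρ), (∀ g, ρ g = genR g) ∧ 𝒟 (ofMat ρ h.cont) := by
  have hρ : ∀ g, univMonoidHom genR H g = genR g := fun g => rfl
  have h := UnivRep.isNormalizedLift (univMonoidHom genR H) hρ H
  exact ⟨univMonoidHom genR H, h, hρ, UnivRep.isOfType hD hres _ hρ H h.cont⟩

end Main

section Adaptor

variable {𝒪 : Type} [CommRing 𝒪] [IsLocalRing 𝒪] {D : RigidData 𝒪}
  {𝒟 : ∀ ⦃A : Type⦄ [CommRing A] [IsLocalRing A] [Algebra 𝒪 A], GaloisRepAdic A → Prop}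
  {R : Type} [CommRing R] [IsLocalRing R] [Algebra 𝒪 R]
  {B : Type} [CommRing B] [Algebra 𝒪 B]

/-- A level of the limit ring from a quotient `B ⧸ J` identified with `R ⧸ m_R ^ n` via `ι`. -/
theorem hasLevel_of_quotient (gen : Γℚ → M₂ B) (ι : B →ₐ[𝒪] R) (n : ℕ)
    (hsurj : Function.Surjective ((Ideal.Quotient.mk (maximalIdeal R ^ n)).comp (ι : B →+* R)))
    (J : Ideal B)
    (hker : RingHom.ker ((Ideal.Quotient.mk (maximalIdeal R ^ n)).comp (ι : B →+* R)) = J)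
    [IsLocalRing (B ⧸ J)] [IsLocalHom (algebraMap 𝒪 (B ⧸ J))]
    (hAT : GaloisRep.IsArtinianTestAlgebra 𝒪 (B ⧸ J))
    (r : Γℚ →* M₂ (B ⧸ J)) (hr : IsNormalizedLift D r)
    (hrg : ∀ g, r g = (gen g).map (Ideal.Quotient.mk J)) (hrD : 𝒟 (ofMat r hr.cont)) :
    HasLevel D 𝒟 (fun g => (gen g).map ι) n := by
  let p : B →ₐ[𝒪] R ⧸ maximalIdeal R ^ n := (Ideal.Quotient.mkₐ 𝒪 (maximalIdeal R ^ n)).comp ι
  have hp : Function.Surjective p := hsurj
  have hkp : RingHom.ker (p : B →+* R ⧸ maximalIdeal R ^ n) = J := hker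
  let e : (B ⧸ J) ≃ₐ[𝒪] (R ⧸ maximalIdeal R ^ n) :=
    (Ideal.quotientEquivAlgOfEq 𝒪 hkp.symm).trans (Ideal.quotientKerAlgEquivOfSurjective hp)
  have he : ∀ x : B, e (Ideal.Quotient.mk J x) = Ideal.Quotient.mk (maximalIdeal R ^ n) (ι x) := by
    intro x
    rfl
  let π : R →ₐ[𝒪] B ⧸ J :=
    (e.symm : (R ⧸ maximalIdeal R ^ n) →ₐ[𝒪] B ⧸ J).comp
      (Ideal.Quotient.mkₐ 𝒪 (maximalIdeal R ^ n))
  have hπι : ∀ x : B, π (ι x) = Ideal.Quotient.mk J x := by
    intro x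
    show e.symm (Ideal.Quotient.mk (maximalIdeal R ^ n) (ι x)) = _
    rw [← he, AlgEquiv.symm_apply_apply]
  refine ⟨B ⧸ J, inferInstance, inferInstance, inferInstance, inferInstance, π, hAT, ?_, ?_,
    r, hr, ?_, hrD⟩
  · exact e.symm.surjective.comp Ideal.Quotient.mk_surjective
  · ext x
    rw [RingHom.mem_ker]
    show e.symm (Ideal.Quotient.mk (maximalIdeal R ^ n) x) = 0 ↔ _
    rw [map_eq_zero_iff _ e.symm.injective, Ideal.Quotient.eq_zero_iff_mem]
  · intro g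
    rw [hrg]
    ext i j
    simp only [Matrix.map_apply]
    exact (hπι _).symm

/-- **Module M8.** The universal representation over the limit ring: if `R ⧸ m_R ^ n = B ⧸ b n`
via `ι` for all `n` and over every `B ⧸ b n` (`n ≥ 1`) the generic matrices `gen g` form a normalized
lift of type `𝒟` over an Artinian test algebra, then `g ↦ (gen g).map ι` is a normalized lift of
type `𝒟` over `R`. -/
theorem exists_univRep [IsLocalHom (algebraMap 𝒪 R)] [IsNoetherianRing R]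
    [IsAdicComplete (maximalIdeal R) R]
    (hD : GaloisRep.IsDeformationCondition 𝒪 𝒟)
    (hres : Function.Surjective (residue R ∘ algebraMap 𝒪 R))
    (gen : Γℚ → M₂ B) (ι : B →ₐ[𝒪] R) (b : ℕ → Ideal B)
    (hsurj : ∀ n, Function.Surjective
      ((Ideal.Quotient.mk (maximalIdeal R ^ n)).comp (ι : B →+* R)))
    (hker : ∀ n, RingHom.ker
      ((Ideal.Quotient.mk (maximalIdeal R ^ n)).comp (ι : B →+* R)) = b n)
    (hgood : ∀ n, 1 ≤ n → ∃ (_ : IsLocalRing (B ⧸ b n))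
      (_ : IsLocalHom (algebraMap 𝒪 (B ⧸ b n))),
      GaloisRep.IsArtinianTestAlgebra 𝒪 (B ⧸ b n) ∧
      ∃ (r : Γℚ →* M₂ (B ⧸ b n)) (hr : IsNormalizedLift D r),
        (∀ g, r g = (gen g).map (Ideal.Quotient.mk (b n))) ∧ 𝒟 (ofMat r hr.cont)) :
    ∃ (ρ : Γℚ →* M₂ R) (h : IsNormalizedLift D ρ),
      (∀ g, ρ g = (gen g).map ι) ∧ 𝒟 (ofMat ρ h.cont) := by
  refine exists_univRep_of_hasLevel hD hres fun n hn => ?_
  obtain ⟨_, _, hAT, r, hr, hrg, hrD⟩ := hgood n hn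
  exact hasLevel_of_quotient gen ι n (hsurj n) (b n) (hker n) hAT r hr hrg hrD

end Adaptor

end Fermat.Agent.S53
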