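import Mathlib

/-!
Lifting property and uniqueness for a limit ring `R` receiving `ι : B →ₐ[O] R` such that
`R ⧸ m_R ^ n = B ⧸ b n` via `ι` for every `n`.
-/

set_option autoImplicit false

namespace Fermat.Agent.S53

open IsLocalRing

section Lift

variable {O : Type*} [CommRing O] {B : Type*} [CommRing B] [Algebra O B] (b : ℕ → Ideal B)
  {R : Type*} [CommRing R] [IsLocalRing R] [Algebra O R] (ι : B →ₐ[O] R)

/-- The projection `B → R ⧸ m_R ^ n` as an algebra map. -/
noncomputable def limitProj (n : ℕ) : B →ₐ[O] R ⧸ maximalIdeal R ^ n :=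
  (Ideal.Quotient.mkₐ O (maximalIdeal R ^ n)).comp ι

lemma limitProj_apply (n : ℕ) (x : B) :
    limitProj ι n x = Ideal.Quotient.mk (maximalIdeal R ^ n) (ι x) := rfl

theorem limitRing_lift
    (hsurj : ∀ n, Function.Surjective
      ((Ideal.Quotient.mk (maximalIdeal R ^ n)).comp (ι : B →+* R)))
    (hker : ∀ n, RingHom.ker
      ((Ideal.Quotient.mk (maximalIdeal R ^ n)).comp (ι : B →+* R)) = b n)
    {A : Type*} [CommRing A] [Algebra O A] (I : Ideal A) [IsAdicComplete I A]
    (g : ∀ n, B →ₐ[O] A ⧸ I ^ n) (hg : ∀ n, b n ≤ RingHom.ker (g n))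
    (hcompat : ∀ {m n : ℕ} (hle : m ≤ n),
      (Ideal.Quotient.factorₐ O (Ideal.pow_le_pow_right hle)).comp (g n) = g m) :
    ∃ φ : R →ₐ[O] A, ∀ n, (Ideal.Quotient.mkₐ O (I ^ n)).comp (φ.comp ι) = g n := by
  have hs : ∀ n, Function.Surjective (limitProj ι n) := fun n => hsurj n
  have hk : ∀ n, RingHom.ker (limitProj ι n).toRingHom ≤ RingHom.ker (g n).toRingHom := by
    intro n x hx
    have hx' : x ∈ RingHom.ker
        ((Ideal.Quotient.mk (maximalIdeal R ^ n)).comp (ι : B →+* R)) := hx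
    rw [hker n] at hx'
    exact hg n hx'
  -- maps `R ⧸ m ^ n → A ⧸ I ^ n`
  let ψ : ∀ n, (R ⧸ maximalIdeal R ^ n) →ₐ[O] A ⧸ I ^ n := fun n =>
    AlgHom.liftOfSurjective (limitProj ι n) (hs n) (g n) (hk n)
  have hψ : ∀ n (x : B), ψ n (Ideal.Quotient.mk (maximalIdeal R ^ n) (ι x)) = g n x := by
    intro n x
    exact AlgHom.liftOfSurjective_apply (limitProj ι n) (hs n) (g n) (hk n) x
  let f : ∀ n, R →ₐ[O] A ⧸ I ^ n := fun n =>
    (ψ n).comp (Ideal.Quotient.mkₐ O (maximalIdeal R ^ n))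
  have hf : ∀ {m n : ℕ} (hle : m ≤ n),
      (Ideal.Quotient.factorₐ O (Ideal.pow_le_pow_right hle)).comp (f n) = f m := by
    intro m n hle
    ext x
    -- pick a preimage of `x` modulo `m ^ n`
    obtain ⟨y, hy⟩ := hs n (Ideal.Quotient.mk (maximalIdeal R ^ n) x)
    have hy' : Ideal.Quotient.mk (maximalIdeal R ^ n) (ι y) =
        Ideal.Quotient.mk (maximalIdeal R ^ n) x := hy
    have hym : Ideal.Quotient.mk (maximalIdeal R ^ m) (ι y) =
        Ideal.Quotient.mk (maximalIdeal R ^ m) x := by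
      rw [Ideal.Quotient.eq] at hy' ⊢
      exact Ideal.pow_le_pow_right hle hy'
    have h1 : f n x = g n y := by
      show ψ n (Ideal.Quotient.mk (maximalIdeal R ^ n) x) = g n y
      rw [← hy', hψ]
    have h2 : f m x = g m y := by
      show ψ m (Ideal.Quotient.mk (maximalIdeal R ^ m) x) = g m y
      rw [← hym, hψ]
    show (Ideal.Quotient.factorₐ O (Ideal.pow_le_pow_right hle)) (f n x) = f m x
    rw [h1, h2, ← hcompat hle]
    rfl
  let Φ : R →ₐ[O] AdicCompletion I A := AdicCompletion.liftAlgHom I f hf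
  let e : A ≃ₐ[A] AdicCompletion I A := AdicCompletion.ofAlgEquiv I
  let φ : R →ₐ[O] A :=
    { toRingHom := (e.symm : AdicCompletion I A →+* A).comp (Φ : R →+* AdicCompletion I A)
      commutes' := by
        intro r
        show e.symm (Φ (algebraMap O R r)) = algebraMap O A r
        rw [Φ.commutes]
        have : algebraMap O (AdicCompletion I A) r = e (algebraMap O A r) := by
          rw [AdicCompletion.ofAlgEquiv_apply]
          rfl
        rw [this, AlgEquiv.symm_apply_apply] }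
  refine ⟨φ, fun n => ?_⟩
  ext x
  show Ideal.Quotient.mk (I ^ n) (e.symm (Φ (ι x))) = g n x
  rw [AdicCompletion.mk_ofAlgEquiv_symm, AdicCompletion.evalₐ_liftAlgHom]
  exact hψ n x

theorem limitRing_algHom_ext
    (hsurj : ∀ n, Function.Surjective
      ((Ideal.Quotient.mk (maximalIdeal R ^ n)).comp (ι : B →+* R)))
    {A : Type*} [CommRing A] [IsLocalRing A] [Algebra O A] [IsHausdorff (maximalIdeal A) A]
    (φ φ' : R →ₐ[O] A) (hφ : IsLocalHom (φ : R →+* A)) (hφ' : IsLocalHom (φ' : R →+* A))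
    (h : φ.comp ι = φ'.comp ι) : φ = φ' := by
  have hmap : ∀ (ψ : R →ₐ[O] A), IsLocalHom (ψ : R →+* A) → ∀ n (z : R),
      z ∈ maximalIdeal R ^ n → ψ z ∈ maximalIdeal A ^ n := by
    intro ψ hψ n z hz
    have h1 : (maximalIdeal R).map (ψ : R →+* A) ≤ maximalIdeal A := by
      rw [Ideal.map_le_iff_le_comap]
      intro a ha
      exact (IsLocalRing.mem_maximalIdeal _).2 (map_nonunit (ψ : R →+* A) a ha)
    have h2 : (maximalIdeal R ^ n).map (ψ : R →+* A) ≤ maximalIdeal A ^ n := by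
      rw [Ideal.map_pow]
      exact Ideal.pow_right_mono h1 n
    exact h2 (Ideal.mem_map_of_mem _ hz)
  ext x
  rw [← sub_eq_zero]
  apply IsHausdorff.haus (inferInstance : IsHausdorff (maximalIdeal A) A)
  intro n
  rw [SModEq.zero, smul_eq_mul, Ideal.mul_top]
  obtain ⟨y, hy⟩ := hsurj n (Ideal.Quotient.mk (maximalIdeal R ^ n) x)
  have hy' : Ideal.Quotient.mk (maximalIdeal R ^ n) (ι y) =
      Ideal.Quotient.mk (maximalIdeal R ^ n) x := hy
  rw [Ideal.Quotient.eq] at hy'
  have e1 : φ (ι y) = φ' (ι y) := by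
    have := congrArg (fun ψ : B →ₐ[O] A => ψ y) h
    exact this
  have e2 : φ x - φ' x = φ' (ι y - x) - φ (ι y - x) := by
    rw [map_sub, map_sub, e1]
    ring
  rw [e2]
  exact Ideal.sub_mem _ (hmap φ' hφ' n _ hy') (hmap φ hφ n _ hy')

end Lift

end Fermat.Agent.S53
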