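import Fermat.Agent.S53.NormalizedLift
import Fermat.Agent.S53.LimitRingLift
import Fermat.Prelude.Def_GaloisRep_DeformationCondition

/-!
S53, module M9 (existence half of the universal property).

Given the limit ring `R` with `ι : B → R` (`B` the polynomial ring on the generic matrix entries)
such that `R ⧸ m_R ^ n = B ⧸ b n`, and the classification property of the tower `b`
(hypothesis `hclass`), every lift of type `𝒟` over a complete noetherian local `𝒪`-algebra `A`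
is the base change of the universal matrix representation along a local `𝒪`-algebra hom
`R → A`.
-/

set_option autoImplicit false
set_option linter.style.haveILetI false
set_option linter.unusedSectionVars false

open IsLocalRing

namespace Fermat.Agent.S53

local notation "Γℚ" => (AlgebraicClosure ℚ ≃ₐ[ℚ] AlgebraicClosure ℚ)
local notation "M₂" => Matrix (Fin 2) (Fin 2)

/-- A local ring complete with respect to its maximal ideal has the quadratic Hensel
property. -/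
theorem UnivEx.hasQuadraticHensel_of_complete (A : Type) [CommRing A] [IsLocalRing A]
    [IsAdicComplete (maximalIdeal A) A] : HasQuadraticHensel A := by
  haveI : HenselianLocalRing A :=
    { is_henselian := fun f hf a₀ h₁ h₂ =>
        HenselianRing.is_henselian (I := maximalIdeal A) f hf a₀ h₁ (h₂.map _) }
  exact hasQuadraticHensel_of_henselian A

section QuotPow

variable {𝒪 : Type} [CommRing 𝒪] [IsLocalRing 𝒪]
variable (A : Type) [CommRing A] [IsLocalRing A]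

lemma UnivEx.pow_le_self {n : ℕ} (hn : 1 ≤ n) : maximalIdeal A ^ n ≤ maximalIdeal A := by
  calc maximalIdeal A ^ n ≤ maximalIdeal A ^ 1 := Ideal.pow_le_pow_right hn
    _ = maximalIdeal A := pow_one _

lemma UnivEx.pow_ne_top {n : ℕ} (hn : 1 ≤ n) : maximalIdeal A ^ n ≠ ⊤ := by
  intro h
  have h1 := UnivEx.pow_le_self A hn
  rw [h] at h1
  exact (IsLocalRing.maximalIdeal.isMaximal A).ne_top (top_le_iff.mp h1)

lemma UnivEx.quotPow_nontrivial {n : ℕ} (hn : 1 ≤ n) : Nontrivial (A ⧸ maximalIdeal A ^ n) :=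
  Ideal.Quotient.nontrivial_iff.mpr (UnivEx.pow_ne_top A hn)

lemma UnivEx.quotPow_isLocalRing {n : ℕ} (hn : 1 ≤ n) : IsLocalRing (A ⧸ maximalIdeal A ^ n) :=
  haveI := UnivEx.quotPow_nontrivial A hn
  IsLocalRing.of_surjective' (Ideal.Quotient.mk (maximalIdeal A ^ n)) Ideal.Quotient.mk_surjective

lemma UnivEx.quotPow_isLocalHom_mk {n : ℕ} (hn : 1 ≤ n) :
    IsLocalHom (Ideal.Quotient.mk (maximalIdeal A ^ n)) := by
  apply isLocalHom_of_le_jacobson_bot
  rw [IsLocalRing.jacobson_eq_maximalIdeal ⊥ bot_ne_top]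
  exact UnivEx.pow_le_self A hn

/-- The maximal ideal of `A ⧸ m ^ n` is the image of `m`. -/
lemma UnivEx.quotPow_maximalIdeal {n : ℕ} (hn : 1 ≤ n) :
    letI := UnivEx.quotPow_isLocalRing A hn
    maximalIdeal (A ⧸ maximalIdeal A ^ n) =
      (maximalIdeal A).map (Ideal.Quotient.mk (maximalIdeal A ^ n)) := by
  letI := UnivEx.quotPow_isLocalRing A hn
  haveI := UnivEx.quotPow_isLocalHom_mk A hn
  apply le_antisymm
  · intro y hy
    obtain ⟨x, rfl⟩ := Ideal.Quotient.mk_surjective y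
    refine Ideal.mem_map_of_mem _ ?_
    rw [IsLocalRing.mem_maximalIdeal, mem_nonunits_iff] at hy ⊢
    exact fun hx => hy (hx.map _)
  · rw [Ideal.map_le_iff_le_comap]
    intro x hx
    rw [Ideal.mem_comap, IsLocalRing.mem_maximalIdeal]
    exact map_nonunit (Ideal.Quotient.mk (maximalIdeal A ^ n)) x hx

lemma UnivEx.quotPow_maximalIdeal_pow {n : ℕ} (hn : 1 ≤ n) :
    letI := UnivEx.quotPow_isLocalRing A hn
    maximalIdeal (A ⧸ maximalIdeal A ^ n) ^ n = ⊥ := by
  letI := UnivEx.quotPow_isLocalRing A hn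
  rw [UnivEx.quotPow_maximalIdeal A hn, ← Ideal.map_pow, Ideal.map_quotient_self]

lemma UnivEx.quotPow_isArtinianRing [IsNoetherianRing A] {n : ℕ} (hn : 1 ≤ n) :
    IsArtinianRing (A ⧸ maximalIdeal A ^ n) := by
  letI := UnivEx.quotPow_isLocalRing A hn
  rw [isArtinianRing_iff_isNilpotent_maximalIdeal]
  exact ⟨n, UnivEx.quotPow_maximalIdeal_pow A hn⟩

variable [Algebra 𝒪 A]

lemma UnivEx.quotPow_isLocalHom_algebraMap [IsLocalHom (algebraMap 𝒪 A)] {n : ℕ} (hn : 1 ≤ n) :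
    IsLocalHom (algebraMap 𝒪 (A ⧸ maximalIdeal A ^ n)) := by
  haveI := UnivEx.quotPow_isLocalHom_mk A hn
  constructor
  intro a ha
  have h1 : IsUnit (Ideal.Quotient.mk (maximalIdeal A ^ n) (algebraMap 𝒪 A a)) := ha
  exact isUnit_of_map_unit (algebraMap 𝒪 A) a (isUnit_of_map_unit _ _ h1)

lemma UnivEx.quotPow_residue_surjective
    (hres : Function.Surjective (residue A ∘ algebraMap 𝒪 A)) {n : ℕ} (hn : 1 ≤ n) :
    letI := UnivEx.quotPow_isLocalRing A hn
    Function.Surjective (residue (A ⧸ maximalIdeal A ^ n) ∘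
      algebraMap 𝒪 (A ⧸ maximalIdeal A ^ n)) := by
  letI := UnivEx.quotPow_isLocalRing A hn
  haveI := UnivEx.quotPow_isLocalHom_mk A hn
  intro y
  obtain ⟨y', rfl⟩ := residue_surjective y
  obtain ⟨x, rfl⟩ := Ideal.Quotient.mk_surjective y'
  obtain ⟨a, ha⟩ := hres (residue A x)
  refine ⟨a, ?_⟩
  have h1 : algebraMap 𝒪 A a - x ∈ maximalIdeal A := by
    rw [← residue_eq_zero_iff, map_sub, sub_eq_zero]
    exact ha
  have h2 : Ideal.Quotient.mk (maximalIdeal A ^ n) (algebraMap 𝒪 A a - x) ∈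
      maximalIdeal (A ⧸ maximalIdeal A ^ n) := by
    rw [UnivEx.quotPow_maximalIdeal A hn]
    exact Ideal.mem_map_of_mem _ h1
  rw [← residue_eq_zero_iff, map_sub, map_sub, sub_eq_zero] at h2
  exact h2

lemma UnivEx.quotPow_isArtinianTestAlgebra [IsNoetherianRing A] [IsLocalHom (algebraMap 𝒪 A)]
    (hres : Function.Surjective (residue A ∘ algebraMap 𝒪 A)) {n : ℕ} (hn : 1 ≤ n) :
    letI := UnivEx.quotPow_isLocalRing A hn
    GaloisRep.IsArtinianTestAlgebra 𝒪 (A ⧸ maximalIdeal A ^ n) := by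
  letI := UnivEx.quotPow_isLocalRing A hn
  exact ⟨UnivEx.quotPow_isLocalHom_algebraMap A hn, UnivEx.quotPow_residue_surjective A hres hn,
    UnivEx.quotPow_isArtinianRing A hn⟩

end QuotPow

section LocalHom

variable {𝒪 : Type} [CommRing 𝒪]
variable {R : Type} [CommRing R] [IsLocalRing R] [Algebra 𝒪 R]
variable {A : Type} [CommRing A] [IsLocalRing A] [Algebra 𝒪 A]

/-- An `𝒪`-algebra hom between local `𝒪`-algebras is local as soon as the residue field of the
target is generated by `𝒪` and `𝒪 → A` is local. -/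
theorem UnivEx.isLocalHom_of_residue_surjective [IsLocalRing 𝒪] [IsLocalHom (algebraMap 𝒪 A)]
    (hres : Function.Surjective (residue A ∘ algebraMap 𝒪 A)) (φ : R →ₐ[𝒪] A) :
    IsLocalHom (φ : R →+* A) := by
  constructor
  intro x hx
  by_contra hxu
  have hxm : x ∈ maximalIdeal R := (IsLocalRing.mem_maximalIdeal x).mpr hxu
  obtain ⟨a, ha⟩ := hres (residue A (φ x))
  -- `φ (x - a) ∈ m_A`
  have h1 : φ (x - algebraMap 𝒪 R a) ∈ maximalIdeal A := by
    rw [← residue_eq_zero_iff, map_sub, map_sub, AlgHom.commutes, sub_eq_zero]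
    exact ha.symm
  -- hence `x - a` is a nonunit of `R`
  have h2 : x - algebraMap 𝒪 R a ∈ maximalIdeal R := by
    rw [IsLocalRing.mem_maximalIdeal, mem_nonunits_iff]
    intro hu
    exact (IsLocalRing.mem_maximalIdeal _).mp h1 (hu.map φ)
  have h3 : algebraMap 𝒪 R a ∈ maximalIdeal R := by
    have := Ideal.sub_mem _ hxm h2
    rwa [sub_sub_cancel] at this
  have h4 : a ∈ maximalIdeal 𝒪 := by
    rw [IsLocalRing.mem_maximalIdeal, mem_nonunits_iff]
    intro hu
    exact (IsLocalRing.mem_maximalIdeal _).mp h3 (hu.map _)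
  have h5 : algebraMap 𝒪 A a ∈ maximalIdeal A :=
    (IsLocalRing.mem_maximalIdeal _).mpr (map_nonunit (algebraMap 𝒪 A) a h4)
  have h6 : residue A (φ x) = 0 := by
    rw [← ha]
    exact (residue_eq_zero_iff _).mpr h5
  exact (IsLocalRing.mem_maximalIdeal _).mp ((residue_eq_zero_iff _).mp h6) hx

end LocalHom

section Main

variable {𝒪 : Type} [CommRing 𝒪] [IsLocalRing 𝒪]

/-- The classifying map of a matrix representation. -/
noncomputable abbrev UnivEx.evalHom {A : Type} [CommRing A] [Algebra 𝒪 A] (r : Γℚ →* M₂ A) :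
    MvPolynomial (Γℚ × Fin 2 × Fin 2) 𝒪 →ₐ[𝒪] A :=
  MvPolynomial.aeval (fun x : Γℚ × Fin 2 × Fin 2 => r x.1 x.2.1 x.2.2)

lemma UnivEx.evalHom_mapMat {A B : Type} [CommRing A] [Algebra 𝒪 A] [CommRing B] [Algebra 𝒪 B]
    (q : A →ₐ[𝒪] B) (r : Γℚ →* M₂ A) :
    UnivEx.evalHom (𝒪 := 𝒪) (mapMat (q : A →+* B) r) = q.comp (UnivEx.evalHom r) := by
  apply MvPolynomial.algHom_ext
  intro x
  simp [UnivEx.evalHom]


/-- Existence half of the universal property. -/
theorem exists_algHom_of_lift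
    (𝒟 : ∀ ⦃A : Type⦄ [CommRing A] [IsLocalRing A] [Algebra 𝒪 A], GaloisRepAdic A → Prop)
    (h𝒟 : GaloisRep.IsDeformationCondition 𝒪 𝒟)
    (D : RigidData 𝒪) {ρbar : ResidualGaloisRep (ResidueField 𝒪)}
    (e0 : ρbar.Equiv (ofMatRes D.rbar D.hrbar))
    (b : ℕ → Ideal (MvPolynomial (Γℚ × Fin 2 × Fin 2) 𝒪))
    (hclass : ∀ (n : ℕ) (A' : Type) [CommRing A'] [IsLocalRing A'] [Algebra 𝒪 A']
      [IsLocalHom (algebraMap 𝒪 A')], GaloisRep.IsArtinianTestAlgebra 𝒪 A' →
      maximalIdeal A' ^ n = ⊥ → ∀ (r' : Γℚ →* M₂ A') (h : IsNormalizedLift D r'),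
      𝒟 (ofMat r' h.cont) →
      b n ≤ RingHom.ker
        (MvPolynomial.aeval (fun x : Γℚ × Fin 2 × Fin 2 => r' x.1 x.2.1 x.2.2) :
          MvPolynomial (Γℚ × Fin 2 × Fin 2) 𝒪 →ₐ[𝒪] A'))
    {R : Type} [CommRing R] [IsLocalRing R] [Algebra 𝒪 R]
    (ι : MvPolynomial (Γℚ × Fin 2 × Fin 2) 𝒪 →ₐ[𝒪] R)
    (hsurj : ∀ n, Function.Surjective
      ((Ideal.Quotient.mk (maximalIdeal R ^ n)).comp
        (ι : MvPolynomial (Γℚ × Fin 2 × Fin 2) 𝒪 →+* R)))
    (hker : ∀ n, RingHom.ker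
      ((Ideal.Quotient.mk (maximalIdeal R ^ n)).comp
        (ι : MvPolynomial (Γℚ × Fin 2 × Fin 2) 𝒪 →+* R)) = b n)
    (ρR : Γℚ →* M₂ R) (hρR : ∀ g i j, ρR g i j = ι (MvPolynomial.X (g, i, j)))
    (hcontR : IsMatCont ρR)
    (A : Type) [CommRing A] [IsLocalRing A] [IsNoetherianRing A]
    [IsAdicComplete (maximalIdeal A) A] [Algebra 𝒪 A] [IsLocalHom (algebraMap 𝒪 A)]
    (hres : Function.Surjective (residue A ∘ algebraMap 𝒪 A))
    (ρA : GaloisRepAdic A) (hρA : 𝒟 ρA)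
    (hlift : ρA.residual.IsEquiv
      (ρbar.baseChangeAlong (ResidueField.map (algebraMap 𝒪 A)))) :
    ∃ φ : R →ₐ[𝒪] A, ∃ hφ : IsLocalHom (φ : R →+* A),
      ((ofMat ρR hcontR).baseChangeAlong (φ : R →+* A) hφ).IsEquiv ρA := by
  -- normalized matrix form of `ρA`
  obtain ⟨r, hr, ⟨E⟩⟩ := exists_normalizedLift_equiv D
    (UnivEx.hasQuadraticHensel_of_complete A) e0 ρA hlift
  obtain ⟨ev, hev⟩ : ∃ ev, ev = UnivEx.evalHom (𝒪 := 𝒪) r := ⟨_, rfl⟩
  obtain ⟨I, hI⟩ : ∃ I, I = maximalIdeal A := ⟨_, rfl⟩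
  haveI : IsAdicComplete I A := hI ▸ inferInstance
  let g : ∀ n, MvPolynomial (Γℚ × Fin 2 × Fin 2) 𝒪 →ₐ[𝒪] A ⧸ I ^ n :=
    fun n => (Ideal.Quotient.mkₐ 𝒪 (I ^ n)).comp ev
  have hg : ∀ n, b n ≤ RingHom.ker (g n) := by
    intro n
    rcases Nat.eq_zero_or_pos n with rfl | hn
    · intro x _
      haveI : Subsingleton (A ⧸ I ^ 0) := by
        rw [pow_zero, Ideal.one_eq_top]
        exact Ideal.Quotient.subsingleton_iff.mpr rfl
      exact Subsingleton.elim _ _
    · subst hI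
      have hn1 : 1 ≤ n := hn
      letI := UnivEx.quotPow_isLocalRing A hn1
      haveI := UnivEx.quotPow_isLocalHom_algebraMap (𝒪 := 𝒪) A hn1
      have hq : IsLocalHom ((Ideal.Quotient.mkₐ 𝒪 (maximalIdeal A ^ n) :
          A →ₐ[𝒪] A ⧸ maximalIdeal A ^ n) : A →+* A ⧸ maximalIdeal A ^ n) :=
        UnivEx.quotPow_isLocalHom_mk A hn1
      have htest := UnivEx.quotPow_isArtinianTestAlgebra (𝒪 := 𝒪) A hres hn1
      have hrn := hr.map (Ideal.Quotient.mkₐ 𝒪 (maximalIdeal A ^ n)) hq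
      have hDn : 𝒟 (ofMat _ hrn.cont) := by
        have h1 := (h𝒟.iff_forall_surjective inferInstance hres ρA).mp hρA htest
          (Ideal.Quotient.mkₐ 𝒪 (maximalIdeal A ^ n)) hq
          (Ideal.Quotient.mkₐ_surjective 𝒪 _)
        exact h𝒟.of_isEquiv htest
          ⟨(GaloisRepAdic.Equiv.baseChangeAlong _ hq E).trans
            (ofMatBaseChangeEquiv r hr.cont _ hq)⟩ h1
      have h2 := hclass n (A ⧸ maximalIdeal A ^ n) htest
        (UnivEx.quotPow_maximalIdeal_pow A hn1) _ hrn hDn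
      have h3 : UnivEx.evalHom (𝒪 := 𝒪)
          (mapMat ((Ideal.Quotient.mkₐ 𝒪 (maximalIdeal A ^ n) :
            A →ₐ[𝒪] A ⧸ maximalIdeal A ^ n) : A →+* A ⧸ maximalIdeal A ^ n) r) = g n := by
        rw [UnivEx.evalHom_mapMat, ← hev]
      intro x hx
      have h4 := h2 hx
      rw [RingHom.mem_ker] at h4 ⊢
      rw [← h3]
      exact h4
  have hcompat : ∀ {m n : ℕ} (hle : m ≤ n),
      (Ideal.Quotient.factorₐ 𝒪 (Ideal.pow_le_pow_right hle)).comp (g n) = g m := by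
    intro m n hle
    ext x
    rfl
  obtain ⟨φ, hφ⟩ := limitRing_lift b ι hsurj hker I g hg hcompat
  -- `φ ∘ ι = ev`
  have hφι : φ.comp ι = ev := by
    ext x
    rw [← sub_eq_zero]
    apply IsHausdorff.haus (inferInstance : IsHausdorff I A)
    intro n
    rw [SModEq.zero, smul_eq_mul, Ideal.mul_top]
    have h1 := congrArg (fun ψ : MvPolynomial (Γℚ × Fin 2 × Fin 2) 𝒪 →ₐ[𝒪] A ⧸ I ^ n =>
      ψ (MvPolynomial.X x)) (hφ n)
    have h2 : Ideal.Quotient.mk (I ^ n) (φ (ι (MvPolynomial.X x))) =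
        Ideal.Quotient.mk (I ^ n) (ev (MvPolynomial.X x)) := h1
    exact Ideal.Quotient.eq.mp h2
  have hloc : IsLocalHom (φ : R →+* A) := UnivEx.isLocalHom_of_residue_surjective hres φ
  have hmap : mapMat (φ : R →+* A) ρR = r := by
    ext σ i j
    have h1 : φ (ι (MvPolynomial.X (σ, i, j))) = ev (MvPolynomial.X (σ, i, j)) := by
      rw [← hφι]; rfl
    rw [mapMat_apply, Matrix.map_apply, hρR, RingHom.coe_coe, h1, hev]
    simp [UnivEx.evalHom]
  refine ⟨φ, hloc, ⟨?_⟩⟩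
  exact ((ofMatBaseChangeEquiv ρR hcontR _ hloc).trans
    (ofMatCongr (hcontR.map _ hloc) hr.cont hmap)).trans E.symm

end Main

end Fermat.Agent.S53
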