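import Fermat.Agent.S53.NormalizedLift
import Fermat.Agent.S53.LimitRingLift
import Fermat.Agent.S53.UniversalExists
import Fermat.Prelude.Def_GaloisRep_DeformationCondition

/-!
S53, module M9 (uniqueness half of the universal property), helper29.

Given the limit ring `R` with `ι : B → R` (`B` the polynomial ring on the generic matrix entries)
such that `B → R ⧸ m_R ^ n` is surjective for all `n`, and the universal normalized matrix
representation `ρR` with entries `ι (X (g, i, j))`: two local `𝒪`-algebra homs `φ, φ' : R → A`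
(`A` local, `m_A`-adically separated) whose base changes of `ρR` are equivalent are equal.
-/

set_option autoImplicit false

open IsLocalRing

namespace Fermat.Agent.S53

local notation "Γℚ" => (AlgebraicClosure ℚ ≃ₐ[ℚ] AlgebraicClosure ℚ)
local notation "M₂" => Matrix (Fin 2) (Fin 2)

section Unique

variable {𝒪 : Type} [CommRing 𝒪] [IsLocalRing 𝒪]

omit [IsLocalRing 𝒪] in
/-- Core of uniqueness: if `mapMat φ ρR = mapMat φ' ρR` then `φ = φ'`. -/
theorem UnivUniq.algHom_ext_of_mapMat_eq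
    {R : Type} [CommRing R] [IsLocalRing R] [Algebra 𝒪 R]
    (ι : MvPolynomial (Γℚ × Fin 2 × Fin 2) 𝒪 →ₐ[𝒪] R)
    (hsurj : ∀ n, Function.Surjective
      ((Ideal.Quotient.mk (maximalIdeal R ^ n)).comp
        (ι : MvPolynomial (Γℚ × Fin 2 × Fin 2) 𝒪 →+* R)))
    (ρR : Γℚ →* M₂ R) (hρR : ∀ g i j, ρR g i j = ι (MvPolynomial.X (g, i, j)))
    {A : Type} [CommRing A] [IsLocalRing A] [Algebra 𝒪 A] [IsHausdorff (maximalIdeal A) A]
    (φ φ' : R →ₐ[𝒪] A) (hφ : IsLocalHom (φ : R →+* A)) (hφ' : IsLocalHom (φ' : R →+* A))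
    (h : mapMat (φ : R →+* A) ρR = mapMat (φ' : R →+* A) ρR) : φ = φ' := by
  refine limitRing_algHom_ext ι hsurj φ φ' hφ hφ' ?_
  apply MvPolynomial.algHom_ext
  rintro ⟨g, i, j⟩
  have h1 := congrArg (fun r : Γℚ →* M₂ A => r g i j) h
  simp only [mapMat_apply, Matrix.map_apply, hρR, RingHom.coe_coe] at h1
  simpa using h1

/-- Uniqueness half of the universal property: two local `𝒪`-algebra homs `R → A` inducing
equivalent base changes of the universal normalized representation are equal. -/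
theorem algHom_unique_of_isEquiv
    (D : RigidData 𝒪)
    {R : Type} [CommRing R] [IsLocalRing R] [Algebra 𝒪 R] [IsLocalHom (algebraMap 𝒪 R)]
    (ι : MvPolynomial (Γℚ × Fin 2 × Fin 2) 𝒪 →ₐ[𝒪] R)
    (hsurj : ∀ n, Function.Surjective
      ((Ideal.Quotient.mk (maximalIdeal R ^ n)).comp
        (ι : MvPolynomial (Γℚ × Fin 2 × Fin 2) 𝒪 →+* R)))
    (ρR : Γℚ →* M₂ R) (hρR : ∀ g i j, ρR g i j = ι (MvPolynomial.X (g, i, j)))
    (hN : IsNormalizedLift D ρR)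
    {A : Type} [CommRing A] [IsLocalRing A] [Algebra 𝒪 A] [IsLocalHom (algebraMap 𝒪 A)]
    [IsHausdorff (maximalIdeal A) A]
    (φ φ' : R →ₐ[𝒪] A) (hφ : IsLocalHom (φ : R →+* A)) (hφ' : IsLocalHom (φ' : R →+* A))
    (h : ((ofMat ρR hN.cont).baseChangeAlong (φ : R →+* A) hφ).IsEquiv
      ((ofMat ρR hN.cont).baseChangeAlong (φ' : R →+* A) hφ')) : φ = φ' := by
  obtain ⟨E⟩ := h
  have h1 := hN.map φ hφ
  have h2 := hN.map φ' hφ'
  have he : (ofMat _ h1.cont).IsEquiv (ofMat _ h2.cont) :=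
    ⟨((ofMatBaseChangeEquiv ρR hN.cont _ hφ).symm.trans E).trans
      (ofMatBaseChangeEquiv ρR hN.cont _ hφ')⟩
  exact UnivUniq.algHom_ext_of_mapMat_eq ι hsurj ρR hρR φ φ' hφ hφ' (h1.eq_of_isEquiv h2 he)

/-- Version with a target representation `ρA`: both base changes equivalent to `ρA`. -/
theorem algHom_unique_of_lift
    (D : RigidData 𝒪)
    {R : Type} [CommRing R] [IsLocalRing R] [Algebra 𝒪 R] [IsLocalHom (algebraMap 𝒪 R)]
    (ι : MvPolynomial (Γℚ × Fin 2 × Fin 2) 𝒪 →ₐ[𝒪] R)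
    (hsurj : ∀ n, Function.Surjective
      ((Ideal.Quotient.mk (maximalIdeal R ^ n)).comp
        (ι : MvPolynomial (Γℚ × Fin 2 × Fin 2) 𝒪 →+* R)))
    (ρR : Γℚ →* M₂ R) (hρR : ∀ g i j, ρR g i j = ι (MvPolynomial.X (g, i, j)))
    (hN : IsNormalizedLift D ρR)
    {A : Type} [CommRing A] [IsLocalRing A] [Algebra 𝒪 A] [IsLocalHom (algebraMap 𝒪 A)]
    [IsHausdorff (maximalIdeal A) A] (ρA : GaloisRepAdic A)
    (φ φ' : R →ₐ[𝒪] A) (hφ : IsLocalHom (φ : R →+* A)) (hφ' : IsLocalHom (φ' : R →+* A))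
    (h : ((ofMat ρR hN.cont).baseChangeAlong (φ : R →+* A) hφ).IsEquiv ρA)
    (h' : ((ofMat ρR hN.cont).baseChangeAlong (φ' : R →+* A) hφ').IsEquiv ρA) : φ = φ' := by
  obtain ⟨E⟩ := h
  obtain ⟨E'⟩ := h'
  exact algHom_unique_of_isEquiv D ι hsurj ρR hρR hN φ φ' hφ hφ' ⟨E.trans E'.symm⟩

/-- The full universal property (existence from `exists_algHom_of_lift`, uniqueness from
`algHom_unique_of_lift`) in the shape of the last clause of the frozen S53 statement. -/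
theorem existsUnique_algHom_of_lift
    (𝒟 : ∀ ⦃A : Type⦄ [CommRing A] [IsLocalRing A] [Algebra 𝒪 A], GaloisRepAdic A → Prop)
    (h𝒟 : GaloisRep.IsDeformationCondition 𝒪 𝒟)
    (D : RigidData 𝒪) {ρbar : ResidualGaloisRep (ResidueField 𝒪)}
    (e0 : ρbar.Equiv (ofMatRes D.rbar D.hrbar))
    (b : ℕ → Ideal (MvPolynomial (Γℚ × Fin 2 × Fin 2) 𝒪))
    (hclass : ∀ (n : ℕ) (A' : Type) [CommRing A'] [IsLocalRing A'] [Algebra 𝒪 A']
      [IsLocalHom (algebraMap 𝒪 A')], GaloisRep.IsArtinianTestAlgebra 𝒪 A' →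
      maximalIdeal A' ^ n = ⊥ → ∀ (r' : Γℚ →* M₂ A') (h : IsNormalizedLift D r'),
      𝒟 (ofMat r' h.cont) →
      b n ≤ RingHom.ker
        (MvPolynomial.aeval (fun x : Γℚ × Fin 2 × Fin 2 => r' x.1 x.2.1 x.2.2) :
          MvPolynomial (Γℚ × Fin 2 × Fin 2) 𝒪 →ₐ[𝒪] A'))
    {R : Type} [CommRing R] [IsLocalRing R] [Algebra 𝒪 R] [IsLocalHom (algebraMap 𝒪 R)]
    (ι : MvPolynomial (Γℚ × Fin 2 × Fin 2) 𝒪 →ₐ[𝒪] R)
    (hsurj : ∀ n, Function.Surjective
      ((Ideal.Quotient.mk (maximalIdeal R ^ n)).comp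
        (ι : MvPolynomial (Γℚ × Fin 2 × Fin 2) 𝒪 →+* R)))
    (hker : ∀ n, RingHom.ker
      ((Ideal.Quotient.mk (maximalIdeal R ^ n)).comp
        (ι : MvPolynomial (Γℚ × Fin 2 × Fin 2) 𝒪 →+* R)) = b n)
    (ρR : Γℚ →* M₂ R) (hρR : ∀ g i j, ρR g i j = ι (MvPolynomial.X (g, i, j)))
    (hN : IsNormalizedLift D ρR)
    (A : Type) [CommRing A] [IsLocalRing A] [IsNoetherianRing A]
    [IsAdicComplete (maximalIdeal A) A] [Algebra 𝒪 A] [IsLocalHom (algebraMap 𝒪 A)]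
    (hres : Function.Surjective (residue A ∘ algebraMap 𝒪 A))
    (ρA : GaloisRepAdic A) (hρA : 𝒟 ρA)
    (hlift : ρA.residual.IsEquiv
      (ρbar.baseChangeAlong (ResidueField.map (algebraMap 𝒪 A)))) :
    ∃! φ : R →ₐ[𝒪] A, ∃ hφ : IsLocalHom (φ : R →+* A),
      ((ofMat ρR hN.cont).baseChangeAlong (φ : R →+* A) hφ).IsEquiv ρA := by
  obtain ⟨φ, hφ, hE⟩ := exists_algHom_of_lift 𝒟 h𝒟 D e0 b hclass ι hsurj hker ρR hρR hN.cont
    A hres ρA hρA hlift
  refine ⟨φ, ⟨hφ, hE⟩, ?_⟩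
  rintro φ' ⟨hφ', hE'⟩
  exact algHom_unique_of_lift D ι hsurj ρR hρR hN ρA φ' φ hφ' hφ hE' hE

end Unique

end Fermat.Agent.S53
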