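import Mathlib
import Fermat.Prelude.Def_GaloisRep_DeformationCondition
import Fermat.Agent.S53.IndexSet
import Fermat.Agent.S53.Tower
import Fermat.Agent.S53.LimitRing
import Fermat.Agent.S53.UnivRep
import Fermat.Agent.S53.UniversalUnique

/-!
S53: adapters between the index set of good ideals (M4), the abstract tower (M6), the limit ring
(M7), the universal representation (M8) and the universal property (M9).
-/

set_option autoImplicit false
set_option linter.style.haveILetI false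
set_option linter.unusedSectionVars false

noncomputable section

namespace Fermat.Agent.S53

open IsLocalRing GaloisRep

local notation "Γℚ" => (AlgebraicClosure ℚ ≃ₐ[ℚ] AlgebraicClosure ℚ)
local notation "M₂" => Matrix (Fin 2) (Fin 2)

variable {𝒪 : Type} [CommRing 𝒪] [IsLocalRing 𝒪]
  {𝒟 : ∀ ⦃A : Type⦄ [CommRing A] [IsLocalRing A] [Algebra 𝒪 A], GaloisRepAdic A → Prop}
  {D : RigidData 𝒪}

/-- The good ideals form a good family, given the cardinality bound. -/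
theorem GoodGlue.goodFamily [Finite (ResidueField 𝒪)] (hD : IsDeformationCondition 𝒪 𝒟)
    {ρbar : ResidualGaloisRep (ResidueField 𝒪)} (e0 : ρbar.Equiv (ofMatRes D.rbar D.hrbar))
    (hbar : 𝒟 (GaloisRepAdic.ofResidualGaloisRep ρbar))
    (hcard : ∀ n : ℕ, ∃ C : ℕ, ∀ b, Good 𝒟 D b → mB D ^ n ≤ b → Nat.card (BigB 𝒪 ⧸ b) ≤ C) :
    GoodFamily (mB D) (Good 𝒟 D) :=
  ⟨fun _ h => h.adm.le, fun _ _ h hle hb' => h.of_le hD hle hb', fun _ _ h h' => h.inf hD h',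
    good_mB hD D e0 hbar, fun _ h => h.adm.finite, hcard⟩

/-- The classifying property of the tower of least good ideals. -/
theorem GoodGlue.hclass [Finite (ResidueField 𝒪)] (hD : IsDeformationCondition 𝒪 𝒟)
    (hF : GoodFamily (mB D) (Good 𝒟 D)) :
    ∀ (n : ℕ) (A' : Type) [CommRing A'] [IsLocalRing A'] [Algebra 𝒪 A']
      [IsLocalHom (algebraMap 𝒪 A')], IsArtinianTestAlgebra 𝒪 A' →
      maximalIdeal A' ^ n = ⊥ → ∀ (r' : Γℚ →* M₂ A') (h : IsNormalizedLift D r'),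
      𝒟 (ofMat r' h.cont) →
      towerIdeal hF n ≤ RingHom.ker
        (MvPolynomial.aeval (fun x : Γℚ × Fin 2 × Fin 2 => r' x.1 x.2.1 x.2.2) :
          MvPolynomial (Γℚ × Fin 2 × Fin 2) 𝒪 →ₐ[𝒪] A') := by
  intro n A' _ _ _ _ hA' hn r' h hd
  by_cases hn1 : 1 ≤ n
  · exact towerIdeal_le hF hn1 (good_ker_classify hD hA' r' h hd)
      (pow_mB_le_ker_classify r' h.red hn)
  · have hn0 : n = 0 := by omega
    subst hn0
    exfalso
    rw [pow_zero, Ideal.one_eq_top] at hn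
    exact top_ne_bot hn

/-- The levels of the tower carry normalized lifts of the prescribed type. -/
theorem GoodGlue.hgood (hF : GoodFamily (mB D) (Good 𝒟 D)) :
    ∀ n, 1 ≤ n → ∃ (_ : IsLocalRing (BigB 𝒪 ⧸ towerIdeal hF n))
      (_ : IsLocalHom (algebraMap 𝒪 (BigB 𝒪 ⧸ towerIdeal hF n))),
      IsArtinianTestAlgebra 𝒪 (BigB 𝒪 ⧸ towerIdeal hF n) ∧
      ∃ (r : Γℚ →* M₂ (BigB 𝒪 ⧸ towerIdeal hF n)) (hr : IsNormalizedLift D r),
        (∀ g, r g = (gen 𝒪 g).map (Ideal.Quotient.mk (towerIdeal hF n))) ∧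
          𝒟 (ofMat r hr.cont) := by
  intro n hn
  have h := towerIdeal_good hF hn
  exact ⟨h.adm.isLocalRing, h.adm.isLocalHom, h.adm.isArtinianTestAlgebra, h.rep,
    h.isNormalizedLift, h.rep_apply, h.dcond⟩

/-- The tower hypotheses for the limit ring. -/
theorem GoodGlue.towerHyp (hF : GoodFamily (mB D) (Good 𝒟 D)) {d : ℕ} (t : Fin d → BigB 𝒪)
    (ht : ∀ i, t i ∈ mB D)
    (hgen : mB D ≤ Ideal.span (Set.range t) ⊔ (maximalIdeal 𝒪).map (algebraMap 𝒪 (BigB 𝒪)) ⊔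
      mB D ^ 2 ⊔ towerIdeal hF 2) :
    TowerHyp (𝒪 := 𝒪) (mB D) (towerIdeal hF) t :=
  ⟨mB_ne_top D, exists_sub_algebraMap_mem_mB D, map_maximalIdeal_le_mB D, pow_le_towerIdeal hF,
    fun _ hn => towerIdeal_le_max hF hn, towerIdeal_anti hF, towerIdeal_step hF, ht, hgen⟩

/-- The universal normalized lift, from the cardinality bound and the uniform bound on the number
of generators. -/
theorem GoodGlue.exists_universal_of [IsNoetherianRing 𝒪] [IsAdicComplete (maximalIdeal 𝒪) 𝒪]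
    [Finite (ResidueField 𝒪)] (hD : IsDeformationCondition 𝒪 𝒟)
    {ρbar : ResidualGaloisRep (ResidueField 𝒪)} (e0 : ρbar.Equiv (ofMatRes D.rbar D.hrbar))
    (hbar : 𝒟 (GaloisRepAdic.ofResidualGaloisRep ρbar))
    (hcard : ∀ n : ℕ, ∃ C : ℕ, ∀ b, Good 𝒟 D b → mB D ^ n ≤ b → Nat.card (BigB 𝒪 ⧸ b) ≤ C)
    (hgen : ∃ d : ℕ, ∀ b, Good 𝒟 D b → ∃ t : Fin d → BigB 𝒪, (∀ i, t i ∈ mB D) ∧
      mB D ≤ Ideal.span (Set.range t) ⊔ (maximalIdeal 𝒪).map (algebraMap 𝒪 (BigB 𝒪)) ⊔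
        mB D ^ 2 ⊔ b) :
    ∃ (R : Type) (_ : CommRing R) (_ : IsLocalRing R) (_ : IsNoetherianRing R)
      (_ : IsAdicComplete (maximalIdeal R) R) (_ : Algebra 𝒪 R)
      (_ : IsLocalHom (algebraMap 𝒪 R)) (rR : Γℚ →* M₂ R) (hN : IsNormalizedLift D rR),
      Function.Surjective (residue R ∘ algebraMap 𝒪 R) ∧ 𝒟 (ofMat rR hN.cont) ∧
      ∀ (A : Type) [CommRing A] [IsLocalRing A] [IsNoetherianRing A]
        [IsAdicComplete (maximalIdeal A) A] [Algebra 𝒪 A] [IsLocalHom (algebraMap 𝒪 A)],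
        Function.Surjective (residue A ∘ algebraMap 𝒪 A) → ∀ ρA : GaloisRepAdic A, 𝒟 ρA →
        ρA.residual.IsEquiv (ρbar.baseChangeAlong (ResidueField.map (algebraMap 𝒪 A))) →
        ∃! φ : R →ₐ[𝒪] A, ∃ hφ : IsLocalHom (φ : R →+* A),
          ((ofMat rR hN.cont).baseChangeAlong (φ : R →+* A) hφ).IsEquiv ρA := by
  have hF : GoodFamily (mB D) (Good 𝒟 D) := GoodGlue.goodFamily hD e0 hbar hcard
  obtain ⟨d, hd⟩ := hgen
  obtain ⟨t, ht, htgen⟩ := hd (towerIdeal hF 2) (towerIdeal_good hF (by norm_num))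
  have hT := GoodGlue.towerHyp hF t ht htgen
  obtain ⟨R, iR1, iR2, iR3, iR4, iR5, iR6, ι, hres, hsurj, hker⟩ := exists_limitRing hT
  obtain ⟨ρ, hN, hρ, hdρ⟩ := exists_univRep hD hres (gen 𝒪) ι (towerIdeal hF) hsurj hker
    (GoodGlue.hgood hF)
  have hρR : ∀ g i j, ρ g i j = ι (MvPolynomial.X (g, i, j)) := fun g i j => by
    rw [hρ g]; rfl
  refine ⟨R, iR1, iR2, iR3, iR4, iR5, iR6, ρ, hN, hres, hdρ, ?_⟩
  intro A _ _ _ _ _ _ hresA ρA hρA hlift
  exact existsUnique_algHom_of_lift 𝒟 hD D e0 (towerIdeal hF) (GoodGlue.hclass hD hF) ι hsurj hker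
    ρ hρR hN A hresA ρA hρA hlift

end Fermat.Agent.S53
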