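import Fermat.Agent.S53.NormalizedLift
import Fermat.Agent.S53.Burnside

/-!
Existence of rigidification data for an absolutely irreducible residual representation.
-/

set_option autoImplicit false

namespace Fermat.Agent.S53

local notation "Γℚ" => (AlgebraicClosure ℚ ≃ₐ[ℚ] AlgebraicClosure ℚ)
local notation "M₂" => Matrix (Fin 2) (Fin 2)

open IsLocalRing

theorem single_zero_zero_eq {R : Type*} [CommRing R] :
    (Matrix.single 0 0 1 : M₂ R) = !![1, 0; 0, 0] := by
  ext i j
  fin_cases i <;> fin_cases j <;> simp

theorem single_one_zero_eq {R : Type*} [CommRing R] :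
    (Matrix.single 1 0 1 : M₂ R) = !![0, 0; 1, 0] := by
  ext i j
  fin_cases i <;> fin_cases j <;> simp

/-- Rigidification data exist for every absolutely irreducible residual representation. -/
theorem exists_rigidData {𝒪 : Type} [CommRing 𝒪] [IsLocalRing 𝒪]
    (ρbar : ResidualGaloisRep (ResidueField 𝒪)) (habs : ρbar.IsAbsolutelyIrreducible) :
    ∃ D : RigidData 𝒪, Nonempty (ρbar.Equiv (ofMatRes D.rbar D.hrbar)) := by
  set b := chosenBasisRes ρbar with hb
  obtain ⟨x11, x21, h11, h21⟩ := exists_rigidifying_elements ρbar habs b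
  have hfun : (resMat ρbar b : Γℚ → M₂ (ResidueField 𝒪)) = toMatResOfBasis ρbar b := by
    funext σ
    rw [resMat_apply, toMatResOfBasis_apply]
  refine ⟨{ rbar := toMatResOfBasis ρbar b
            hrbar := factorsThroughFiniteLevel_toMatResOfBasis ρbar b
            x11 := x11
            x21 := x21
            h11 := ?_
            h21 := ?_ }, ⟨equivOfMatResOfBasis ρbar b⟩⟩
  · rw [← single_zero_zero_eq, ← h11]
    show gaEval (toMatResOfBasis ρbar b : Γℚ → M₂ (ResidueField 𝒪)) x11 = _
    rw [hfun]
  · rw [← single_one_zero_eq, ← h21]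
    show gaEval (toMatResOfBasis ρbar b : Γℚ → M₂ (ResidueField 𝒪)) x21 = _
    rw [hfun]

end Fermat.Agent.S53
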