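import Mathlib

/-!
S53 helper (pure commutative algebra): a local ring with finite residue field whose maximal
ideal is generated by `e` elements and satisfies `m ^ n = 0` is finite, with
`card ≤ |k| ^ (∑ j < n, e ^ j)`.
-/

set_option autoImplicit false

open IsLocalRing
open scoped Pointwise

namespace Fermat.Agent.S53

namespace CardBound

section Module

variable {A : Type*} [CommRing A] [IsLocalRing A] [Finite (ResidueField A)]
variable {M : Type*} [AddCommGroup M] [Module A M]

/-- A submodule spanned by a finite set `T` and killed by the maximal ideal has at most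
`|k| ^ |T|` elements. -/
theorem card_span_le (T : Finset M)
    (hkill : ∀ a ∈ maximalIdeal A, ∀ x ∈ Submodule.span A (T : Set M), a • x = 0) :
    (Submodule.span A (T : Set M) : Set M).Finite ∧
      Nat.card (Submodule.span A (T : Set M)) ≤ Nat.card (ResidueField A) ^ T.card := by
  classical
  -- a section of the residue map
  let sec : ResidueField A → A := fun y => (residue_surjective y).choose
  have hsec : ∀ y, residue A (sec y) = y := fun y => (residue_surjective y).choose_spec
  let G : (T → ResidueField A) → M := fun c => ∑ t : T, sec (c t) • (t : M)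
  have hsub : (Submodule.span A (T : Set M) : Set M) ⊆ Set.range G := by
    intro x hx
    rw [SetLike.mem_coe, Submodule.mem_span_finset'] at hx
    obtain ⟨f, rfl⟩ := hx
    refine ⟨fun t => residue A (f t), ?_⟩
    show ∑ t : T, sec (residue A (f t)) • (t : M) = ∑ t : T, f t • (t : M)
    refine Finset.sum_congr rfl fun t _ => ?_
    rw [← sub_eq_zero, ← sub_smul]
    refine hkill _ ?_ _ (Submodule.subset_span t.2)
    rw [← residue_eq_zero_iff, map_sub, hsec, sub_self]
  have hfin : (Set.range G).Finite := Set.finite_range G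
  refine ⟨hfin.subset hsub, ?_⟩
  calc Nat.card (Submodule.span A (T : Set M))
      = Nat.card ((Submodule.span A (T : Set M) : Set M)) := rfl
    _ ≤ Nat.card (Set.range G) := Nat.card_mono hfin hsub
    _ ≤ Nat.card (T → ResidueField A) := Finite.card_range_le G
    _ = Nat.card (ResidueField A) ^ T.card := by
        rw [Nat.card_fun, Nat.card_eq_finsetCard]

end Module

section Ring

variable {A : Type*} [CommRing A] [IsLocalRing A]

omit [IsLocalRing A] in
/-- Powers of a finitely generated ideal are spanned by the powers of the generating set. -/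
theorem span_finset_pow [DecidableEq A] (S : Finset A) (j : ℕ) :
    Ideal.span (S : Set A) ^ j = Ideal.span ((S ^ j : Finset A) : Set A) := by
  induction j with
  | zero => simp [Ideal.one_eq_top]
  | succ j ih =>
    rw [pow_succ, ih, Ideal.span_mul_span', pow_succ, Finset.coe_mul]

variable [Finite (ResidueField A)]

/-- Cardinality of the successive quotients. -/
theorem card_quot_pow_le [DecidableEq A] (S : Finset A)
    (hS : maximalIdeal A = Ideal.span (S : Set A)) (j : ℕ) :
    Finite (A ⧸ maximalIdeal A ^ j) ∧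
      Nat.card (A ⧸ maximalIdeal A ^ j) ≤
        Nat.card (ResidueField A) ^ (∑ i ∈ Finset.range j, S.card ^ i) := by
  induction j with
  | zero =>
    have hsub : Subsingleton (A ⧸ maximalIdeal A ^ 0) := by
      rw [pow_zero, Ideal.one_eq_top]
      exact Ideal.Quotient.subsingleton_iff.mpr rfl
    refine ⟨inferInstance, ?_⟩
    simp
  | succ j ih =>
    obtain ⟨hfin, hcard⟩ := ih
    let _ : DecidableEq (A ⧸ maximalIdeal A ^ (j + 1)) := Classical.decEq _
    set m := maximalIdeal A with hm
    -- the kernel of `A ⧸ m^(j+1) → A ⧸ m^j`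
    have hle : m ^ (j + 1) ≤ m ^ j := Ideal.pow_le_pow_right (Nat.le_succ j)
    let K : Submodule A (A ⧸ m ^ (j + 1)) := Submodule.map (m ^ (j + 1)).mkQ (m ^ j)
    let T : Finset (A ⧸ m ^ (j + 1)) := (S ^ j).image (m ^ (j + 1)).mkQ
    have hmj : m ^ j = Ideal.span ((S ^ j : Finset A) : Set A) := by
      rw [hS, span_finset_pow S j]
    have hK : K = Submodule.span A (T : Set (A ⧸ m ^ (j + 1))) := by
      show Submodule.map (m ^ (j + 1)).mkQ (m ^ j) = _
      rw [hmj]
      show Submodule.map _ (Submodule.span A ((S ^ j : Finset A) : Set A)) = _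
      rw [Submodule.map_span, Finset.coe_image]
    have hkill : ∀ a ∈ maximalIdeal A, ∀ x ∈ Submodule.span A (T : Set (A ⧸ m ^ (j + 1))),
        a • x = 0 := by
      intro a ha x hx
      rw [← hK] at hx
      obtain ⟨y, hy, rfl⟩ := hx
      rw [← map_smul, Submodule.mkQ_apply, Submodule.Quotient.mk_eq_zero, pow_succ']
      exact Ideal.mul_mem_mul ha hy
    obtain ⟨hKfin, hKcard⟩ := card_span_le T hkill
    rw [← hK] at hKfin hKcard
    have hTcard : T.card ≤ S.card ^ j :=
      Finset.card_image_le.trans Finset.card_pow_le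
    -- the quotient by `K` is `A ⧸ m^j`
    let e : ((A ⧸ m ^ (j + 1)) ⧸ K) ≃ₗ[A] (A ⧸ m ^ j) :=
      Submodule.quotientQuotientEquivQuotient (m ^ (j + 1)) (m ^ j) hle
    have hcardeq : Nat.card (A ⧸ m ^ (j + 1)) = Nat.card (A ⧸ m ^ j) * Nat.card K := by
      have h1 := AddSubgroup.card_eq_card_quotient_mul_card_addSubgroup K.toAddSubgroup
      have h2 : Nat.card ((A ⧸ m ^ (j + 1)) ⧸ K.toAddSubgroup) = Nat.card (A ⧸ m ^ j) :=
        Nat.card_congr e.toEquiv
      rw [h1, h2]
      rfl
    have hKfin' : Finite K := hKfin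
    have hpos1 : 0 < Nat.card (A ⧸ m ^ j) := Nat.card_pos
    have hpos2 : 0 < Nat.card K := Nat.card_pos
    have hne : Nat.card (A ⧸ m ^ (j + 1)) ≠ 0 := by
      rw [hcardeq]
      exact (Nat.mul_pos hpos1 hpos2).ne'
    refine ⟨Nat.finite_of_card_ne_zero hne, ?_⟩
    rw [hcardeq, Finset.sum_range_succ, pow_add (Nat.card (ResidueField A))]
    have hq : 0 < Nat.card (ResidueField A) := Nat.card_pos
    exact Nat.mul_le_mul hcard (hKcard.trans (Nat.pow_le_pow_right hq hTcard))

/-- Main bound, finset version. -/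
theorem card_le_of_finset [DecidableEq A] (S : Finset A)
    (hS : maximalIdeal A = Ideal.span (S : Set A)) {n : ℕ} (hn : maximalIdeal A ^ n = ⊥) :
    Finite A ∧ Nat.card A ≤ Nat.card (ResidueField A) ^ (∑ i ∈ Finset.range n, S.card ^ i) := by
  obtain ⟨hfin, hcard⟩ := card_quot_pow_le S hS n
  rw [hn] at hfin hcard
  let e : (A ⧸ (⊥ : Ideal A)) ≃+* A := RingEquiv.quotientBot A
  refine ⟨Finite.of_equiv _ e.toEquiv, ?_⟩
  rw [← Nat.card_congr e.toEquiv]
  exact hcard

/-- Main bound, indexed-family version. -/
theorem card_le_of_range {e n : ℕ} (s : Fin e → A)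
    (hs : maximalIdeal A = Ideal.span (Set.range s)) (hn : maximalIdeal A ^ n = ⊥) :
    Finite A ∧ Nat.card A ≤ Nat.card (ResidueField A) ^ (∑ i ∈ Finset.range n, e ^ i) := by
  classical
  let S : Finset A := Finset.univ.image s
  have hS : maximalIdeal A = Ideal.span (S : Set A) := by
    rw [hs, Finset.coe_image, Finset.coe_univ, Set.image_univ]
  obtain ⟨hfin, hcard⟩ := card_le_of_finset S hS hn
  refine ⟨hfin, hcard.trans ?_⟩
  have hq : 0 < Nat.card (ResidueField A) := Nat.card_pos
  have hSc : S.card ≤ e := by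
    calc S.card ≤ (Finset.univ : Finset (Fin e)).card := Finset.card_image_le
      _ = e := by simp
  exact Nat.pow_le_pow_right hq
    (Finset.sum_le_sum fun i _ => Nat.pow_le_pow_left hSc i)

end Ring

section Algebra

variable {𝒪 : Type*} [CommRing 𝒪] [IsLocalRing 𝒪] [Finite (ResidueField 𝒪)]
variable {A : Type*} [CommRing A] [IsLocalRing A] [Algebra 𝒪 A]

/-- The residue field of a local `𝒪`-algebra with `𝒪 → k_A` surjective and `m_𝒪 A ≤ m_A` is a
quotient of the residue field of `𝒪`. -/
theorem residueField_card_le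
    (hres : Function.Surjective (residue A ∘ algebraMap 𝒪 A))
    (hmap : (maximalIdeal 𝒪).map (algebraMap 𝒪 A) ≤ maximalIdeal A) :
    Finite (ResidueField A) ∧ Nat.card (ResidueField A) ≤ Nat.card (ResidueField 𝒪) := by
  let sec : ResidueField 𝒪 → 𝒪 := fun y => (residue_surjective y).choose
  have hsec : ∀ y, residue 𝒪 (sec y) = y := fun y => (residue_surjective y).choose_spec
  let f : ResidueField 𝒪 → ResidueField A := fun y => residue A (algebraMap 𝒪 A (sec y))
  have hf : Function.Surjective f := by
    intro z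
    obtain ⟨a, ha⟩ := hres z
    refine ⟨residue 𝒪 a, ?_⟩
    show residue A (algebraMap 𝒪 A (sec (residue 𝒪 a))) = z
    rw [← ha, Function.comp_apply, ← sub_eq_zero, ← map_sub, ← map_sub, residue_eq_zero_iff]
    refine hmap (Ideal.mem_map_of_mem _ ?_)
    rw [← residue_eq_zero_iff, map_sub, hsec, sub_self]
  exact ⟨Finite.of_surjective f hf, Nat.card_le_card_of_surjective f hf⟩

/-- The bound in the shape needed for the tower of good ideals: if `m_𝒪` is principal and
`m_A` is generated by `d` elements together with `m_𝒪 A`, and `m_A ^ n = 0`, then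
`|A| ≤ |k| ^ (∑ i < n, (d + 1) ^ i)` with `k` the residue field of `𝒪`. -/
theorem card_le_of_algebra (hp : (maximalIdeal 𝒪).IsPrincipal)
    (hres : Function.Surjective (residue A ∘ algebraMap 𝒪 A)) {d n : ℕ} (t : Fin d → A)
    (ht : maximalIdeal A =
      Ideal.span (Set.range t) ⊔ (maximalIdeal 𝒪).map (algebraMap 𝒪 A))
    (hn : maximalIdeal A ^ n = ⊥) :
    Finite A ∧ Nat.card A ≤ Nat.card (ResidueField 𝒪) ^ (∑ i ∈ Finset.range n, (d + 1) ^ i) := by
  obtain ⟨π, hπ⟩ := hp.principal
  have hmap : (maximalIdeal 𝒪).map (algebraMap 𝒪 A) ≤ maximalIdeal A := by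
    rw [ht]; exact le_sup_right
  obtain ⟨hkfin, hkcard⟩ := residueField_card_le hres hmap
  let s : Fin (d + 1) → A := Fin.snoc t (algebraMap 𝒪 A π)
  have hs : maximalIdeal A = Ideal.span (Set.range s) := by
    have h1 : Set.range s = Set.range t ∪ {algebraMap 𝒪 A π} := by
      ext x
      constructor
      · rintro ⟨i, rfl⟩
        refine Fin.lastCases ?_ (fun i => ?_) i
        · right; simp [s]
        · left; exact ⟨i, by simp [s]⟩
      · rintro (⟨i, rfl⟩ | hx)
        · exact ⟨i.castSucc, by simp [s]⟩
        · rw [Set.mem_singleton_iff] at hx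
          exact ⟨Fin.last d, by simp [s, hx]⟩
    have h2 : (maximalIdeal 𝒪).map (algebraMap 𝒪 A) = Ideal.span {algebraMap 𝒪 A π} := by
      rw [hπ]
      show Ideal.map (algebraMap 𝒪 A) (Ideal.span {π}) = _
      rw [Ideal.map_span, Set.image_singleton]
    rw [ht, h1, Ideal.span_union, h2]
  obtain ⟨hfin, hcard⟩ := card_le_of_range s hs hn
  refine ⟨hfin, hcard.trans (Nat.pow_le_pow_left hkcard _)⟩

end Algebra

end CardBound

end Fermat.Agent.S53
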