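import Fermat.Agent.S53.NormalizedLift
import Fermat.Prelude.Def_GaloisRep_DeformationCondition

/-!
S53, module M5: the tangent space bound.

Part A (commutative algebra): if a local noetherian `𝒪`-algebra `A` (residue field `k`) has at
most `T` local `𝒪`-algebra homs to `k[ε]`, then `𝔪_A` is generated by `T` elements together with
the image of `𝔪_𝒪`.

Part B (Galois side): `TangentFinite` bounds the number of normalized lifts of type `𝒟` over
`k[ε]`, hence the number of `𝒪`-algebra homs `A → k[ε]` whenever `A` carries a normalized lift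
of type `𝒟` whose matrix entries generate `A`.
-/

set_option autoImplicit false

namespace Fermat.Agent.S53

local notation "Γℚ" => (AlgebraicClosure ℚ ≃ₐ[ℚ] AlgebraicClosure ℚ)
local notation "M₂" => Matrix (Fin 2) (Fin 2)

open IsLocalRing

section DualHom

variable {A K : Type} [CommRing A] [CommRing K]

/-- A ring hom to the dual numbers from a ring hom and a derivation-like map. -/
noncomputable def tbDualHomOfLeibniz (ρ : A →+* K) (D : A → K)
    (hadd : ∀ a b, D (a + b) = D a + D b)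
    (hmul : ∀ a b, D (a * b) = ρ a * D b + ρ b * D a) : A →+* DualNumber K where
  toFun a := TrivSqZeroExt.inl (ρ a) + TrivSqZeroExt.inr (D a)
  map_one' := by
    have h1 : D 1 = 0 := by
      have := hmul 1 1
      simp only [mul_one, map_one, one_mul] at this
      have h2 : D 1 + D 1 = D 1 + 0 := by rw [add_zero]; exact this.symm
      exact add_left_cancel h2
    ext <;> simp [h1]
  map_mul' a b := by
    ext <;> simp [hmul, mul_comm]
  map_zero' := by
    have h0 : D 0 = 0 := by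
      have := hadd 0 0
      simp only [add_zero] at this
      have h2 : D 0 + D 0 = D 0 + 0 := by rw [add_zero]; exact this.symm
      exact add_left_cancel h2
    ext <;> simp [h0]
  map_add' a b := by
    ext <;> simp [hadd, add_comm]

@[simp] lemma tbDualHomOfLeibniz_apply (ρ : A →+* K) (D : A → K)
    (hadd : ∀ a b, D (a + b) = D a + D b)
    (hmul : ∀ a b, D (a * b) = ρ a * D b + ρ b * D a) (a : A) :
    tbDualHomOfLeibniz ρ D hadd hmul a = TrivSqZeroExt.inl (ρ a) + TrivSqZeroExt.inr (D a) := rfl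

end DualHom

section Deriv

variable {𝒪 A : Type} [CommRing 𝒪] [IsLocalRing 𝒪] [CommRing A] [IsLocalRing A]
  [Algebra 𝒪 A] 

omit [IsLocalRing 𝒪] in
lemma tb_mem_of_residue_eq {a : A} {o : 𝒪} (h : residue A (algebraMap 𝒪 A o) = residue A a) :
    a - algebraMap 𝒪 A o ∈ maximalIdeal A := by
  rw [← residue_eq_zero_iff, map_sub, h, sub_self]

lemma tb_mem_of_algebraMap_mem {x : 𝒪} (h : algebraMap 𝒪 A x ∈ maximalIdeal A) :
    x ∈ maximalIdeal 𝒪 := by
  by_contra hx
  have hu : IsUnit x := by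
    by_contra hnu
    exact hx ((mem_maximalIdeal x).mpr hnu)
  exact (mem_maximalIdeal _).mp h (hu.map (algebraMap 𝒪 A))

lemma tb_algebraMap_mem [IsLocalHom (algebraMap 𝒪 A)] {x : 𝒪} (h : x ∈ maximalIdeal 𝒪) :
    algebraMap 𝒪 A x ∈ maximalIdeal A := by
  rw [mem_maximalIdeal, mem_nonunits_iff] at h ⊢
  exact fun hu => h (isUnit_of_map_unit (algebraMap 𝒪 A) x hu)

variable [IsLocalHom (algebraMap 𝒪 A)]

/-- The `A`-linear functional on the maximal ideal induced by a functional on the cotangent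
space. -/
noncomputable def tbMu (l : CotangentSpace A →ₗ[ResidueField A] ResidueField A) :
    maximalIdeal A →ₗ[A] ResidueField A :=
  (l.restrictScalars A).comp (maximalIdeal A).toCotangent

lemma tbMu_apply (l : CotangentSpace A →ₗ[ResidueField A] ResidueField A) (x : maximalIdeal A) :
    tbMu l x = l ((maximalIdeal A).toCotangent x) := rfl

/-- Section-based derivation attached to a functional on the cotangent space. -/
noncomputable def tbD (hsurj : Function.Surjective (residue A ∘ algebraMap 𝒪 A))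
    (l : CotangentSpace A →ₗ[ResidueField A] ResidueField A) (a : A) : ResidueField A :=
  tbMu l ⟨a - algebraMap 𝒪 A (hsurj (residue A a)).choose,
    tb_mem_of_residue_eq (hsurj (residue A a)).choose_spec⟩

variable (hsurj : Function.Surjective (residue A ∘ algebraMap 𝒪 A))
  (l : CotangentSpace A →ₗ[ResidueField A] ResidueField A)
  (hl : ∀ (o : 𝒪) (ho : o ∈ maximalIdeal 𝒪),
    l ((maximalIdeal A).toCotangent ⟨algebraMap 𝒪 A o, tb_algebraMap_mem ho⟩) = 0)

include hl in
lemma tbD_spec (a : A) (o : 𝒪) (h : a - algebraMap 𝒪 A o ∈ maximalIdeal A) :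
    tbD hsurj l a = tbMu l ⟨a - algebraMap 𝒪 A o, h⟩ := by
  unfold tbD
  set o' := (hsurj (residue A a)).choose with ho'
  have h' : a - algebraMap 𝒪 A o' ∈ maximalIdeal A :=
    tb_mem_of_residue_eq (hsurj (residue A a)).choose_spec
  have hdiff : algebraMap 𝒪 A (o - o') ∈ maximalIdeal A := by
    have : algebraMap 𝒪 A (o - o') = (a - algebraMap 𝒪 A o') - (a - algebraMap 𝒪 A o) := by
      rw [map_sub]; ring
    rw [this]
    exact Ideal.sub_mem _ h' h
  have hoo : o - o' ∈ maximalIdeal 𝒪 := tb_mem_of_algebraMap_mem hdiff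
  have e : (⟨a - algebraMap 𝒪 A o', h'⟩ : maximalIdeal A) =
      ⟨a - algebraMap 𝒪 A o, h⟩ + ⟨algebraMap 𝒪 A (o - o'), tb_algebraMap_mem hoo⟩ := by
    apply Subtype.ext
    show a - algebraMap 𝒪 A o' = (a - algebraMap 𝒪 A o) + algebraMap 𝒪 A (o - o')
    rw [map_sub]; ring
  rw [e, map_add, tbMu_apply _ ⟨algebraMap 𝒪 A (o - o'), _⟩, hl _ hoo, add_zero]

include hl in
lemma tbD_add (a b : A) : tbD hsurj l (a + b) = tbD hsurj l a + tbD hsurj l b := by
  obtain ⟨oa, hoa⟩ := hsurj (residue A a)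
  obtain ⟨ob, hob⟩ := hsurj (residue A b)
  have ha := tb_mem_of_residue_eq hoa
  have hb := tb_mem_of_residue_eq hob
  have hab : (a + b) - algebraMap 𝒪 A (oa + ob) ∈ maximalIdeal A := by
    have : (a + b) - algebraMap 𝒪 A (oa + ob) =
        (a - algebraMap 𝒪 A oa) + (b - algebraMap 𝒪 A ob) := by rw [map_add]; ring
    rw [this]; exact Ideal.add_mem _ ha hb
  rw [tbD_spec hsurj l hl a oa ha, tbD_spec hsurj l hl b ob hb,
    tbD_spec hsurj l hl (a + b) (oa + ob) hab, ← map_add]
  congr 1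
  apply Subtype.ext
  show (a + b) - algebraMap 𝒪 A (oa + ob) = (a - algebraMap 𝒪 A oa) + (b - algebraMap 𝒪 A ob)
  rw [map_add]; ring

include hl in
lemma tbD_mul (a b : A) :
    tbD hsurj l (a * b) = residue A a * tbD hsurj l b + residue A b * tbD hsurj l a := by
  obtain ⟨oa, hoa⟩ := hsurj (residue A a)
  obtain ⟨ob, hob⟩ := hsurj (residue A b)
  have ha := tb_mem_of_residue_eq hoa
  have hb := tb_mem_of_residue_eq hob
  have key : (a * b) - algebraMap 𝒪 A (oa * ob) =
      b * (a - algebraMap 𝒪 A oa) + algebraMap 𝒪 A oa * (b - algebraMap 𝒪 A ob) := by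
    rw [map_mul]; ring
  have hab : (a * b) - algebraMap 𝒪 A (oa * ob) ∈ maximalIdeal A := by
    rw [key]
    exact Ideal.add_mem _ (Ideal.mul_mem_left _ _ ha) (Ideal.mul_mem_left _ _ hb)
  rw [tbD_spec hsurj l hl a oa ha, tbD_spec hsurj l hl b ob hb,
    tbD_spec hsurj l hl (a * b) (oa * ob) hab]
  have e : (⟨(a * b) - algebraMap 𝒪 A (oa * ob), hab⟩ : maximalIdeal A) =
      b • ⟨a - algebraMap 𝒪 A oa, ha⟩ + algebraMap 𝒪 A oa • ⟨b - algebraMap 𝒪 A ob, hb⟩ := by
    apply Subtype.ext
    exact key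
  rw [e, map_add, map_smul, map_smul, Algebra.smul_def, Algebra.smul_def,
    ResidueField.algebraMap_eq, add_comm]
  have : residue A (algebraMap 𝒪 A oa) = residue A a := hoa
  rw [this]

include hl in
lemma tbD_algebraMap (o : 𝒪) : tbD hsurj l (algebraMap 𝒪 A o) = 0 := by
  have h : algebraMap 𝒪 A o - algebraMap 𝒪 A o ∈ maximalIdeal A := by
    rw [sub_self]; exact Ideal.zero_mem _
  rw [tbD_spec hsurj l hl _ o h]
  have e : (⟨algebraMap 𝒪 A o - algebraMap 𝒪 A o, h⟩ : maximalIdeal A) = 0 := by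
    apply Subtype.ext
    exact sub_self _
  rw [e, map_zero]

include hl in
lemma tbD_of_mem (x : A) (hx : x ∈ maximalIdeal A) :
    tbD hsurj l x = l ((maximalIdeal A).toCotangent ⟨x, hx⟩) := by
  have h : x - algebraMap 𝒪 A 0 ∈ maximalIdeal A := by
    rw [map_zero, sub_zero]; exact hx
  rw [tbD_spec hsurj l hl x 0 h, tbMu_apply]
  congr 2
  apply Subtype.ext
  show x - algebraMap 𝒪 A 0 = x
  rw [map_zero, sub_zero]

end Deriv

section AlgHom

variable {𝒪 A : Type} [CommRing 𝒪] [IsLocalRing 𝒪] [CommRing A] [IsLocalRing A]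
  [Algebra 𝒪 A] [IsLocalHom (algebraMap 𝒪 A)]

lemma tb_residueMap_bijective (hsurj : Function.Surjective (residue A ∘ algebraMap 𝒪 A)) :
    Function.Bijective (ResidueField.map (algebraMap 𝒪 A)) := by
  refine ⟨(ResidueField.map (algebraMap 𝒪 A)).injective, fun y => ?_⟩
  obtain ⟨o, ho⟩ := hsurj y
  exact ⟨residue 𝒪 o, by rw [ResidueField.map_residue]; exact ho⟩

/-- The inverse of the residue field isomorphism. -/
noncomputable def tbResInv (hsurj : Function.Surjective (residue A ∘ algebraMap 𝒪 A)) :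
    ResidueField A →+* ResidueField 𝒪 :=
  ((RingEquiv.ofBijective (ResidueField.map (algebraMap 𝒪 A))
    (tb_residueMap_bijective hsurj)).symm : ResidueField A →+* ResidueField 𝒪)

lemma tbResInv_residue (hsurj : Function.Surjective (residue A ∘ algebraMap 𝒪 A)) (o : 𝒪) :
    tbResInv hsurj (residue A (algebraMap 𝒪 A o)) = residue 𝒪 o := by
  unfold tbResInv
  rw [← ResidueField.map_residue]
  have h := (RingEquiv.ofBijective (ResidueField.map (algebraMap 𝒪 A))
    (tb_residueMap_bijective hsurj)).symm_apply_apply (residue 𝒪 o)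
  rw [RingEquiv.ofBijective_apply] at h
  exact h

lemma tbResInv_injective (hsurj : Function.Surjective (residue A ∘ algebraMap 𝒪 A)) :
    Function.Injective (tbResInv hsurj) :=
  (tbResInv hsurj).injective

variable (hsurj : Function.Surjective (residue A ∘ algebraMap 𝒪 A))
  (l : CotangentSpace A →ₗ[ResidueField A] ResidueField A)
  (hl : ∀ (o : 𝒪) (ho : o ∈ maximalIdeal 𝒪),
    l ((maximalIdeal A).toCotangent ⟨algebraMap 𝒪 A o, tb_algebraMap_mem ho⟩) = 0)

/-- The ring hom `A → k[ε]` attached to a functional on the relative cotangent space. -/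
noncomputable def tbRingHom : A →+* DualNumber (ResidueField 𝒪) :=
  tbDualHomOfLeibniz ((tbResInv hsurj).comp (residue A)) (fun a => tbResInv hsurj (tbD hsurj l a))
    (fun a b => by rw [tbD_add hsurj l hl, map_add])
    (fun a b => by
      rw [tbD_mul hsurj l hl, map_add, map_mul, map_mul]
      rfl)

lemma tbRingHom_apply (a : A) :
    tbRingHom hsurj l hl a = TrivSqZeroExt.inl (tbResInv hsurj (residue A a)) +
      TrivSqZeroExt.inr (tbResInv hsurj (tbD hsurj l a)) := rfl

lemma tbRingHom_algebraMap (o : 𝒪) :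
    tbRingHom hsurj l hl (algebraMap 𝒪 A o) = TrivSqZeroExt.inl (residue 𝒪 o) := by
  rw [tbRingHom_apply, tbD_algebraMap hsurj l hl, map_zero, tbResInv_residue,
    TrivSqZeroExt.inr_zero, add_zero]

lemma tbRingHom_of_mem (x : A) (hx : x ∈ maximalIdeal A) :
    tbRingHom hsurj l hl x =
      TrivSqZeroExt.inr (tbResInv hsurj (l ((maximalIdeal A).toCotangent ⟨x, hx⟩))) := by
  rw [tbRingHom_apply, tbD_of_mem hsurj l hl x hx, (residue_eq_zero_iff x).mpr hx, map_zero,
    TrivSqZeroExt.inl_zero, zero_add]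

lemma tbRingHom_isLocalHom : IsLocalHom (tbRingHom hsurj l hl) := by
  refine ⟨fun a ha => ?_⟩
  have h1 : IsUnit (TrivSqZeroExt.fst (tbRingHom hsurj l hl a)) :=
    ha.map (TrivSqZeroExt.fstHom (ResidueField 𝒪) (ResidueField 𝒪) (ResidueField 𝒪))
  rw [tbRingHom_apply] at h1
  simp only [TrivSqZeroExt.fst_add, TrivSqZeroExt.fst_inl, TrivSqZeroExt.fst_inr, add_zero] at h1
  rw [← residue_ne_zero_iff_isUnit]
  intro h0
  rw [h0, map_zero] at h1
  exact not_isUnit_zero h1

variable [Algebra 𝒪 (DualNumber (ResidueField 𝒪))]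
  (halg : ∀ o : 𝒪, algebraMap 𝒪 (DualNumber (ResidueField 𝒪)) o = TrivSqZeroExt.inl (residue 𝒪 o))

/-- The `𝒪`-algebra hom `A → k[ε]` attached to a functional on the relative cotangent space. -/
noncomputable def tbAlgHom : A →ₐ[𝒪] DualNumber (ResidueField 𝒪) :=
  { tbRingHom hsurj l hl with
    commutes' := fun o => by
      show tbRingHom hsurj l hl (algebraMap 𝒪 A o) = _
      rw [tbRingHom_algebraMap, halg] }

lemma tbAlgHom_apply (a : A) : tbAlgHom hsurj l hl halg a = tbRingHom hsurj l hl a := rfl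

end AlgHom

section Main

variable {𝒪 A : Type} [CommRing 𝒪] [IsLocalRing 𝒪] [CommRing A] [IsLocalRing A]
  [IsNoetherianRing A] [Algebra 𝒪 A] [IsLocalHom (algebraMap 𝒪 A)]

/-- Relative cotangent bound: if there are at most `T` local `𝒪`-algebra homs `A → k[ε]`, then
the maximal ideal of `A` is generated by `T` elements together with the image of `𝔪_𝒪`. -/
theorem exists_generators_of_card_algHom_le
    (hsurj : Function.Surjective (residue A ∘ algebraMap 𝒪 A))
    [Algebra 𝒪 (DualNumber (ResidueField 𝒪))]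
    (halg : ∀ o : 𝒪, algebraMap 𝒪 (DualNumber (ResidueField 𝒪)) o =
      TrivSqZeroExt.inl (residue 𝒪 o))
    (T : ℕ)
    (hT : ∀ s : Finset (A →ₐ[𝒪] DualNumber (ResidueField 𝒪)),
      (∀ φ ∈ s, IsLocalHom (φ : A →+* DualNumber (ResidueField 𝒪))) → s.card ≤ T) :
    ∃ t : Fin T → A, (∀ i, t i ∈ maximalIdeal A) ∧
      maximalIdeal A = Ideal.span (Set.range t) ⊔ (maximalIdeal 𝒪).map (algebraMap 𝒪 A) := by
  classical
  let V0 : Submodule (ResidueField A) (CotangentSpace A) :=
    Submodule.span (ResidueField A) (Set.range fun o : maximalIdeal 𝒪 =>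
      (maximalIdeal A).toCotangent ⟨algebraMap 𝒪 A o, tb_algebraMap_mem o.2⟩)
  let b := Module.finBasis (ResidueField A) (CotangentSpace A ⧸ V0)
  -- lifts of the basis
  have hx : ∀ j, ∃ x : maximalIdeal A, V0.mkQ ((maximalIdeal A).toCotangent x) = b j := by
    intro j
    obtain ⟨w, hw⟩ := V0.mkQ_surjective (b j)
    obtain ⟨x, rfl⟩ := (maximalIdeal A).toCotangent_surjective w
    exact ⟨x, hw⟩
  choose x hx using hx
  -- the functionals
  let lam : Fin _ → (CotangentSpace A →ₗ[ResidueField A] ResidueField A) :=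
    fun i => (b.coord i).comp V0.mkQ
  have hlam0 : ∀ i (o : 𝒪) (ho : o ∈ maximalIdeal 𝒪),
      lam i ((maximalIdeal A).toCotangent ⟨algebraMap 𝒪 A o, tb_algebraMap_mem ho⟩) = 0 := by
    intro i o ho
    show b.coord i (V0.mkQ _) = 0
    have h0 : V0.mkQ ((maximalIdeal A).toCotangent
        ⟨algebraMap 𝒪 A o, tb_algebraMap_mem ho⟩) = 0 := by
      rw [Submodule.mkQ_apply, Submodule.Quotient.mk_eq_zero]
      exact Submodule.subset_span ⟨⟨o, ho⟩, rfl⟩
    rw [h0, map_zero]
  have hlamx : ∀ i j, lam i ((maximalIdeal A).toCotangent (x j)) = if j = i then 1 else 0 := by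
    intro i j
    show b.coord i (V0.mkQ _) = _
    rw [hx j, Module.Basis.coord_apply, Module.Basis.repr_self, Finsupp.single_apply]
  -- the homs
  let Φ : Fin _ → (A →ₐ[𝒪] DualNumber (ResidueField 𝒪)) :=
    fun i => tbAlgHom hsurj (lam i) (hlam0 i) halg
  have hΦx : ∀ i j, Φ i (x j : A) =
      TrivSqZeroExt.inr (if j = i then (1 : ResidueField 𝒪) else 0) := by
    intro i j
    show tbRingHom hsurj (lam i) (hlam0 i) (x j : A) = _
    rw [tbRingHom_of_mem _ _ _ _ (x j).2, Subtype.coe_eta, hlamx]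
    split_ifs <;> simp
  have hΦinj : Function.Injective Φ := by
    intro i i' h
    by_contra hne
    have h1 := hΦx i i
    have h2 := hΦx i' i
    rw [h, h2, if_pos rfl, if_neg hne] at h1
    exact zero_ne_one (TrivSqZeroExt.inr_injective h1)
  have hδT : Module.finrank (ResidueField A) (CotangentSpace A ⧸ V0) ≤ T := by
    have h1 := hT (Finset.univ.image Φ) (fun φ hφ => by
      obtain ⟨i, -, rfl⟩ := Finset.mem_image.mp hφ
      exact tbRingHom_isLocalHom hsurj (lam i) (hlam0 i))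
    rwa [Finset.card_image_of_injective _ hΦinj, Finset.card_univ, Fintype.card_fin] at h1
  -- spanning
  let s : Set (maximalIdeal A) := (Set.range fun o : maximalIdeal 𝒪 =>
    (⟨algebraMap 𝒪 A o, tb_algebraMap_mem o.2⟩ : maximalIdeal A)) ∪ Set.range x
  have hspanK : Submodule.span (ResidueField A) ((maximalIdeal A).toCotangent '' s) = ⊤ := by
    have hV0 : V0 ≤ Submodule.span (ResidueField A) ((maximalIdeal A).toCotangent '' s) := by
      apply Submodule.span_le.mpr
      rintro _ ⟨o, rfl⟩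
      exact Submodule.subset_span ⟨_, Or.inl ⟨o, rfl⟩, rfl⟩
    have hmap : Submodule.map V0.mkQ
        (Submodule.span (ResidueField A) ((maximalIdeal A).toCotangent '' s)) = ⊤ := by
      rw [eq_top_iff, ← b.span_eq]
      apply Submodule.span_le.mpr
      rintro _ ⟨j, rfl⟩
      exact ⟨_, Submodule.subset_span ⟨x j, Or.inr ⟨j, rfl⟩, rfl⟩, hx j⟩
    have h3 := Submodule.comap_map_mkQ V0
      (Submodule.span (ResidueField A) ((maximalIdeal A).toCotangent '' s))
    rw [hmap, Submodule.comap_top, sup_eq_right.mpr hV0] at h3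
    exact h3.symm
  have hspanA : Submodule.span A s = ⊤ := CotangentSpace.span_image_eq_top_iff.mp hspanK
  have hm : maximalIdeal A = Ideal.span (Subtype.val '' s) := by
    have h4 := congrArg (Submodule.map (maximalIdeal A).subtype) hspanA
    rw [Submodule.map_span, Submodule.map_subtype_top] at h4
    exact h4.symm
  have hval : Subtype.val '' s =
      (algebraMap 𝒪 A '' (maximalIdeal 𝒪 : Set 𝒪)) ∪ Set.range fun j => (x j : A) := by
    ext a
    constructor
    · rintro ⟨y, hy | hy, rfl⟩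
      · obtain ⟨o, rfl⟩ := hy
        exact Or.inl ⟨o, o.2, rfl⟩
      · obtain ⟨j, rfl⟩ := hy
        exact Or.inr ⟨j, rfl⟩
    · rintro (⟨o, ho, rfl⟩ | ⟨j, rfl⟩)
      · exact ⟨⟨algebraMap 𝒪 A o, tb_algebraMap_mem ho⟩, Or.inl ⟨⟨o, ho⟩, rfl⟩, rfl⟩
      · exact ⟨x j, Or.inr ⟨j, rfl⟩, rfl⟩
  -- padding
  let t : Fin T → A := fun i =>
    if h : (i : ℕ) < Module.finrank (ResidueField A) (CotangentSpace A ⧸ V0) then (x ⟨i, h⟩ : A)
    else 0
  have ht_mem : ∀ i, t i ∈ maximalIdeal A := by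
    intro i
    show (if h : (i : ℕ) < Module.finrank (ResidueField A) (CotangentSpace A ⧸ V0) then
      (x ⟨i, h⟩ : A) else 0) ∈ maximalIdeal A
    split_ifs with h
    · exact (x ⟨i, h⟩).2
    · exact Ideal.zero_mem _
  have hspan_t : Ideal.span (Set.range t) = Ideal.span (Set.range fun j => (x j : A)) := by
    apply le_antisymm
    · apply Ideal.span_le.mpr
      rintro _ ⟨i, rfl⟩
      show (if h : (i : ℕ) < Module.finrank (ResidueField A) (CotangentSpace A ⧸ V0) then
        (x ⟨i, h⟩ : A) else 0) ∈ _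
      split_ifs with h
      · exact Ideal.subset_span ⟨⟨i, h⟩, rfl⟩
      · exact Ideal.zero_mem _
    · apply Ideal.span_le.mpr
      rintro _ ⟨j, rfl⟩
      refine Ideal.subset_span ⟨⟨j, lt_of_lt_of_le j.2 hδT⟩, ?_⟩
      show (if h : (j : ℕ) < Module.finrank (ResidueField A) (CotangentSpace A ⧸ V0) then
        (x ⟨j, h⟩ : A) else 0) = _
      rw [dif_pos j.2]
  refine ⟨t, ht_mem, ?_⟩
  rw [hspan_t]
  refine hm.trans ?_
  rw [hval, Ideal.span_union, sup_comm]
  rfl

end Main


section DualAlg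

variable (𝒪 : Type) [CommRing 𝒪] [IsLocalRing 𝒪]

/-- The `𝒪`-algebra structure on `k[ε]` used in `GaloisRep.TangentFinite`. -/
@[reducible] noncomputable def tbDualAlgebra : Algebra 𝒪 (DualNumber (ResidueField 𝒪)) :=
  ((algebraMap (ResidueField 𝒪) (DualNumber (ResidueField 𝒪))).comp
    (algebraMap 𝒪 (ResidueField 𝒪))).toAlgebra

attribute [local instance] tbDualAlgebra

lemma tbDualAlgebra_algebraMap (o : 𝒪) :
    algebraMap 𝒪 (DualNumber (ResidueField 𝒪)) o = TrivSqZeroExt.inl (residue 𝒪 o) := rfl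

instance tbDualAlgebra_isLocalHom : IsLocalHom (algebraMap 𝒪 (DualNumber (ResidueField 𝒪))) := by
  refine ⟨fun o ho => ?_⟩
  have h1 : IsUnit (TrivSqZeroExt.fst (algebraMap 𝒪 (DualNumber (ResidueField 𝒪)) o)) :=
    ho.map (TrivSqZeroExt.fstHom (ResidueField 𝒪) (ResidueField 𝒪) (ResidueField 𝒪))
  rw [tbDualAlgebra_algebraMap, TrivSqZeroExt.fst_inl] at h1
  rw [← residue_ne_zero_iff_isUnit]
  exact h1.ne_zero

lemma tb_dualNumber_inr_mem_maximalIdeal (K : Type) [Field K] (b : K) :
    (TrivSqZeroExt.inr b : DualNumber K) ∈ maximalIdeal (DualNumber K) := by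
  rw [mem_maximalIdeal, mem_nonunits_iff]
  intro hu
  have h0 : (TrivSqZeroExt.inr b : DualNumber K) * TrivSqZeroExt.inr b = 0 :=
    TrivSqZeroExt.inr_mul_inr K b b
  have h1 : (TrivSqZeroExt.inr b : DualNumber K) = 0 := by
    have := hu.mul_left_cancel (b := TrivSqZeroExt.inr b) (c := 0) (by rw [h0, mul_zero])
    exact this
  rw [h1] at hu
  exact not_isUnit_zero hu

instance tb_dualNumber_isArtinianRing (K : Type) [Field K] : IsArtinianRing (DualNumber K) := by
  have : Module.Finite K (DualNumber K) := by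
    show Module.Finite K (K × K)
    infer_instance
  exact IsArtinianRing.of_finite K (DualNumber K)

lemma tbDualAlgebra_residue_surjective :
    Function.Surjective (residue (DualNumber (ResidueField 𝒪)) ∘
      algebraMap 𝒪 (DualNumber (ResidueField 𝒪))) := by
  intro y
  obtain ⟨z, rfl⟩ := residue_surjective y
  obtain ⟨o, ho⟩ := residue_surjective (TrivSqZeroExt.fst z)
  refine ⟨o, ?_⟩
  show residue _ (algebraMap 𝒪 (DualNumber (ResidueField 𝒪)) o) = residue _ z
  rw [tbDualAlgebra_algebraMap, ho, ← sub_eq_zero, ← map_sub, residue_eq_zero_iff]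
  have : TrivSqZeroExt.inl (TrivSqZeroExt.fst z) - z = TrivSqZeroExt.inr (-(TrivSqZeroExt.snd z)) := by
    ext <;> simp
  rw [this]
  exact tb_dualNumber_inr_mem_maximalIdeal _ _

end DualAlg


section Galois

open GaloisRep

attribute [local instance] tbDualAlgebra

lemma tb_exists_bound {α : Type 1} (S : Setoid α) (hfin : Finite (Quotient S)) :
    ∃ T : ℕ, ∀ {β : Type} (s : Finset β) (f : ∀ b ∈ s, α),
      (∀ b hb b' hb', S.r (f b hb) (f b' hb') → b = b') → s.card ≤ T := by
  refine ⟨Nat.card (Quotient S), fun {β} s f hf => ?_⟩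
  let g : (↥s) → Quotient S := fun x => Quotient.mk S (f x.1 x.2)
  have hg : Function.Injective g := by
    intro x y hxy
    exact Subtype.ext (hf _ _ _ _ (Quotient.exact hxy))
  have h1 := Nat.card_le_card_of_injective g hg
  rwa [Nat.card_eq_fintype_card, Fintype.card_coe] at h1

variable {𝒪 : Type} [CommRing 𝒪] [IsLocalRing 𝒪]

lemma tbDualAlgebra_isArtinianTestAlgebra :
    IsArtinianTestAlgebra 𝒪 (DualNumber (ResidueField 𝒪)) :=
  ⟨inferInstance, tbDualAlgebra_residue_surjective 𝒪, inferInstance⟩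

lemma tb_resMap_eq :
    ResidueField.map (algebraMap 𝒪 (DualNumber (ResidueField 𝒪))) =
      (residue (DualNumber (ResidueField 𝒪))).comp
        (algebraMap (ResidueField 𝒪) (DualNumber (ResidueField 𝒪))) := by
  ext y
  obtain ⟨o, rfl⟩ := residue_surjective y
  rw [ResidueField.map_residue]
  rfl

variable (ρbar : ResidualGaloisRep (ResidueField 𝒪))
  (𝒟 : ∀ ⦃A : Type⦄ [CommRing A] [IsLocalRing A] [Algebra 𝒪 A], GaloisRepAdic A → Prop)

/-- `TangentFinite` bounds the number of normalized lifts of type `𝒟` over `k[ε]`. -/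
theorem tb_card_normalizedLift_le (hfin : TangentFinite 𝒪 ρbar 𝒟) (D : RigidData 𝒪)
    (e0 : ρbar.Equiv (ofMatRes D.rbar D.hrbar)) :
    ∃ T : ℕ, ∀ s : Finset (Γℚ →* M₂ (DualNumber (ResidueField 𝒪))),
      (∀ r ∈ s, ∃ h : IsNormalizedLift D r, 𝒟 (ofMat r h.cont)) → s.card ≤ T := by
  unfold TangentFinite at hfin
  obtain ⟨T, hT⟩ := tb_exists_bound _ hfin
  refine ⟨T, fun s hs => hT s (fun r hr => ⟨ofMat r (hs r hr).choose.cont,
    (hs r hr).choose_spec, ?_⟩) ?_⟩
  · have h1 := (hs r hr).choose.residual_isEquiv e0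
    rw [tb_resMap_eq] at h1
    exact h1
  · intro r hr r' hr' hrel
    exact IsNormalizedLift.eq_of_isEquiv (hs r hr).choose (hs r' hr').choose hrel

omit [IsLocalRing 𝒪] in
/-- Deformation conditions are stable under entrywise base change of matrix lifts. -/
lemma tb_type_mapMat (h𝒟 : IsDeformationCondition 𝒪 𝒟) {A B : Type} [CommRing A]
    [IsLocalRing A] [Algebra 𝒪 A] [CommRing B] [IsLocalRing B] [Algebra 𝒪 B]
    (hA : IsArtinianTestAlgebra 𝒪 A) (hB : IsArtinianTestAlgebra 𝒪 B)
    (r : Γℚ →* M₂ A) (hr : IsMatCont r) (h𝒟r : 𝒟 (ofMat r hr))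
    (φ : A →ₐ[𝒪] B) (hloc : IsLocalHom (φ : A →+* B)) :
    𝒟 (ofMat (mapMat (φ : A →+* B) r) (hr.map (φ : A →+* B) hloc)) := by
  have h1 := h𝒟.baseChangeAlong hA hB φ hloc h𝒟r
  have e1 : ((ofMat r hr).baseChangeAlong (φ : A →+* B) hloc).IsEquiv
      (ofMat (mapMat (φ : A →+* B) r) (hr.map (φ : A →+* B) hloc)) :=
    ⟨ofMatBaseChangeEquiv r hr (φ : A →+* B) hloc⟩
  exact h𝒟.of_isEquiv hB e1 h1

/-- The tangent space bound: a uniform bound on the number of generators of the maximal ideal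
(relative to `𝒪`) of Artinian test algebras generated by the entries of a normalized lift of
type `𝒟`. -/
theorem tangentBound (h𝒟 : IsDeformationCondition 𝒪 𝒟) (hfin : TangentFinite 𝒪 ρbar 𝒟)
    (D : RigidData 𝒪) (e0 : ρbar.Equiv (ofMatRes D.rbar D.hrbar)) :
    ∃ d : ℕ, ∀ (A : Type) [CommRing A] [IsLocalRing A] [Algebra 𝒪 A]
      [IsLocalHom (algebraMap 𝒪 A)], IsArtinianTestAlgebra 𝒪 A →
      ∀ (r : Γℚ →* M₂ A) (hr : IsNormalizedLift D r), 𝒟 (ofMat r hr.cont) →
      Algebra.adjoin 𝒪 (Set.range fun p : Γℚ × Fin 2 × Fin 2 => r p.1 p.2.1 p.2.2) = ⊤ →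
      ∃ t : Fin d → A, (∀ i, t i ∈ maximalIdeal A) ∧
        maximalIdeal A = Ideal.span (Set.range t) ⊔ (maximalIdeal 𝒪).map (algebraMap 𝒪 A) := by
  obtain ⟨T, hT⟩ := tb_card_normalizedLift_le ρbar 𝒟 hfin D e0
  refine ⟨T, fun A _ _ _ _ hA r hr h𝒟r hgen => ?_⟩
  have := hA.isArtinian
  refine exists_generators_of_card_algHom_le hA.residue_surjective (tbDualAlgebra_algebraMap 𝒪) T
    (fun s hs => ?_)
  classical
  let F : (A →ₐ[𝒪] DualNumber (ResidueField 𝒪)) → (Γℚ →* M₂ (DualNumber (ResidueField 𝒪))) :=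
    fun φ => mapMat (φ : A →+* DualNumber (ResidueField 𝒪)) r
  have hinj : Function.Injective F := by
    intro φ φ' h
    apply AlgHom.ext_of_adjoin_eq_top hgen
    rintro _ ⟨p, rfl⟩
    exact congrArg (fun q : Γℚ →* M₂ (DualNumber (ResidueField 𝒪)) => q p.1 p.2.1 p.2.2) h
  have h3 := hT (s.image F) (fun r' hr' => by
    obtain ⟨φ, hφ, rfl⟩ := Finset.mem_image.mp hr'
    exact ⟨hr.map φ (hs φ hφ), tb_type_mapMat 𝒟 h𝒟 hA tbDualAlgebra_isArtinianTestAlgebra r
      hr.cont h𝒟r φ (hs φ hφ)⟩)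
  rwa [Finset.card_image_of_injective _ hinj] at h3

end Galois

end Fermat.Agent.S53
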