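import Fermat.Agent.S53.IndexSet
import Fermat.Agent.S53.TangentBound
import Fermat.Agent.S53.CardBound

/-!
S53, module M5 (concrete glue): the tangent bound for the quotients `BigB 𝒪 ⧸ b` by good ideals:
generators of `mB D` modulo a good ideal, and the uniform cardinality bound
(`GoodFamily.card`).
-/

set_option autoImplicit false

namespace Fermat.Agent.S53

local notation "Γℚ" => (AlgebraicClosure ℚ ≃ₐ[ℚ] AlgebraicClosure ℚ)
local notation "M₂" => Matrix (Fin 2) (Fin 2)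

open IsLocalRing GaloisRep

variable {𝒪 : Type} [CommRing 𝒪] [IsLocalRing 𝒪]
  (ρbar : ResidualGaloisRep (ResidueField 𝒪))
  (𝒟 : ∀ ⦃A : Type⦄ [CommRing A] [IsLocalRing A] [Algebra 𝒪 A], GaloisRepAdic A → Prop)

/-- The entries of the tautological representation generate the quotient by a good ideal. -/
lemma tg_adjoin_rep_eq_top {D : RigidData 𝒪} {b : Ideal (BigB 𝒪)} (h : Good 𝒟 D b) :
    Algebra.adjoin 𝒪 (Set.range fun p : Γℚ × Fin 2 × Fin 2 => h.rep p.1 p.2.1 p.2.2) = ⊤ := by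
  have h1 : (fun p : Γℚ × Fin 2 × Fin 2 => h.rep p.1 p.2.1 p.2.2) =
      fun p => Ideal.Quotient.mkₐ 𝒪 b (MvPolynomial.X p) := by
    funext p
    obtain ⟨g, i, j⟩ := p
    rfl
  rw [h1, Algebra.adjoin_range_eq_range_aeval]
  have h2 : MvPolynomial.aeval (fun p : Γℚ × Fin 2 × Fin 2 =>
      Ideal.Quotient.mkₐ 𝒪 b (MvPolynomial.X p)) = Ideal.Quotient.mkₐ 𝒪 b := by
    refine MvPolynomial.algHom_ext fun p => ?_
    rw [MvPolynomial.aeval_X]
  rw [h2]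
  exact (AlgHom.range_eq_top _).mpr (Ideal.Quotient.mkₐ_surjective 𝒪 b)

/-- The tangent bound for quotients by good ideals. -/
theorem good_tangent (h𝒟 : IsDeformationCondition 𝒪 𝒟) (hfin : TangentFinite 𝒪 ρbar 𝒟)
    (D : RigidData 𝒪) (e0 : ρbar.Equiv (ofMatRes D.rbar D.hrbar)) :
    ∃ d : ℕ, ∀ (b : Ideal (BigB 𝒪)) (h : Good 𝒟 D b),
      haveI := h.adm.isLocalRing
      ∃ t : Fin d → (BigB 𝒪 ⧸ b), (∀ i, t i ∈ maximalIdeal (BigB 𝒪 ⧸ b)) ∧
        maximalIdeal (BigB 𝒪 ⧸ b) =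
          Ideal.span (Set.range t) ⊔ (maximalIdeal 𝒪).map (algebraMap 𝒪 (BigB 𝒪 ⧸ b)) := by
  obtain ⟨d, hd⟩ := tangentBound ρbar 𝒟 h𝒟 hfin D e0
  refine ⟨d, fun b h => ?_⟩
  have := h.adm.isLocalRing
  have := h.adm.isLocalHom
  exact hd (BigB 𝒪 ⧸ b) h.adm.isArtinianTestAlgebra h.rep h.isNormalizedLift h.dcond
    (tg_adjoin_rep_eq_top 𝒟 h)

/-- Generators of `mB D` modulo a good ideal (input for `TowerHyp.gen`). -/
theorem good_generators (h𝒟 : IsDeformationCondition 𝒪 𝒟) (hfin : TangentFinite 𝒪 ρbar 𝒟)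
    (D : RigidData 𝒪) (e0 : ρbar.Equiv (ofMatRes D.rbar D.hrbar)) :
    ∃ d : ℕ, ∀ b : Ideal (BigB 𝒪), Good 𝒟 D b →
      ∃ t : Fin d → BigB 𝒪, (∀ i, t i ∈ mB D) ∧
        mB D ≤ Ideal.span (Set.range t) ⊔ (maximalIdeal 𝒪).map (algebraMap 𝒪 (BigB 𝒪)) ⊔
          mB D ^ 2 ⊔ b := by
  obtain ⟨d, hd⟩ := good_tangent ρbar 𝒟 h𝒟 hfin D e0
  refine ⟨d, fun b h => ?_⟩
  have := h.adm.isLocalRing
  obtain ⟨t, ht_mem, ht⟩ := hd b h
  have hlift : ∀ i, ∃ y : BigB 𝒪, Ideal.Quotient.mk b y = t i :=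
    fun i => Ideal.Quotient.mk_surjective (t i)
  choose t' ht' using hlift
  refine ⟨t', fun i => ?_, ?_⟩
  · rw [← h.adm.mk_mem_maximalIdeal_iff, ht' i]
    exact ht_mem i
  · have hmap : (Ideal.span (Set.range t') ⊔
        (maximalIdeal 𝒪).map (algebraMap 𝒪 (BigB 𝒪))).map (Ideal.Quotient.mk b) =
        Ideal.span (Set.range t) ⊔ (maximalIdeal 𝒪).map (algebraMap 𝒪 (BigB 𝒪 ⧸ b)) := by
      rw [Ideal.map_sup, Ideal.map_span, Ideal.map_map]
      congr 2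
      rw [← Set.range_comp]
      congr 1
      funext i
      exact ht' i
    have h1 : (mB D).map (Ideal.Quotient.mk b) =
        (Ideal.span (Set.range t') ⊔
          (maximalIdeal 𝒪).map (algebraMap 𝒪 (BigB 𝒪))).map (Ideal.Quotient.mk b) := by
      rw [hmap, ← ht, h.adm.maximalIdeal_eq]
    have h2 := congrArg (Ideal.comap (Ideal.Quotient.mk b)) h1
    rw [Ideal.comap_map_of_surjective _ Ideal.Quotient.mk_surjective,
      Ideal.comap_map_of_surjective _ Ideal.Quotient.mk_surjective,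
      ← RingHom.ker_eq_comap_bot, Ideal.mk_ker] at h2
    calc mB D ≤ mB D ⊔ b := le_sup_left
      _ = (Ideal.span (Set.range t') ⊔
            (maximalIdeal 𝒪).map (algebraMap 𝒪 (BigB 𝒪))) ⊔ b := h2
      _ ≤ _ := sup_le_sup_right le_sup_left b

/-- The uniform cardinality bound (`GoodFamily.card`). -/
theorem good_card [Finite (ResidueField 𝒪)] (hp : (maximalIdeal 𝒪).IsPrincipal)
    (h𝒟 : IsDeformationCondition 𝒪 𝒟) (hfin : TangentFinite 𝒪 ρbar 𝒟)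
    (D : RigidData 𝒪) (e0 : ρbar.Equiv (ofMatRes D.rbar D.hrbar)) (n : ℕ) :
    ∃ C : ℕ, ∀ b : Ideal (BigB 𝒪), Good 𝒟 D b → mB D ^ n ≤ b → Nat.card (BigB 𝒪 ⧸ b) ≤ C := by
  obtain ⟨d, hd⟩ := good_tangent ρbar 𝒟 h𝒟 hfin D e0
  refine ⟨Nat.card (ResidueField 𝒪) ^ (∑ i ∈ Finset.range n, (d + 1) ^ i), fun b h hn => ?_⟩
  have := h.adm.isLocalRing
  obtain ⟨t, -, ht⟩ := hd b h
  have hpow : maximalIdeal (BigB 𝒪 ⧸ b) ^ n = ⊥ := by
    rw [h.adm.maximalIdeal_eq, ← Ideal.map_pow, eq_bot_iff]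
    calc (mB D ^ n).map (Ideal.Quotient.mk b) ≤ b.map (Ideal.Quotient.mk b) := Ideal.map_mono hn
      _ = ⊥ := Ideal.map_quotient_self b
  exact (CardBound.card_le_of_algebra hp h.adm.residue_algebraMap_surjective t ht hpow).2

end Fermat.Agent.S53
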