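import Fermat.Agent.S53.IndexSet
import Fermat.Agent.S53.Tower
import Fermat.Agent.S53.LimitRing
import Fermat.Agent.S53.UnivRep
import Fermat.Agent.S53.UniversalUnique
import Fermat.Agent.S53.TangentBound
import Fermat.Agent.S53.CardBound
import Fermat.Agent.S53.RigidDataExists

/-!
S53, module M10: assembly of the universal deformation ring.
-/

set_option autoImplicit false
set_option linter.style.haveILetI false
set_option linter.unusedSectionVars false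

namespace Fermat.Agent.S53

open IsLocalRing GaloisRep

local notation "Γℚ" => (AlgebraicClosure ℚ ≃ₐ[ℚ] AlgebraicClosure ℚ)
local notation "M₂" => Matrix (Fin 2) (Fin 2)

section Bounds

variable {𝒪 : Type} [CommRing 𝒪] [IsLocalRing 𝒪]
  {𝒟 : ∀ ⦃A : Type⦄ [CommRing A] [IsLocalRing A] [Algebra 𝒪 A], GaloisRepAdic A → Prop}
  {D : RigidData 𝒪}

/-- The entries of the tautological representation generate the quotient. -/
theorem Assembly.adjoin_rep_eq_top {b : Ideal (BigB 𝒪)} (h : Good 𝒟 D b) :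
    Algebra.adjoin 𝒪 (Set.range fun p : Γℚ × Fin 2 × Fin 2 => h.rep p.1 p.2.1 p.2.2) = ⊤ := by
  have h1 : (Set.range fun p : Γℚ × Fin 2 × Fin 2 => h.rep p.1 p.2.1 p.2.2) =
      (Ideal.Quotient.mkₐ 𝒪 b) '' (Set.range (MvPolynomial.X : Γℚ × Fin 2 × Fin 2 → BigB 𝒪)) := by
    ext x
    constructor
    · rintro ⟨p, rfl⟩
      exact ⟨MvPolynomial.X p, ⟨p, rfl⟩, rfl⟩
    · rintro ⟨_, ⟨p, rfl⟩, rfl⟩
      exact ⟨p, rfl⟩
  rw [h1, ← AlgHom.map_adjoin, MvPolynomial.adjoin_range_X, Algebra.map_top,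
    (AlgHom.range_eq_top _).mpr (Ideal.Quotient.mkₐ_surjective 𝒪 b)]

/-- Generators of the maximal ideal of `B ⧸ b` lifted to `B`. -/
theorem Assembly.lift_generators {b : Ideal (BigB 𝒪)} (h : Adm D b) {d : ℕ}
    (tbar : Fin d → BigB 𝒪 ⧸ b)
    (ht : haveI := h.isLocalRing
      (∀ i, tbar i ∈ maximalIdeal (BigB 𝒪 ⧸ b)) ∧ maximalIdeal (BigB 𝒪 ⧸ b) =
        Ideal.span (Set.range tbar) ⊔ (maximalIdeal 𝒪).map (algebraMap 𝒪 (BigB 𝒪 ⧸ b))) :
    ∃ t : Fin d → BigB 𝒪, (∀ i, t i ∈ mB D) ∧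
      mB D ≤ Ideal.span (Set.range t) ⊔ (maximalIdeal 𝒪).map (algebraMap 𝒪 (BigB 𝒪)) ⊔
        mB D ^ 2 ⊔ b := by
  haveI := h.isLocalRing
  obtain ⟨ht1, ht2⟩ := ht
  choose t ht using fun i => Ideal.Quotient.mk_surjective (tbar i)
  refine ⟨t, fun i => ?_, ?_⟩
  · rw [← h.mk_mem_maximalIdeal_iff, ht]
    exact ht1 i
  · intro x hx
    have hx' : Ideal.Quotient.mk b x ∈ maximalIdeal (BigB 𝒪 ⧸ b) :=
      (h.mk_mem_maximalIdeal_iff x).mpr hx
    have hJ : Ideal.span (Set.range tbar) ⊔ (maximalIdeal 𝒪).map (algebraMap 𝒪 (BigB 𝒪 ⧸ b)) =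
        (Ideal.span (Set.range t) ⊔ (maximalIdeal 𝒪).map (algebraMap 𝒪 (BigB 𝒪))).map
          (Ideal.Quotient.mk b) := by
      rw [Ideal.map_sup, Ideal.map_span, Ideal.map_map]
      congr 2
      ext y
      constructor
      · rintro ⟨i, rfl⟩
        exact ⟨t i, ⟨i, rfl⟩, ht i⟩
      · rintro ⟨_, ⟨i, rfl⟩, rfl⟩
        exact ⟨i, (ht i).symm⟩
    rw [ht2, hJ, Ideal.mem_quotient_iff_mem_sup] at hx'
    have : Ideal.span (Set.range t) ⊔ (maximalIdeal 𝒪).map (algebraMap 𝒪 (BigB 𝒪)) ⊔ b ≤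
        Ideal.span (Set.range t) ⊔ (maximalIdeal 𝒪).map (algebraMap 𝒪 (BigB 𝒪)) ⊔
          mB D ^ 2 ⊔ b := sup_le_sup_right le_sup_left b
    exact this hx'

/-- Uniform generation of the tangent directions over all good ideals, and the resulting
uniform bound on the size of the quotients. -/
theorem Assembly.exists_bounds [IsNoetherianRing 𝒪] [Finite (ResidueField 𝒪)]
    (hp : (maximalIdeal 𝒪).IsPrincipal)
    (h𝒟 : IsDeformationCondition 𝒪 𝒟) {ρbar : ResidualGaloisRep (ResidueField 𝒪)}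
    (hfin : TangentFinite 𝒪 ρbar 𝒟) (e0 : ρbar.Equiv (ofMatRes D.rbar D.hrbar)) :
    ∃ d : ℕ,
      (∀ b, Good 𝒟 D b → ∃ t : Fin d → BigB 𝒪, (∀ i, t i ∈ mB D) ∧
        mB D ≤ Ideal.span (Set.range t) ⊔ (maximalIdeal 𝒪).map (algebraMap 𝒪 (BigB 𝒪)) ⊔
          mB D ^ 2 ⊔ b) ∧
      (∀ n : ℕ, ∃ C : ℕ, ∀ b, Good 𝒟 D b → mB D ^ n ≤ b → Nat.card (BigB 𝒪 ⧸ b) ≤ C) := by
  obtain ⟨d, hd⟩ := tangentBound ρbar 𝒟 h𝒟 hfin D e0
  have key : ∀ b (h : Good 𝒟 D b), haveI := h.adm.isLocalRing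
      ∃ tbar : Fin d → BigB 𝒪 ⧸ b, (∀ i, tbar i ∈ maximalIdeal (BigB 𝒪 ⧸ b)) ∧
        maximalIdeal (BigB 𝒪 ⧸ b) =
          Ideal.span (Set.range tbar) ⊔ (maximalIdeal 𝒪).map (algebraMap 𝒪 (BigB 𝒪 ⧸ b)) := by
    intro b h
    haveI := h.adm.isLocalRing
    haveI := h.adm.isLocalHom
    exact hd (BigB 𝒪 ⧸ b) h.adm.isArtinianTestAlgebra h.rep h.isNormalizedLift h.dcond
      (Assembly.adjoin_rep_eq_top h)
  refine ⟨d, fun b h => ?_, fun n => ?_⟩
  · obtain ⟨tbar, ht⟩ := key b h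
    exact Assembly.lift_generators h.adm tbar ht
  · refine ⟨Nat.card (ResidueField 𝒪) ^ (∑ i ∈ Finset.range n, (d + 1) ^ i), fun b h hn => ?_⟩
    haveI := h.adm.isLocalRing
    obtain ⟨tbar, -, ht2⟩ := key b h
    have hpow : maximalIdeal (BigB 𝒪 ⧸ b) ^ n = ⊥ := by
      rw [h.adm.maximalIdeal_eq, ← Ideal.map_pow, eq_bot_iff]
      calc (mB D ^ n).map (Ideal.Quotient.mk b) ≤ b.map (Ideal.Quotient.mk b) := Ideal.map_mono hn
        _ = ⊥ := Ideal.map_quotient_self b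
    exact (CardBound.card_le_of_algebra hp h.adm.residue_algebraMap_surjective tbar ht2 hpow).2

end Bounds

section Main

/-- Output of modules M4-M9: the universal normalized lift. -/
theorem exists_universal
    (𝒪 : Type) [CommRing 𝒪] [IsDomain 𝒪] [IsDiscreteValuationRing 𝒪]
    [IsAdicComplete (IsLocalRing.maximalIdeal 𝒪) 𝒪] [Finite (IsLocalRing.ResidueField 𝒪)]
    (ρbar : ResidualGaloisRep (IsLocalRing.ResidueField 𝒪))
    (𝒟 : ∀ ⦃A : Type⦄ [CommRing A] [IsLocalRing A] [Algebra 𝒪 A], GaloisRepAdic A → Prop)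
    (h𝒟 : GaloisRep.IsDeformationCondition 𝒪 𝒟)
    (hbar : 𝒟 (GaloisRepAdic.ofResidualGaloisRep ρbar))
    (hfin : GaloisRep.TangentFinite 𝒪 ρbar 𝒟)
    (D : RigidData 𝒪) (e0 : ρbar.Equiv (ofMatRes D.rbar D.hrbar)) :
    ∃ (R : Type) (_ : CommRing R) (_ : IsLocalRing R) (_ : IsNoetherianRing R)
      (_ : IsAdicComplete (maximalIdeal R) R) (_ : Algebra 𝒪 R)
      (_ : IsLocalHom (algebraMap 𝒪 R)) (rR : Γℚ →* M₂ R) (hN : IsNormalizedLift D rR),
      Function.Surjective (residue R ∘ algebraMap 𝒪 R) ∧ 𝒟 (ofMat rR hN.cont) ∧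
      ∀ (A : Type) [CommRing A] [IsLocalRing A] [IsNoetherianRing A]
        [IsAdicComplete (IsLocalRing.maximalIdeal A) A] [Algebra 𝒪 A]
        [IsLocalHom (algebraMap 𝒪 A)],
        Function.Surjective (IsLocalRing.residue A ∘ algebraMap 𝒪 A) →
        ∀ ρA : GaloisRepAdic A, 𝒟 ρA →
          ρA.residual.IsEquiv
            (ρbar.baseChangeAlong (IsLocalRing.ResidueField.map (algebraMap 𝒪 A))) →
          ∃! φ : R →ₐ[𝒪] A, ∃ hφ : IsLocalHom (φ : R →+* A),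
            ((ofMat rR hN.cont).baseChangeAlong (φ : R →+* A) hφ).IsEquiv ρA := by
  have hp : (maximalIdeal 𝒪).IsPrincipal := IsPrincipalIdealRing.principal _
  obtain ⟨d, hgen, hcard⟩ := Assembly.exists_bounds (𝒟 := 𝒟) (D := D) hp h𝒟 hfin e0
  -- the family of good ideals
  have hGF : GoodFamily (mB D) (Good 𝒟 D) :=
    { le := fun b hb => hb.adm.le
      mono := fun b b' hb hle hb' => hb.of_le h𝒟 hle hb'
      inf := fun b b' hb hb' => hb.inf h𝒟 hb'
      self := good_mB h𝒟 D e0 hbar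
      finite := fun b hb => hb.adm.finite
      card := hcard }
  -- the tower
  have hb2 : Good 𝒟 D (towerIdeal hGF 2) := towerIdeal_good hGF (by norm_num)
  obtain ⟨t, ht_mem, ht_gen⟩ := hgen _ hb2
  have hT : TowerHyp (𝒪 := 𝒪) (mB D) (towerIdeal hGF) t :=
    { ne_top := mB_ne_top D
      res := exists_sub_algebraMap_mem_mB D
      map_le := map_maximalIdeal_le_mB D
      pow_le := pow_le_towerIdeal hGF
      le_max := fun n hn => towerIdeal_le_max hGF hn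
      anti := towerIdeal_anti hGF
      step := towerIdeal_step hGF
      t_mem := ht_mem
      gen := ht_gen }
  -- the limit ring
  obtain ⟨R, iCR, iLR, iNR, iAC, iAlg, iLH, ι, hres, hsurj, hker⟩ := exists_limitRing hT
  -- the universal representation
  obtain ⟨ρ, hN, hρ, hDρ⟩ := exists_univRep (D := D) (𝒟 := 𝒟) h𝒟 hres (gen 𝒪) ι (towerIdeal hGF)
    hsurj hker (fun n hn => by
      have hg : Good 𝒟 D (towerIdeal hGF n) := towerIdeal_good hGF hn
      exact ⟨hg.adm.isLocalRing, hg.adm.isLocalHom, hg.adm.isArtinianTestAlgebra, hg.rep,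
        hg.isNormalizedLift, fun g => rfl, hg.dcond⟩)
  refine ⟨R, iCR, iLR, iNR, iAC, iAlg, iLH, ρ, hN, hres, hDρ, ?_⟩
  intro A _ _ _ _ _ _ hresA ρA hρA hlift
  refine existsUnique_algHom_of_lift 𝒟 h𝒟 D e0 (towerIdeal hGF) ?_ ι hsurj hker ρ ?_ hN A hresA
    ρA hρA hlift
  · -- the classifying property
    intro n A' _ _ _ _ hA' hn r' hr' hD'
    rcases Nat.eq_zero_or_pos n with rfl | hpos
    · exfalso
      rw [pow_zero, Ideal.one_eq_top] at hn
      exact top_ne_bot hn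
    · exact towerIdeal_le hGF hpos (good_ker_classify h𝒟 hA' r' hr' hD')
        (pow_mB_le_ker_classify r' hr'.red hn)
  · intro g i j
    rw [hρ]
    rfl

end Main

end Fermat.Agent.S53
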