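import Mathlib
import Fermat.Prelude.Def_GaloisRep_DeformationCondition
import Fermat.Agent.S53.Rigidify

/-!
# S53 auxiliary lemmas (helper29)

* `finite_of_isArtinianRing_of_finite_residueField`
* `isLocalRing_quotient_of_ne_top`, `isLocalRing_quotient_maximalIdeal_pow`
* `isArtinianTestAlgebra_quotient`, `isArtinianTestAlgebra_quotient_maximalIdeal_pow`
* `hasQuadraticHensel_of_isAdicComplete`
* `dualNumberAlgebra`, `isArtinianTestAlgebra_dualNumber`
-/

set_option autoImplicit false

noncomputable section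

namespace Fermat.Agent.S53

open IsLocalRing

/-! ### (a) Artinian local rings with finite residue field are finite -/

theorem finite_of_isArtinianRing_of_finite_residueField (A : Type*) [CommRing A] [IsLocalRing A]
    [IsArtinianRing A] [Finite (ResidueField A)] : Finite A := by
  have hfin : Finite (A ⧸ maximalIdeal A) := ‹Finite (ResidueField A)›
  obtain ⟨n, hn⟩ : IsNilpotent (maximalIdeal A) := by
    have := IsArtinianRing.isNilpotent_jacobson_bot (R := A)
    rwa [IsLocalRing.jacobson_eq_maximalIdeal ⊥ bot_ne_top] at this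
  have hfg : (maximalIdeal A).FG := (isNoetherianRing_iff_ideal_fg A).mp inferInstance _
  have h2 : Finite (A ⧸ maximalIdeal A ^ n) := Ideal.finite_quotient_pow hfg n
  rw [hn] at h2
  exact Finite.of_equiv _ (RingEquiv.quotientBot A).toEquiv

/-! ### (a') Quotients of local `𝒪`-algebras -/

theorem isLocalRing_quotient_of_ne_top {A : Type*} [CommRing A] [IsLocalRing A] {I : Ideal A}
    (hI : I ≠ ⊤) : IsLocalRing (A ⧸ I) := by
  have : Nontrivial (A ⧸ I) := Ideal.Quotient.nontrivial_iff.mpr hI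
  exact IsLocalRing.of_surjective' (Ideal.Quotient.mk I) Ideal.Quotient.mk_surjective

theorem maximalIdeal_pow_ne_top {A : Type*} [CommRing A] [IsLocalRing A] {n : ℕ} (hn : n ≠ 0) :
    maximalIdeal A ^ n ≠ ⊤ := by
  intro h
  have h1 : maximalIdeal A ^ n ≤ maximalIdeal A := Ideal.pow_le_self hn
  rw [h] at h1
  exact (maximalIdeal.isMaximal A).ne_top (top_le_iff.mp h1)

theorem isLocalRing_quotient_maximalIdeal_pow (A : Type*) [CommRing A] [IsLocalRing A] {n : ℕ}
    (hn : n ≠ 0) : IsLocalRing (A ⧸ maximalIdeal A ^ n) :=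
  isLocalRing_quotient_of_ne_top (maximalIdeal_pow_ne_top hn)

theorem isLocalHom_quotient_mk {A : Type*} [CommRing A] [IsLocalRing A] (I : Ideal A)
    [IsLocalRing (A ⧸ I)] : IsLocalHom (Ideal.Quotient.mk I) :=
  IsLocalHom.of_surjective _ Ideal.Quotient.mk_surjective

theorem isLocalHom_algebraMap_quotient (𝒪 : Type*) {A : Type*} [CommRing 𝒪] [CommRing A]
    [IsLocalRing A] [Algebra 𝒪 A] [IsLocalHom (algebraMap 𝒪 A)] (I : Ideal A)
    [IsLocalRing (A ⧸ I)] : IsLocalHom (algebraMap 𝒪 (A ⧸ I)) := by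
  have h1 : IsLocalHom (Ideal.Quotient.mk I) := isLocalHom_quotient_mk I
  have : algebraMap 𝒪 (A ⧸ I) = (Ideal.Quotient.mk I).comp (algebraMap 𝒪 A) := rfl
  rw [this]
  exact RingHom.isLocalHom_comp _ _

theorem residue_algebraMap_quotient_surjective (𝒪 : Type*) {A : Type*} [CommRing 𝒪] [CommRing A]
    [IsLocalRing A] [Algebra 𝒪 A]
    (hsurj : Function.Surjective (residue A ∘ algebraMap 𝒪 A)) (I : Ideal A)
    [IsLocalRing (A ⧸ I)] :
    Function.Surjective (residue (A ⧸ I) ∘ algebraMap 𝒪 (A ⧸ I)) := by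
  have h1 : IsLocalHom (Ideal.Quotient.mk I) := isLocalHom_quotient_mk I
  intro y
  obtain ⟨y, rfl⟩ := residue_surjective y
  obtain ⟨a, rfl⟩ := Ideal.Quotient.mk_surjective y
  obtain ⟨o, ho⟩ := hsurj (residue A a)
  refine ⟨o, ?_⟩
  simp only [Function.comp_apply] at ho ⊢
  have h2 : algebraMap 𝒪 A o - a ∈ maximalIdeal A := by
    rw [← Ideal.Quotient.eq]; exact ho
  have h3 : Ideal.Quotient.mk I (algebraMap 𝒪 A o - a) ∈ maximalIdeal (A ⧸ I) := by
    rw [mem_maximalIdeal, mem_nonunits_iff] at h2 ⊢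
    exact fun h => h2 (isUnit_of_map_unit _ _ h)
  have h4 : algebraMap 𝒪 (A ⧸ I) o = Ideal.Quotient.mk I (algebraMap 𝒪 A o) := rfl
  rw [h4]
  rw [map_sub] at h3
  exact (Ideal.Quotient.eq).mpr h3

theorem isArtinianRing_quotient_of_pow_le {A : Type*} [CommRing A] [IsLocalRing A]
    [IsNoetherianRing A] {I : Ideal A} [IsLocalRing (A ⧸ I)] {n : ℕ}
    (hn : maximalIdeal A ^ n ≤ I) : IsArtinianRing (A ⧸ I) := by
  rw [isArtinianRing_iff_isNilpotent_maximalIdeal]
  refine ⟨n, ?_⟩
  rw [← map_maximalIdeal_of_surjective (Ideal.Quotient.mk I) Ideal.Quotient.mk_surjective,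
    ← Ideal.map_pow, Ideal.zero_eq_bot, Ideal.map_eq_bot_iff_le_ker, Ideal.mk_ker]
  exact hn

theorem isArtinianTestAlgebra_quotient (𝒪 : Type) {A : Type} [CommRing 𝒪] [IsLocalRing 𝒪]
    [CommRing A] [IsLocalRing A] [IsNoetherianRing A] [Algebra 𝒪 A]
    [IsLocalHom (algebraMap 𝒪 A)]
    (hsurj : Function.Surjective (residue A ∘ algebraMap 𝒪 A)) {I : Ideal A}
    [IsLocalRing (A ⧸ I)] {n : ℕ} (hn : maximalIdeal A ^ n ≤ I) :
    GaloisRep.IsArtinianTestAlgebra 𝒪 (A ⧸ I) where
  isLocalHom := isLocalHom_algebraMap_quotient 𝒪 I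
  residue_surjective := residue_algebraMap_quotient_surjective 𝒪 hsurj I
  isArtinian := isArtinianRing_quotient_of_pow_le hn

theorem isArtinianTestAlgebra_quotient_maximalIdeal_pow (𝒪 : Type) {A : Type} [CommRing 𝒪]
    [IsLocalRing 𝒪] [CommRing A] [IsLocalRing A] [IsNoetherianRing A] [Algebra 𝒪 A]
    [IsLocalHom (algebraMap 𝒪 A)]
    (hsurj : Function.Surjective (residue A ∘ algebraMap 𝒪 A)) (n : ℕ)
    [IsLocalRing (A ⧸ maximalIdeal A ^ n)] :
    GaloisRep.IsArtinianTestAlgebra 𝒪 (A ⧸ maximalIdeal A ^ n) :=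
  isArtinianTestAlgebra_quotient 𝒪 hsurj le_rfl

/-! ### (b) complete local rings satisfy the quadratic Hensel property -/

theorem henselianLocalRing_of_isAdicComplete (A : Type*) [CommRing A] [IsLocalRing A]
    [IsAdicComplete (maximalIdeal A) A] : HenselianLocalRing A where
  is_henselian f hf a₀ h₁ h₂ := by
    have H : HenselianRing A (maximalIdeal A) := inferInstance
    refine H.is_henselian f hf a₀ h₁ ?_
    exact (Ideal.Quotient.mk (maximalIdeal A)).isUnit_map h₂

theorem hasQuadraticHensel_of_isAdicComplete (A : Type*) [CommRing A] [IsLocalRing A]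
    [IsAdicComplete (maximalIdeal A) A] : HasQuadraticHensel A := by
  have := henselianLocalRing_of_isAdicComplete A
  exact hasQuadraticHensel_of_henselian A

/-! ### (c) the dual numbers `k[ε]` as an Artinian test algebra -/

/-- The `𝒪`-algebra structure on `k[ε]` used in `GaloisRep.TangentFinite`
(definitionally the same term). -/
@[reducible] def dualNumberAlgebra (𝒪 : Type) [CommRing 𝒪] [IsLocalRing 𝒪] :
    Algebra 𝒪 (DualNumber (ResidueField 𝒪)) :=
  ((algebraMap (ResidueField 𝒪) (DualNumber (ResidueField 𝒪))).comp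
      (algebraMap 𝒪 (ResidueField 𝒪))).toAlgebra

theorem moduleFinite_dualNumber (k : Type*) [Field k] : Module.Finite k (DualNumber k) := by
  have : Module.Finite k (k × k) := inferInstance
  exact this

theorem isArtinianRing_dualNumber (k : Type*) [Field k] : IsArtinianRing (DualNumber k) := by
  have := moduleFinite_dualNumber k
  exact IsArtinianRing.of_finite k (DualNumber k)

theorem dualNumber_sub_inl_fst_mem_maximalIdeal {k : Type*} [Field k] (y : DualNumber k) :
    y - TrivSqZeroExt.inl (TrivSqZeroExt.fst y) ∈ maximalIdeal (DualNumber k) := by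
  rw [mem_maximalIdeal, mem_nonunits_iff, TrivSqZeroExt.isUnit_iff_isUnit_fst]
  simp

theorem isLocalHom_algebraMap_dualNumber (𝒪 : Type) [CommRing 𝒪] [IsLocalRing 𝒪] :
    letI : Algebra 𝒪 (DualNumber (ResidueField 𝒪)) := dualNumberAlgebra 𝒪
    IsLocalHom (algebraMap 𝒪 (DualNumber (ResidueField 𝒪))) := by
  let _ : Algebra 𝒪 (DualNumber (ResidueField 𝒪)) := dualNumberAlgebra 𝒪
  have : algebraMap 𝒪 (DualNumber (ResidueField 𝒪)) =
      (algebraMap (ResidueField 𝒪) (DualNumber (ResidueField 𝒪))).comp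
        (algebraMap 𝒪 (ResidueField 𝒪)) := rfl
  rw [this]
  have : IsLocalHom (algebraMap 𝒪 (ResidueField 𝒪)) := by
    rw [ResidueField.algebraMap_eq]; infer_instance
  exact RingHom.isLocalHom_comp _ _

theorem isArtinianTestAlgebra_dualNumber (𝒪 : Type) [CommRing 𝒪] [IsLocalRing 𝒪] :
    letI : Algebra 𝒪 (DualNumber (ResidueField 𝒪)) := dualNumberAlgebra 𝒪
    GaloisRep.IsArtinianTestAlgebra 𝒪 (DualNumber (ResidueField 𝒪)) := by
  let _ : Algebra 𝒪 (DualNumber (ResidueField 𝒪)) := dualNumberAlgebra 𝒪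
  refine ⟨isLocalHom_algebraMap_dualNumber 𝒪, ?_, isArtinianRing_dualNumber _⟩
  intro y
  obtain ⟨y, rfl⟩ := residue_surjective y
  obtain ⟨a, ha⟩ := residue_surjective (TrivSqZeroExt.fst y)
  refine ⟨a, ?_⟩
  simp only [Function.comp_apply]
  have h1 : algebraMap 𝒪 (DualNumber (ResidueField 𝒪)) a
      = TrivSqZeroExt.inl (TrivSqZeroExt.fst y) := by
    rw [← ha]; rfl
  rw [h1]
  symm
  exact Ideal.Quotient.eq.mpr (dualNumber_sub_inl_fst_mem_maximalIdeal y)

/-- Under `dualNumberAlgebra`, the residue-field map of `𝒪 → k[ε]` is the algebra map used for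
`ρbar.baseChange (ResidueField k[ε])` in `GaloisRep.TangentFinite`. -/
theorem residueFieldMap_algebraMap_dualNumber (𝒪 : Type) [CommRing 𝒪] [IsLocalRing 𝒪] :
    letI : Algebra 𝒪 (DualNumber (ResidueField 𝒪)) := dualNumberAlgebra 𝒪
    haveI := isLocalHom_algebraMap_dualNumber 𝒪
    ResidueField.map (algebraMap 𝒪 (DualNumber (ResidueField 𝒪))) =
      (residue (DualNumber (ResidueField 𝒪))).comp
        (algebraMap (ResidueField 𝒪) (DualNumber (ResidueField 𝒪))) := by
  let _ : Algebra 𝒪 (DualNumber (ResidueField 𝒪)) := dualNumberAlgebra 𝒪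
  have := isLocalHom_algebraMap_dualNumber 𝒪
  apply RingHom.ext
  intro x
  obtain ⟨x, rfl⟩ := residue_surjective x
  rfl

theorem finite_dualNumber (k : Type*) [Field k] [Finite k] : Finite (DualNumber k) := by
  have : Finite (k × k) := inferInstance
  exact this

end Fermat.Agent.S53
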