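import Fermat.Prelude.Def_GaloisRep_Adic

/-!
S53, module M1: matrix-valued representations versus `GaloisRepAdic`.
-/

set_option autoImplicit false

open scoped TensorProduct

namespace Fermat.Agent.S53

local notation "Γℚ" => (AlgebraicClosure ℚ ≃ₐ[ℚ] AlgebraicClosure ℚ)

section Basic0

variable {A : Type} [CommRing A]

/-- The monoid hom into endomorphisms of `Fin 2 → A` attached to a matrix representation. -/
noncomputable def matEnd (r : Γℚ →* Matrix (Fin 2) (Fin 2) A) :
    Γℚ →* Module.End A (Fin 2 → A) :=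
  (Matrix.toLinAlgEquiv' (R := A) (n := Fin 2)).toAlgHom.toRingHom.toMonoidHom.comp r

@[simp] lemma matEnd_apply (r : Γℚ →* Matrix (Fin 2) (Fin 2) A) (σ : Γℚ) (v : Fin 2 → A) :
    matEnd r σ v = (r σ).mulVec v := rfl

lemma matEnd_eq_toLin' (r : Γℚ →* Matrix (Fin 2) (Fin 2) A) (σ : Γℚ) :
    matEnd r σ = Matrix.toLin' (r σ) := rfl

end Basic0

section Basic

set_option linter.unusedSectionVars false

variable {A : Type} [CommRing A] [IsLocalRing A]

/-- Adic continuity of a matrix valued representation. -/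
def IsMatCont (r : Γℚ →* Matrix (Fin 2) (Fin 2) A) : Prop :=
  ∀ n : ℕ, ∃ L : IntermediateField ℚ (AlgebraicClosure ℚ), FiniteDimensional ℚ L ∧
    ∀ σ : Γℚ, (∀ x ∈ L, σ x = x) →
      ∀ i j, (r σ - 1) i j ∈ IsLocalRing.maximalIdeal A ^ n

lemma mem_smul_top_of_forall_mem (I : Ideal A) (w : Fin 2 → A) (hw : ∀ i, w i ∈ I) :
    w ∈ I • (⊤ : Submodule A (Fin 2 → A)) := by
  have : w = ∑ i : Fin 2, w i • (Pi.single i (1 : A) : Fin 2 → A) := by
    ext j
    simp [Finset.sum_apply, Pi.single_apply]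
  rw [this]
  exact Submodule.sum_mem _ fun i _ => Submodule.smul_mem_smul (hw i) Submodule.mem_top

lemma forall_mem_of_mem_smul_top (I : Ideal A) (w : Fin 2 → A)
    (hw : w ∈ I • (⊤ : Submodule A (Fin 2 → A))) : ∀ i, w i ∈ I := by
  intro i
  refine Submodule.smul_induction_on (p := fun w => w i ∈ I) hw ?_ ?_
  · intro a ha v _
    simpa using I.mul_mem_right (v i) ha
  · intro x y hx hy
    simpa using I.add_mem hx hy

lemma isAdicContinuous_matEnd {r : Γℚ →* Matrix (Fin 2) (Fin 2) A} (hr : IsMatCont r) :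
    GaloisActionIsAdicContinuous A (matEnd r) := by
  intro n
  obtain ⟨L, hL, h⟩ := hr n
  refine ⟨L, hL, fun σ hσ v => ?_⟩
  apply mem_smul_top_of_forall_mem
  intro i
  have h1 : (matEnd r σ v - v) i = ∑ j, (r σ - 1) i j * v j := by
    have : matEnd r σ v - v = (r σ - 1).mulVec v := by
      rw [Matrix.sub_mulVec, Matrix.one_mulVec]; rfl
    rw [this]; rfl
  rw [h1]
  exact Ideal.sum_mem _ fun j _ => Ideal.mul_mem_right _ _ (h σ hσ i j)

/-- The `GaloisRepAdic` attached to a continuous matrix representation. -/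
noncomputable def ofMat (r : Γℚ →* Matrix (Fin 2) (Fin 2) A) (hr : IsMatCont r) :
    GaloisRepAdic A where
  V := Fin 2 → A
  finrank_eq := Module.finrank_fin_fun A
  ρ := matEnd r
  isAdicContinuous := isAdicContinuous_matEnd hr

@[simp] lemma ofMat_ρ_apply (r : Γℚ →* Matrix (Fin 2) (Fin 2) A) (hr : IsMatCont r) (σ : Γℚ)
    (v : Fin 2 → A) : (ofMat r hr).ρ σ v = (r σ).mulVec v := rfl

lemma repr_mem_of_mem_smul_top {V : Type} [AddCommGroup V] [Module A V]
    (b : Module.Basis (Fin 2) A V) (I : Ideal A) (x : V)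
    (hx : x ∈ I • (⊤ : Submodule A V)) (i : Fin 2) : b.repr x i ∈ I := by
  refine Submodule.smul_induction_on (p := fun x => b.repr x i ∈ I) hx ?_ ?_
  · intro a ha v _
    simpa using I.mul_mem_right (b.repr v i) ha
  · intro x y hx hy
    simpa using I.add_mem hx hy

/-- The matrix representation of a `GaloisRepAdic` in a basis. -/
noncomputable def toMatOfBasis (ρ : GaloisRepAdic A) (b : Module.Basis (Fin 2) A ρ.V) :
    Γℚ →* Matrix (Fin 2) (Fin 2) A :=
  (LinearMap.toMatrixAlgEquiv b).toAlgHom.toRingHom.toMonoidHom.comp ρ.ρ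

lemma toMatOfBasis_apply (ρ : GaloisRepAdic A) (b : Module.Basis (Fin 2) A ρ.V) (σ : Γℚ) :
    toMatOfBasis ρ b σ = LinearMap.toMatrix b b (ρ.ρ σ) := rfl

lemma isMatCont_toMatOfBasis (ρ : GaloisRepAdic A) (b : Module.Basis (Fin 2) A ρ.V) :
    IsMatCont (toMatOfBasis ρ b) := by
  intro n
  obtain ⟨L, hL, h⟩ := ρ.isAdicContinuous n
  refine ⟨L, hL, fun σ hσ i j => ?_⟩
  have h1 : (toMatOfBasis ρ b σ - 1) i j = b.repr (ρ.ρ σ (b j) - b j) i := by
    rw [toMatOfBasis_apply, Matrix.sub_apply, LinearMap.toMatrix_apply, Matrix.one_apply,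
      map_sub, Finsupp.sub_apply, Module.Basis.repr_self, Finsupp.single_apply]
    congr 1
    split_ifs with h1 h2 h2
    · rfl
    · exact absurd h1.symm h2
    · exact absurd h2.symm h1
    · rfl
  rw [h1]
  exact repr_mem_of_mem_smul_top b _ _ (h σ hσ (b j)) i

/-- Every `GaloisRepAdic` is equivalent to a matrix one (given a basis). -/
noncomputable def equivOfMatOfBasis (ρ : GaloisRepAdic A) (b : Module.Basis (Fin 2) A ρ.V) :
    ρ.Equiv (ofMat (toMatOfBasis ρ b) (isMatCont_toMatOfBasis ρ b)) where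
  toLinearEquiv := b.equivFun
  map_apply σ x := by
    show b.equivFun (ρ.ρ σ x) = (toMatOfBasis ρ b σ).mulVec (b.equivFun x)
    rw [toMatOfBasis_apply]
    exact (LinearMap.toMatrix_mulVec_repr b b (ρ.ρ σ) x).symm

/-- A basis of the underlying module of a `GaloisRepAdic`. -/
noncomputable def chosenBasis (ρ : GaloisRepAdic A) : Module.Basis (Fin 2) A ρ.V :=
  Module.finBasisOfFinrankEq A ρ.V ρ.finrank_eq

theorem exists_ofMat_equiv (ρ : GaloisRepAdic A) :
    ∃ (r : Γℚ →* Matrix (Fin 2) (Fin 2) A) (hr : IsMatCont r), Nonempty (ρ.Equiv (ofMat r hr)) :=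
  ⟨_, _, ⟨equivOfMatOfBasis ρ (chosenBasis ρ)⟩⟩

/-- Conjugate matrix representations give equivalent `GaloisRepAdic`s. -/
noncomputable def equivOfConj {r r' : Γℚ →* Matrix (Fin 2) (Fin 2) A} (hr : IsMatCont r)
    (hr' : IsMatCont r') (P : GL (Fin 2) A)
    (h : ∀ σ, (P : Matrix (Fin 2) (Fin 2) A) * r σ = r' σ * (P : Matrix (Fin 2) (Fin 2) A)) :
    (ofMat r hr).Equiv (ofMat r' hr') where
  toLinearEquiv := Matrix.toLinearEquiv' (P : Matrix (Fin 2) (Fin 2) A) (Units.invertible P)
  map_apply := fun σ (x : Fin 2 → A) => by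
    show (P : Matrix (Fin 2) (Fin 2) A).mulVec ((r σ).mulVec x) =
      (r' σ).mulVec ((P : Matrix (Fin 2) (Fin 2) A).mulVec x)
    rw [Matrix.mulVec_mulVec, Matrix.mulVec_mulVec, h σ]

theorem ofMat_isEquiv_iff {r r' : Γℚ →* Matrix (Fin 2) (Fin 2) A} (hr : IsMatCont r)
    (hr' : IsMatCont r') :
    (ofMat r hr).IsEquiv (ofMat r' hr') ↔
      ∃ P : GL (Fin 2) A, ∀ σ,
        (P : Matrix (Fin 2) (Fin 2) A) * r σ = r' σ * (P : Matrix (Fin 2) (Fin 2) A) := by
  constructor
  · rintro ⟨e⟩
    let f : (Fin 2 → A) ≃ₗ[A] (Fin 2 → A) := e.toLinearEquiv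
    let P : Matrix (Fin 2) (Fin 2) A := LinearMap.toMatrix' f.toLinearMap
    let Q : Matrix (Fin 2) (Fin 2) A := LinearMap.toMatrix' f.symm.toLinearMap
    have hPQ : P * Q = 1 := by
      rw [← LinearMap.toMatrix'_comp, LinearEquiv.comp_symm, LinearMap.toMatrix'_id]
    have hQP : Q * P = 1 := by
      rw [← LinearMap.toMatrix'_comp, LinearEquiv.symm_comp, LinearMap.toMatrix'_id]
    refine ⟨⟨P, Q, hPQ, hQP⟩, fun σ => ?_⟩
    show P * r σ = r' σ * P
    have h1 : f.toLinearMap ∘ₗ Matrix.toLin' (r σ) = Matrix.toLin' (r' σ) ∘ₗ f.toLinearMap := by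
      exact LinearMap.ext fun x => e.map_apply σ x
    have h2 := congrArg LinearMap.toMatrix' h1
    rwa [LinearMap.toMatrix'_comp, LinearMap.toMatrix'_comp, LinearMap.toMatrix'_toLin',
      LinearMap.toMatrix'_toLin'] at h2
  · rintro ⟨P, h⟩
    exact ⟨equivOfConj hr hr' P h⟩

end Basic

section BaseChange

/-- Entrywise image of a matrix representation under a ring hom. -/
noncomputable def mapMat {A B : Type} [CommRing A] [CommRing B] (φ : A →+* B)
    (r : Γℚ →* Matrix (Fin 2) (Fin 2) A) : Γℚ →* Matrix (Fin 2) (Fin 2) B :=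
  (φ.mapMatrix (m := Fin 2)).toMonoidHom.comp r

@[simp] lemma mapMat_apply {A B : Type} [CommRing A] [CommRing B] (φ : A →+* B)
    (r : Γℚ →* Matrix (Fin 2) (Fin 2) A) (σ : Γℚ) : mapMat φ r σ = (r σ).map φ := rfl

lemma mapMat_comp {A B C : Type} [CommRing A] [CommRing B] [CommRing C] (φ : A →+* B)
    (ψ : B →+* C) (r : Γℚ →* Matrix (Fin 2) (Fin 2) A) :
    mapMat ψ (mapMat φ r) = mapMat (ψ.comp φ) r := by
  ext σ i j
  simp

lemma mapMat_id {A : Type} [CommRing A] (r : Γℚ →* Matrix (Fin 2) (Fin 2) A) :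
    mapMat (RingHom.id A) r = r := by
  ext σ i j
  simp

/-- The key compatibility: base change of `toLin'` is `toLin'` of the mapped matrix. -/
lemma piScalarRight_baseChange {A B : Type} [CommRing A] [CommRing B] [Algebra A B]
    (M : Matrix (Fin 2) (Fin 2) A) (x : B ⊗[A] (Fin 2 → A)) :
    TensorProduct.piScalarRight A B B (Fin 2) ((Matrix.toLin' M).baseChange B x) =
      (M.map (algebraMap A B)).mulVec (TensorProduct.piScalarRight A B B (Fin 2) x) := by
  induction x using TensorProduct.induction_on with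
  | zero => simp
  | tmul b v =>
    rw [LinearMap.baseChange_tmul, TensorProduct.piScalarRight_apply,
      TensorProduct.piScalarRightHom_tmul, TensorProduct.piScalarRight_apply,
      TensorProduct.piScalarRightHom_tmul]
    ext i
    simp only [Matrix.toLin'_apply, Matrix.mulVec, dotProduct, Matrix.map_apply,
      Algebra.smul_def, map_sum, map_mul, Finset.sum_mul]
    refine Finset.sum_congr rfl fun j _ => ?_
    ring
  | add x y hx hy => simp only [map_add, hx, hy, Matrix.mulVec_add]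

variable {A B : Type} [CommRing A] [IsLocalRing A] [CommRing B] [IsLocalRing B]

lemma IsMatCont.map {r : Γℚ →* Matrix (Fin 2) (Fin 2) A} (hr : IsMatCont r) (φ : A →+* B)
    (hφ : IsLocalHom φ) : IsMatCont (mapMat φ r) := by
  intro n
  obtain ⟨L, hL, h⟩ := hr n
  refine ⟨L, hL, fun σ hσ i j => ?_⟩
  have hmap : (IsLocalRing.maximalIdeal A ^ n).map φ ≤ IsLocalRing.maximalIdeal B ^ n := by
    rw [Ideal.map_pow]
    exact Ideal.pow_right_mono (Ideal.map_le_iff_le_comap.mpr fun a ha =>
      Ideal.mem_comap.mpr (haveI := hφ; map_nonunit φ a ha)) n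
  have h1 : (mapMat φ r σ - 1) i j = φ ((r σ - 1) i j) := by
    simp only [mapMat_apply, Matrix.sub_apply, Matrix.map_apply, Matrix.one_apply, map_sub]
    split_ifs <;> simp
  rw [h1]
  exact hmap (Ideal.mem_map_of_mem φ (h σ hσ i j))

/-- Base change of a matrix representation is the entrywise mapped matrix representation. -/
noncomputable def ofMatBaseChangeEquiv (r : Γℚ →* Matrix (Fin 2) (Fin 2) A) (hr : IsMatCont r)
    (φ : A →+* B) (hφ : IsLocalHom φ) :
    ((ofMat r hr).baseChangeAlong φ hφ).Equiv (ofMat (mapMat φ r) (hr.map φ hφ)) :=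
  letI : Algebra A B := φ.toAlgebra
  { toLinearEquiv := TensorProduct.piScalarRight A B B (Fin 2)
    map_apply := fun σ x => piScalarRight_baseChange (r σ) x }

end BaseChange

section Residual

variable {k : Type} [Field k]

/-- The residual representation attached to a matrix representation over a field. -/
noncomputable def ofMatRes (rbar : Γℚ →* Matrix (Fin 2) (Fin 2) k)
    (h : GaloisFactorsThroughFiniteLevel rbar) : ResidualGaloisRep k where
  V := Fin 2 → k
  finrank_eq := Module.finrank_fin_fun k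
  ρ := matEnd rbar
  factorsThroughFiniteLevel := by
    obtain ⟨L, hL, h1⟩ := h
    refine ⟨L, hL, fun σ hσ => ?_⟩
    rw [matEnd_eq_toLin', h1 σ hσ, Matrix.toLin'_one]
    rfl

@[simp] lemma ofMatRes_ρ_apply (rbar : Γℚ →* Matrix (Fin 2) (Fin 2) k)
    (h : GaloisFactorsThroughFiniteLevel rbar) (σ : Γℚ) (v : Fin 2 → k) :
    (ofMatRes rbar h).ρ σ v = (rbar σ).mulVec v := rfl

lemma factorsThroughFiniteLevel_mapMat {k' : Type} [Field k'] (ψ : k →+* k')
    {rbar : Γℚ →* Matrix (Fin 2) (Fin 2) k} (h : GaloisFactorsThroughFiniteLevel rbar) :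
    GaloisFactorsThroughFiniteLevel (mapMat ψ rbar) := by
  obtain ⟨L, hL, h1⟩ := h
  refine ⟨L, hL, fun σ hσ => ?_⟩
  rw [mapMat_apply, h1 σ hσ]
  ext i j
  simp [Matrix.one_apply]

/-- The matrix of a residual representation in a basis. -/
noncomputable def toMatResOfBasis (ρ : ResidualGaloisRep k) (b : Module.Basis (Fin 2) k ρ.V) :
    Γℚ →* Matrix (Fin 2) (Fin 2) k :=
  (LinearMap.toMatrixAlgEquiv b).toAlgHom.toRingHom.toMonoidHom.comp ρ.ρ

lemma toMatResOfBasis_apply (ρ : ResidualGaloisRep k) (b : Module.Basis (Fin 2) k ρ.V)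
    (σ : Γℚ) : toMatResOfBasis ρ b σ = LinearMap.toMatrix b b (ρ.ρ σ) := rfl

lemma factorsThroughFiniteLevel_toMatResOfBasis (ρ : ResidualGaloisRep k)
    (b : Module.Basis (Fin 2) k ρ.V) :
    GaloisFactorsThroughFiniteLevel (toMatResOfBasis ρ b) := by
  obtain ⟨L, hL, h1⟩ := ρ.factorsThroughFiniteLevel
  refine ⟨L, hL, fun σ hσ => ?_⟩
  rw [toMatResOfBasis_apply, h1 σ hσ]
  exact LinearMap.toMatrix_one b

/-- Every residual representation is equivalent to a matrix one (given a basis). -/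
noncomputable def equivOfMatResOfBasis (ρ : ResidualGaloisRep k)
    (b : Module.Basis (Fin 2) k ρ.V) :
    ρ.Equiv (ofMatRes (toMatResOfBasis ρ b) (factorsThroughFiniteLevel_toMatResOfBasis ρ b)) where
  toLinearEquiv := b.equivFun
  map_apply σ x := by
    show b.equivFun (ρ.ρ σ x) = (toMatResOfBasis ρ b σ).mulVec (b.equivFun x)
    rw [toMatResOfBasis_apply]
    exact (LinearMap.toMatrix_mulVec_repr b b (ρ.ρ σ) x).symm

/-- A basis of the underlying space of a residual representation. -/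
noncomputable def chosenBasisRes (ρ : ResidualGaloisRep k) : Module.Basis (Fin 2) k ρ.V :=
  Module.finBasisOfFinrankEq k ρ.V ρ.finrank_eq

theorem exists_ofMatRes_equiv (ρ : ResidualGaloisRep k) :
    ∃ (rbar : Γℚ →* Matrix (Fin 2) (Fin 2) k) (h : GaloisFactorsThroughFiniteLevel rbar),
      Nonempty (ρ.Equiv (ofMatRes rbar h)) :=
  ⟨_, _, ⟨equivOfMatResOfBasis ρ (chosenBasisRes ρ)⟩⟩

/-- Conjugate residual matrix representations are equivalent. -/
noncomputable def equivResOfConj {r r' : Γℚ →* Matrix (Fin 2) (Fin 2) k}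
    (hr : GaloisFactorsThroughFiniteLevel r) (hr' : GaloisFactorsThroughFiniteLevel r')
    (P : GL (Fin 2) k)
    (h : ∀ σ, (P : Matrix (Fin 2) (Fin 2) k) * r σ = r' σ * (P : Matrix (Fin 2) (Fin 2) k)) :
    (ofMatRes r hr).Equiv (ofMatRes r' hr') where
  toLinearEquiv := Matrix.toLinearEquiv' (P : Matrix (Fin 2) (Fin 2) k) (Units.invertible P)
  map_apply := fun σ (x : Fin 2 → k) => by
    show (P : Matrix (Fin 2) (Fin 2) k).mulVec ((r σ).mulVec x) =
      (r' σ).mulVec ((P : Matrix (Fin 2) (Fin 2) k).mulVec x)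
    rw [Matrix.mulVec_mulVec, Matrix.mulVec_mulVec, h σ]

theorem ofMatRes_isEquiv_iff {r r' : Γℚ →* Matrix (Fin 2) (Fin 2) k}
    (hr : GaloisFactorsThroughFiniteLevel r) (hr' : GaloisFactorsThroughFiniteLevel r') :
    (ofMatRes r hr).IsEquiv (ofMatRes r' hr') ↔
      ∃ P : GL (Fin 2) k, ∀ σ,
        (P : Matrix (Fin 2) (Fin 2) k) * r σ = r' σ * (P : Matrix (Fin 2) (Fin 2) k) := by
  constructor
  · rintro ⟨e⟩
    let f : (Fin 2 → k) ≃ₗ[k] (Fin 2 → k) := e.toLinearEquiv
    let P : Matrix (Fin 2) (Fin 2) k := LinearMap.toMatrix' f.toLinearMap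
    let Q : Matrix (Fin 2) (Fin 2) k := LinearMap.toMatrix' f.symm.toLinearMap
    have hPQ : P * Q = 1 := by
      rw [← LinearMap.toMatrix'_comp, LinearEquiv.comp_symm, LinearMap.toMatrix'_id]
    have hQP : Q * P = 1 := by
      rw [← LinearMap.toMatrix'_comp, LinearEquiv.symm_comp, LinearMap.toMatrix'_id]
    refine ⟨⟨P, Q, hPQ, hQP⟩, fun σ => ?_⟩
    show P * r σ = r' σ * P
    have h1 : f.toLinearMap ∘ₗ Matrix.toLin' (r σ) = Matrix.toLin' (r' σ) ∘ₗ f.toLinearMap :=
      LinearMap.ext fun x => e.map_apply σ x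
    have h2 := congrArg LinearMap.toMatrix' h1
    rwa [LinearMap.toMatrix'_comp, LinearMap.toMatrix'_comp, LinearMap.toMatrix'_toLin',
      LinearMap.toMatrix'_toLin'] at h2
  · rintro ⟨P, h⟩
    exact ⟨equivResOfConj hr hr' P h⟩

/-- Equal matrix representations give equivalent residual representations. -/
noncomputable def ofMatResCongr {r r' : Γℚ →* Matrix (Fin 2) (Fin 2) k}
    (hr : GaloisFactorsThroughFiniteLevel r) (hr' : GaloisFactorsThroughFiniteLevel r')
    (h : r = r') : (ofMatRes r hr).Equiv (ofMatRes r' hr') := by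
  subst h
  exact ResidualGaloisRep.Equiv.refl _

/-- Base change of a residual matrix representation along a field hom. -/
noncomputable def ofMatResBaseChangeEquiv {k' : Type} [Field k']
    (rbar : Γℚ →* Matrix (Fin 2) (Fin 2) k) (h : GaloisFactorsThroughFiniteLevel rbar)
    (ψ : k →+* k') :
    ((ofMatRes rbar h).baseChangeAlong ψ).Equiv
      (ofMatRes (mapMat ψ rbar) (factorsThroughFiniteLevel_mapMat ψ h)) :=
  letI : Algebra k k' := ψ.toAlgebra
  { toLinearEquiv := TensorProduct.piScalarRight k k' k' (Fin 2)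
    map_apply := fun σ x => piScalarRight_baseChange (rbar σ) x }

end Residual

section ResidualOfAdic

variable {A : Type} [CommRing A] [IsLocalRing A]

lemma factorsThroughFiniteLevel_residue {r : Γℚ →* Matrix (Fin 2) (Fin 2) A}
    (hr : IsMatCont r) :
    GaloisFactorsThroughFiniteLevel (mapMat (IsLocalRing.residue A) r) := by
  obtain ⟨L, hL, h1⟩ := hr 1
  refine ⟨L, hL, fun σ hσ => ?_⟩
  ext i j
  have h2 := h1 σ hσ i j
  rw [pow_one, ← IsLocalRing.residue_eq_zero_iff, Matrix.sub_apply, map_sub, sub_eq_zero] at h2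
  rw [mapMat_apply, Matrix.map_apply, h2, Matrix.one_apply, Matrix.one_apply]
  split_ifs <;> simp

/-- The residual representation of a matrix representation is the reduced matrix one. -/
noncomputable def residualOfMatEquiv (r : Γℚ →* Matrix (Fin 2) (Fin 2) A) (hr : IsMatCont r) :
    (ofMat r hr).residual.Equiv
      (ofMatRes (mapMat (IsLocalRing.residue A) r) (factorsThroughFiniteLevel_residue hr)) where
  toLinearEquiv := TensorProduct.piScalarRight A (IsLocalRing.ResidueField A)
    (IsLocalRing.ResidueField A) (Fin 2)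
  map_apply := fun σ x => piScalarRight_baseChange (r σ) x

end ResidualOfAdic

section Compat

variable {A B C : Type} [CommRing A] [IsLocalRing A] [CommRing B] [IsLocalRing B]
  [CommRing C] [IsLocalRing C]

/-- Equal matrix representations give equivalent `GaloisRepAdic`s. -/
noncomputable def ofMatCongr {r r' : Γℚ →* Matrix (Fin 2) (Fin 2) A} (hr : IsMatCont r)
    (hr' : IsMatCont r') (h : r = r') : (ofMat r hr).Equiv (ofMat r' hr') := by
  subst h
  exact GaloisRepAdic.Equiv.refl _

/-- Base change along equal ring homs. -/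
noncomputable def baseChangeAlongCongr (ρ : GaloisRepAdic A) {φ φ' : A →+* B}
    (hφ : IsLocalHom φ) (hφ' : IsLocalHom φ') (h : φ = φ') :
    (ρ.baseChangeAlong φ hφ).Equiv (ρ.baseChangeAlong φ' hφ') := by
  subst h
  exact GaloisRepAdic.Equiv.refl _

/-- Base change in stages. -/
noncomputable def baseChangeAlongCompEquiv (ρ : GaloisRepAdic A) (φ : A →+* B)
    (hφ : IsLocalHom φ) (ψ : B →+* C) (hψ : IsLocalHom ψ) (hψφ : IsLocalHom (ψ.comp φ)) :
    ((ρ.baseChangeAlong φ hφ).baseChangeAlong ψ hψ).Equiv (ρ.baseChangeAlong (ψ.comp φ) hψφ) :=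
  let b := chosenBasis ρ
  let r := toMatOfBasis ρ b
  have hr : IsMatCont r := isMatCont_toMatOfBasis ρ b
  let e0 : ρ.Equiv (ofMat r hr) := equivOfMatOfBasis ρ b
  let e1 := GaloisRepAdic.Equiv.baseChangeAlong ψ hψ (GaloisRepAdic.Equiv.baseChangeAlong φ hφ e0)
  let e2 := GaloisRepAdic.Equiv.baseChangeAlong ψ hψ (ofMatBaseChangeEquiv r hr φ hφ)
  let e3 := ofMatBaseChangeEquiv (mapMat φ r) (hr.map φ hφ) ψ hψ
  let e4 := ofMatCongr ((hr.map φ hφ).map ψ hψ) (hr.map (ψ.comp φ) hψφ) (mapMat_comp φ ψ r)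
  let e5 := (ofMatBaseChangeEquiv r hr (ψ.comp φ) hψφ).symm
  let e6 := (GaloisRepAdic.Equiv.baseChangeAlong (ψ.comp φ) hψφ e0).symm
  ((((e1.trans e2).trans e3).trans e4).trans e5).trans e6

/-- Base change along the identity. -/
noncomputable def baseChangeAlongIdEquiv (ρ : GaloisRepAdic A) (h : IsLocalHom (RingHom.id A)) :
    (ρ.baseChangeAlong (RingHom.id A) h).Equiv ρ :=
  let b := chosenBasis ρ
  let r := toMatOfBasis ρ b
  have hr : IsMatCont r := isMatCont_toMatOfBasis ρ b
  let e0 : ρ.Equiv (ofMat r hr) := equivOfMatOfBasis ρ b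
  let e1 := GaloisRepAdic.Equiv.baseChangeAlong (RingHom.id A) h e0
  let e2 := ofMatBaseChangeEquiv r hr (RingHom.id A) h
  let e3 := ofMatCongr (hr.map (RingHom.id A) h) hr (mapMat_id r)
  ((e1.trans e2).trans e3).trans e0.symm

end Compat

section ResCompat

variable {k k' k'' : Type} [Field k] [Field k'] [Field k'']

/-- Base change of residual representations along equal ring homs. -/
noncomputable def resBaseChangeAlongCongr (ρ : ResidualGaloisRep k) {ψ ψ' : k →+* k'}
    (h : ψ = ψ') : (ρ.baseChangeAlong ψ).Equiv (ρ.baseChangeAlong ψ') := by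
  subst h
  exact ResidualGaloisRep.Equiv.refl _

/-- Base change of residual representations in stages. -/
noncomputable def resBaseChangeAlongCompEquiv (ρ : ResidualGaloisRep k) (ψ : k →+* k')
    (χ : k' →+* k'') :
    ((ρ.baseChangeAlong ψ).baseChangeAlong χ).Equiv (ρ.baseChangeAlong (χ.comp ψ)) :=
  let b := chosenBasisRes ρ
  let r := toMatResOfBasis ρ b
  have hr : GaloisFactorsThroughFiniteLevel r := factorsThroughFiniteLevel_toMatResOfBasis ρ b
  let e0 : ρ.Equiv (ofMatRes r hr) := equivOfMatResOfBasis ρ b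
  let e1 := ResidualGaloisRep.Equiv.baseChangeAlong χ (ResidualGaloisRep.Equiv.baseChangeAlong ψ e0)
  let e2 := ResidualGaloisRep.Equiv.baseChangeAlong χ (ofMatResBaseChangeEquiv r hr ψ)
  let e3 := ofMatResBaseChangeEquiv (mapMat ψ r) (factorsThroughFiniteLevel_mapMat ψ hr) χ
  let e4 := ofMatResCongr
    (factorsThroughFiniteLevel_mapMat χ (factorsThroughFiniteLevel_mapMat ψ hr))
    (factorsThroughFiniteLevel_mapMat (χ.comp ψ) hr) (mapMat_comp ψ χ r)
  let e5 := (ofMatResBaseChangeEquiv r hr (χ.comp ψ)).symm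
  let e6 := (ResidualGaloisRep.Equiv.baseChangeAlong (χ.comp ψ) e0).symm
  ((((e1.trans e2).trans e3).trans e4).trans e5).trans e6

end ResCompat

section ResidualBaseChange

variable {A B : Type} [CommRing A] [IsLocalRing A] [CommRing B] [IsLocalRing B]

/-- The residual representation of a base change is the base change of the residual one. -/
noncomputable def residualBaseChangeEquiv (ρ : GaloisRepAdic A) (φ : A →+* B) [hφ : IsLocalHom φ] :
    (ρ.baseChangeAlong φ hφ).residual.Equiv
      (ρ.residual.baseChangeAlong (IsLocalRing.ResidueField.map φ)) :=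
  let b := chosenBasis ρ
  let r := toMatOfBasis ρ b
  have hr : IsMatCont r := isMatCont_toMatOfBasis ρ b
  let e0 : ρ.Equiv (ofMat r hr) := equivOfMatOfBasis ρ b
  -- left side
  let l1 := (GaloisRepAdic.Equiv.baseChangeAlong φ hφ e0).residual
  let l2 := (ofMatBaseChangeEquiv r hr φ hφ).residual
  let l3 := residualOfMatEquiv (mapMat φ r) (hr.map φ hφ)
  -- right side
  let r1 := ResidualGaloisRep.Equiv.baseChangeAlong (IsLocalRing.ResidueField.map φ) e0.residual
  let r2 := ResidualGaloisRep.Equiv.baseChangeAlong (IsLocalRing.ResidueField.map φ)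
    (residualOfMatEquiv r hr)
  let r3 := ofMatResBaseChangeEquiv (mapMat (IsLocalRing.residue A) r)
    (factorsThroughFiniteLevel_residue hr) (IsLocalRing.ResidueField.map φ)
  have hcomp : mapMat (IsLocalRing.residue B) (mapMat φ r) =
      mapMat (IsLocalRing.ResidueField.map φ) (mapMat (IsLocalRing.residue A) r) := by
    rw [mapMat_comp, mapMat_comp, IsLocalRing.ResidueField.map_comp_residue]
  let m := ofMatResCongr (factorsThroughFiniteLevel_residue (hr.map φ hφ))
    (factorsThroughFiniteLevel_mapMat _ (factorsThroughFiniteLevel_residue hr)) hcomp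
  (((l1.trans l2).trans l3).trans m).trans ((r1.trans r2).trans r3).symm

end ResidualBaseChange

section Lifts

variable {𝒪 : Type} [CommRing 𝒪] [IsLocalRing 𝒪]
variable {A B : Type} [CommRing A] [IsLocalRing A] [CommRing B] [IsLocalRing B]
  [Algebra 𝒪 A] [Algebra 𝒪 B] [IsLocalHom (algebraMap 𝒪 A)] [IsLocalHom (algebraMap 𝒪 B)]

/-- Lifts of `ρbar` are stable under base change along local algebra homs. -/
theorem residual_isEquiv_baseChangeAlong
    (ρbar : ResidualGaloisRep (IsLocalRing.ResidueField 𝒪)) (ρA : GaloisRepAdic A)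
    (h : ρA.residual.IsEquiv
      (ρbar.baseChangeAlong (IsLocalRing.ResidueField.map (algebraMap 𝒪 A))))
    (φ : A →ₐ[𝒪] B) (hφ : IsLocalHom (φ : A →+* B)) :
    (ρA.baseChangeAlong (φ : A →+* B) hφ).residual.IsEquiv
      (ρbar.baseChangeAlong (IsLocalRing.ResidueField.map (algebraMap 𝒪 B))) := by
  obtain ⟨e⟩ := h
  have := hφ
  have hcomp : (IsLocalRing.ResidueField.map (φ : A →+* B)).comp
      (IsLocalRing.ResidueField.map (algebraMap 𝒪 A)) =
      IsLocalRing.ResidueField.map (algebraMap 𝒪 B) := by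
    ext x
    obtain ⟨x, rfl⟩ := IsLocalRing.residue_surjective x
    simp [IsLocalRing.ResidueField.map_residue]
  exact ⟨((residualBaseChangeEquiv ρA (φ : A →+* B)).trans
    (ResidualGaloisRep.Equiv.baseChangeAlong _ e)).trans
    ((resBaseChangeAlongCompEquiv ρbar _ _).trans (resBaseChangeAlongCongr ρbar hcomp))⟩

end Lifts

end Fermat.Agent.S53
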