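import Mathlib
import Fermat.Agent.S53.AuxLemmas

/-!
# S53 / M5 part (A): generators of the maximal ideal from a bound on the number of
`𝒪`-algebra homomorphisms to the dual numbers (helper53)

Pure commutative algebra.  `A` is a local `𝒪`-algebra with local structure map and
`𝒪 → A → ResidueField A` surjective.  Main results (namespace `Fermat.Agent.S53.TanAlg`):

* `TanAlg.exists_algHom_of_coord` : for an ideal `J` with `𝔪_𝒪 A ≤ J`, `𝔪_A ^ 2 ≤ J ≤ 𝔪_A`
  and `t ∈ 𝔪_A`, `t ∉ J`, `𝔪_A ≤ J ⊔ (t)` there is an `𝒪`-algebra hom `φ : A → k[ε]`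
  with `φ = 0` on `J` and `φ t = ε`.
* `TanAlg.exists_generators_of_card_algHom_le` : if every `Finset` of `𝒪`-algebra homs
  `A → k[ε]` has at most `T` elements (and `A` is noetherian) then
  `𝔪_A = span (range t) ⊔ 𝔪_𝒪 A` for some `t : Fin T → A` with values in `𝔪_A`.
-/

set_option autoImplicit false

noncomputable section

namespace Fermat.Agent.S53

namespace TanAlg

open IsLocalRing

variable {𝒪 : Type} [CommRing 𝒪] [IsLocalRing 𝒪] {A : Type} [CommRing A] [IsLocalRing A]
  [Algebra 𝒪 A] [IsLocalHom (algebraMap 𝒪 A)]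

theorem algebraMap_mem_maximalIdeal_iff {o : 𝒪} :
    algebraMap 𝒪 A o ∈ maximalIdeal A ↔ o ∈ maximalIdeal 𝒪 := by
  simp only [mem_maximalIdeal, mem_nonunits_iff, not_iff_not]
  exact ⟨fun h => isUnit_of_map_unit _ _ h, fun h => h.map _⟩

theorem residue_eq_residue_iff {R : Type*} [CommRing R] [IsLocalRing R] {x y : R} :
    residue R x = residue R y ↔ x - y ∈ maximalIdeal R := by
  rw [← sub_eq_zero, ← map_sub, residue_eq_zero_iff]

/-- `a ≡ o + c t mod J` (with `o, c` coming from `𝒪`). -/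
def Rep (J : Ideal A) (t a : A) (o c : 𝒪) : Prop :=
  a - algebraMap 𝒪 A o - algebraMap 𝒪 A c * t ∈ J

theorem rep_unique {J : Ideal A} {t : A}
    (hπ : (maximalIdeal 𝒪).map (algebraMap 𝒪 A) ≤ J) (hJ : J ≤ maximalIdeal A)
    (ht : t ∈ maximalIdeal A) (htJ : t ∉ J) {a : A} {o c o' c' : 𝒪}
    (h : Rep J t a o c) (h' : Rep J t a o' c') :
    residue 𝒪 o = residue 𝒪 o' ∧ residue 𝒪 c = residue 𝒪 c' := by
  have hd : algebraMap 𝒪 A (o - o') + algebraMap 𝒪 A (c - c') * t ∈ J := by
    have := J.sub_mem h' h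
    have e : a - algebraMap 𝒪 A o' - algebraMap 𝒪 A c' * t
        - (a - algebraMap 𝒪 A o - algebraMap 𝒪 A c * t)
        = algebraMap 𝒪 A (o - o') + algebraMap 𝒪 A (c - c') * t := by
      simp only [map_sub]; ring
    rwa [e] at this
  have h1 : algebraMap 𝒪 A (o - o') ∈ maximalIdeal A := by
    have h2 : algebraMap 𝒪 A (c - c') * t ∈ maximalIdeal A := Ideal.mul_mem_left _ _ ht
    have := (maximalIdeal A).sub_mem (hJ hd) h2
    simpa using this
  have h3 : o - o' ∈ maximalIdeal 𝒪 := algebraMap_mem_maximalIdeal_iff.mp h1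
  have h4 : algebraMap 𝒪 A (o - o') ∈ J := hπ (Ideal.mem_map_of_mem _ h3)
  have h5 : algebraMap 𝒪 A (c - c') * t ∈ J := by
    have := J.sub_mem hd h4
    simpa using this
  refine ⟨residue_eq_residue_iff.mpr h3, residue_eq_residue_iff.mpr ?_⟩
  by_contra hc
  have hu : IsUnit (c - c') := by
    rw [mem_maximalIdeal, mem_nonunits_iff, not_not] at hc
    exact hc
  have hu' : IsUnit (algebraMap 𝒪 A (c - c')) := hu.map _
  exact htJ ((Ideal.unit_mul_mem_iff_mem J hu').mp h5)

theorem exists_rep {J : Ideal A} {t : A}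
    (hsurj : Function.Surjective (residue A ∘ algebraMap 𝒪 A))
    (hsq : maximalIdeal A ^ 2 ≤ J) (ht : t ∈ maximalIdeal A)
    (hgen : maximalIdeal A ≤ J ⊔ Ideal.span {t}) (a : A) :
    ∃ o c : 𝒪, Rep J t a o c := by
  obtain ⟨o, ho⟩ := hsurj (residue A a)
  have h1 : a - algebraMap 𝒪 A o ∈ maximalIdeal A := by
    rw [← residue_eq_residue_iff]; exact ho.symm
  obtain ⟨j, hj, y, hy, hjy⟩ := Submodule.mem_sup.mp (hgen h1)
  obtain ⟨b, rfl⟩ := Ideal.mem_span_singleton'.mp hy
  obtain ⟨c, hc⟩ := hsurj (residue A b)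
  have h2 : b - algebraMap 𝒪 A c ∈ maximalIdeal A := by
    rw [← residue_eq_residue_iff]; exact hc.symm
  have h3 : (b - algebraMap 𝒪 A c) * t ∈ J := by
    apply hsq
    rw [pow_two]
    exact Ideal.mul_mem_mul h2 ht
  refine ⟨o, c, ?_⟩
  have e : a - algebraMap 𝒪 A o - algebraMap 𝒪 A c * t = j + (b - algebraMap 𝒪 A c) * t := by
    rw [← hjy]; ring
  unfold Rep
  rw [e]
  exact J.add_mem hj h3

/-- The main construction: a "coordinate" `t` of `𝔪_A` modulo `J` gives an `𝒪`-algebra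
homomorphism `A → k[ε]` killing `J` and sending `t` to `ε`. -/
theorem exists_algHom_of_coord {J : Ideal A} {t : A}
    (hsurj : Function.Surjective (residue A ∘ algebraMap 𝒪 A))
    (hπ : (maximalIdeal 𝒪).map (algebraMap 𝒪 A) ≤ J)
    (hsq : maximalIdeal A ^ 2 ≤ J) (hJ : J ≤ maximalIdeal A)
    (ht : t ∈ maximalIdeal A) (htJ : t ∉ J)
    (hgen : maximalIdeal A ≤ J ⊔ Ideal.span {t}) :
    letI : Algebra 𝒪 (DualNumber (ResidueField 𝒪)) := dualNumberAlgebra 𝒪
    ∃ φ : A →ₐ[𝒪] DualNumber (ResidueField 𝒪),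
      (∀ j ∈ J, φ j = 0) ∧ φ t = TrivSqZeroExt.inr 1 := by
  letI : Algebra 𝒪 (DualNumber (ResidueField 𝒪)) := dualNumberAlgebra 𝒪
  choose o c hoc using exists_rep (𝒪 := 𝒪) hsurj hsq ht hgen
  -- characterization of the map
  have key : ∀ (a : A) (o' c' : 𝒪), Rep J t a o' c' →
      (TrivSqZeroExt.inl (residue 𝒪 (o a)) + TrivSqZeroExt.inr (residue 𝒪 (c a)) :
        DualNumber (ResidueField 𝒪)) =
      TrivSqZeroExt.inl (residue 𝒪 o') + TrivSqZeroExt.inr (residue 𝒪 c') := by
    intro a o' c' h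
    obtain ⟨h1, h2⟩ := rep_unique hπ hJ ht htJ (hoc a) h
    rw [h1, h2]
  have halg : ∀ x : 𝒪, algebraMap 𝒪 (DualNumber (ResidueField 𝒪)) x =
      TrivSqZeroExt.inl (residue 𝒪 x) := fun x => rfl
  refine ⟨{ toFun := fun a => TrivSqZeroExt.inl (residue 𝒪 (o a)) +
              TrivSqZeroExt.inr (residue 𝒪 (c a))
            map_one' := ?_
            map_mul' := ?_
            map_zero' := ?_
            map_add' := ?_
            commutes' := ?_ }, ?_, ?_⟩
  · rw [key 1 1 0 (by unfold Rep; simp)]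
    simp
  · intro x y
    have hx := hoc x
    have hy := hoc y
    have hxy : Rep J t (x * y) (o x * o y) (o x * c y + o y * c x) := by
      unfold Rep at hx hy ⊢
      have e : x * y - algebraMap 𝒪 A (o x * o y) - algebraMap 𝒪 A (o x * c y + o y * c x) * t
          = (x - algebraMap 𝒪 A (o x) - algebraMap 𝒪 A (c x) * t) * y
            + (algebraMap 𝒪 A (o x) + algebraMap 𝒪 A (c x) * t)
              * (y - algebraMap 𝒪 A (o y) - algebraMap 𝒪 A (c y) * t)
            + algebraMap 𝒪 A (c x * c y) * (t * t) := by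
        simp only [map_mul, map_add]; ring
      rw [e]
      refine J.add_mem (J.add_mem (J.mul_mem_right _ hx) (J.mul_mem_left _ hy))
        (J.mul_mem_left _ (hsq ?_))
      rw [pow_two]
      exact Ideal.mul_mem_mul ht ht
    rw [key _ _ _ hxy]
    apply TrivSqZeroExt.ext
    · simp
    · simp [mul_comm]
  · rw [key 0 0 0 (by unfold Rep; simp)]
    simp
  · intro x y
    have hx := hoc x
    have hy := hoc y
    have hxy : Rep J t (x + y) (o x + o y) (c x + c y) := by
      unfold Rep at hx hy ⊢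
      have e : x + y - algebraMap 𝒪 A (o x + o y) - algebraMap 𝒪 A (c x + c y) * t
          = (x - algebraMap 𝒪 A (o x) - algebraMap 𝒪 A (c x) * t)
            + (y - algebraMap 𝒪 A (o y) - algebraMap 𝒪 A (c y) * t) := by
        simp only [map_add]; ring
      rw [e]
      exact J.add_mem hx hy
    rw [key _ _ _ hxy]
    apply TrivSqZeroExt.ext
    · simp
    · simp
  · intro x
    rw [halg]
    show (TrivSqZeroExt.inl (residue 𝒪 (o (algebraMap 𝒪 A x))) +
      TrivSqZeroExt.inr (residue 𝒪 (c (algebraMap 𝒪 A x))) : DualNumber (ResidueField 𝒪)) = _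
    rw [key _ x 0 (by unfold Rep; simp)]
    simp
  · intro j hj
    show (TrivSqZeroExt.inl (residue 𝒪 (o j)) +
      TrivSqZeroExt.inr (residue 𝒪 (c j)) : DualNumber (ResidueField 𝒪)) = _
    rw [key j 0 0 (by unfold Rep; simpa using hj)]
    simp
  · show (TrivSqZeroExt.inl (residue 𝒪 (o t)) +
      TrivSqZeroExt.inr (residue 𝒪 (c t)) : DualNumber (ResidueField 𝒪)) = _
    rw [key t 0 1 (by unfold Rep; simp)]
    simp

/-- `𝔪_𝒪 A ≤ 𝔪_A`. -/
theorem map_maximalIdeal_le :
    (maximalIdeal 𝒪).map (algebraMap 𝒪 A) ≤ maximalIdeal A := by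
  rw [Ideal.map_le_iff_le_comap]
  intro x hx
  exact algebraMap_mem_maximalIdeal_iff.mpr hx

theorem sq_maximalIdeal_le : maximalIdeal A ^ 2 ≤ maximalIdeal A :=
  Ideal.pow_le_self two_ne_zero

/-- A finite set of elements of `𝔪_A` generating `𝔪_A` modulo `𝔪_𝒪 A + 𝔪_A ^ 2`. -/
def GenSet (𝒪 : Type) [CommRing 𝒪] [IsLocalRing 𝒪] {A : Type} [CommRing A] [IsLocalRing A]
    [Algebra 𝒪 A] (s : Finset A) : Prop :=
  (∀ x ∈ s, x ∈ maximalIdeal A) ∧
    maximalIdeal A ≤ Ideal.span (s : Set A) ⊔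
      ((maximalIdeal 𝒪).map (algebraMap 𝒪 A) ⊔ maximalIdeal A ^ 2)

theorem exists_genSet [IsNoetherianRing A] : ∃ s : Finset A, GenSet 𝒪 s := by
  classical
  obtain ⟨s, hs⟩ : (maximalIdeal A).FG := (isNoetherianRing_iff_ideal_fg A).mp inferInstance _
  refine ⟨s, ?_, ?_⟩
  · intro x hx
    rw [← hs]
    exact Ideal.subset_span hx
  · rw [← hs]
    exact le_sup_left

/-- In a generating set of minimal cardinality every element gives a coordinate. -/
theorem card_le_of_minimal
    (hsurj : Function.Surjective (residue A ∘ algebraMap 𝒪 A))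
    {s : Finset A} (hs : GenSet 𝒪 s)
    (hmin : ∀ s' : Finset A, GenSet 𝒪 s' → s.card ≤ s'.card) (T : ℕ)
    (hT : letI : Algebra 𝒪 (DualNumber (ResidueField 𝒪)) := dualNumberAlgebra 𝒪
      ∀ S : Finset (A →ₐ[𝒪] DualNumber (ResidueField 𝒪)), S.card ≤ T) :
    s.card ≤ T := by
  classical
  letI : Algebra 𝒪 (DualNumber (ResidueField 𝒪)) := dualNumberAlgebra 𝒪
  -- the ideal attached to `x ∈ s`
  set I0 : Ideal A := (maximalIdeal 𝒪).map (algebraMap 𝒪 A) ⊔ maximalIdeal A ^ 2 with hI0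
  have hI0le : I0 ≤ maximalIdeal A := sup_le map_maximalIdeal_le sq_maximalIdeal_le
  have hcoord : ∀ x ∈ s, ∃ φ : A →ₐ[𝒪] DualNumber (ResidueField 𝒪),
      (∀ y ∈ s, y ≠ x → φ y = 0) ∧ φ x = TrivSqZeroExt.inr 1 := by
    intro x hx
    set J : Ideal A := Ideal.span ((s.erase x : Finset A) : Set A) ⊔ I0 with hJ
    have hJle : J ≤ maximalIdeal A := by
      refine sup_le ?_ hI0le
      rw [Ideal.span_le]
      intro y hy
      exact hs.1 y (Finset.mem_of_mem_erase hy)
    have hxJ : x ∉ J := by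
      intro hxJ
      have hgen' : GenSet 𝒪 (s.erase x) := by
        refine ⟨fun y hy => hs.1 y (Finset.mem_of_mem_erase hy), ?_⟩
        refine hs.2.trans ?_
        refine sup_le ?_ le_sup_right
        rw [Ideal.span_le]
        intro y hy
        by_cases hyx : y = x
        · rw [hyx]; exact hxJ
        · exact le_sup_left (a := Ideal.span ((s.erase x : Finset A) : Set A)) (b := I0)
            (Ideal.subset_span (Finset.mem_erase.mpr ⟨hyx, hy⟩))
      have h1 := hmin _ hgen'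
      rw [Finset.card_erase_of_mem hx] at h1
      have h2 : 0 < s.card := Finset.card_pos.mpr ⟨x, hx⟩
      omega
    have hgen : maximalIdeal A ≤ J ⊔ Ideal.span {x} := by
      refine hs.2.trans ?_
      refine sup_le ?_ (le_sup_of_le_left le_sup_right)
      rw [Ideal.span_le]
      intro y hy
      by_cases hyx : y = x
      · rw [hyx]
        exact le_sup_right (a := J) (Ideal.subset_span (Set.mem_singleton x))
      · exact le_sup_left (b := Ideal.span {x}) (le_sup_left (b := I0)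
            (Ideal.subset_span (Finset.mem_erase.mpr ⟨hyx, hy⟩)))
    obtain ⟨φ, hφJ, hφx⟩ := exists_algHom_of_coord (𝒪 := 𝒪) hsurj
      (le_sup_of_le_right le_sup_left) (le_sup_of_le_right le_sup_right) hJle (hs.1 x hx) hxJ hgen
    refine ⟨φ, fun y hy hyx => hφJ y ?_, hφx⟩
    exact le_sup_left (b := I0) (Ideal.subset_span (Finset.mem_erase.mpr ⟨hyx, hy⟩))
  choose φ hφ0 hφ1 using hcoord
  have hinj : Function.Injective (fun x : {x // x ∈ s} => φ x.1 x.2) := by
    intro x y hxy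
    by_contra hne
    have hne' : (x : A) ≠ y := fun h => hne (Subtype.ext h)
    have h1 : φ y.1 y.2 x = 0 := hφ0 y.1 y.2 x.1 x.2 hne'
    have h2 : φ x.1 x.2 x = TrivSqZeroExt.inr 1 := hφ1 x.1 x.2
    have hxy' : φ x.1 x.2 = φ y.1 y.2 := hxy
    rw [hxy', h1] at h2
    have := congrArg TrivSqZeroExt.snd h2
    simp at this
  have := hT (s.attach.image (fun x : {x // x ∈ s} => φ x.1 x.2))
  rwa [Finset.card_image_of_injective _ hinj, Finset.card_attach] at this

/-- **M5 (A)**: a bound `T` on the number of `𝒪`-algebra homomorphisms `A → k[ε]` bounds the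
number of generators of `𝔪_A` modulo `𝔪_𝒪 A`. -/
theorem exists_generators_of_card_algHom_le [IsNoetherianRing A]
    (hsurj : Function.Surjective (residue A ∘ algebraMap 𝒪 A)) (T : ℕ)
    (hT : letI : Algebra 𝒪 (DualNumber (ResidueField 𝒪)) := dualNumberAlgebra 𝒪
      ∀ S : Finset (A →ₐ[𝒪] DualNumber (ResidueField 𝒪)), S.card ≤ T) :
    ∃ t : Fin T → A, (∀ i, t i ∈ maximalIdeal A) ∧
      maximalIdeal A = Ideal.span (Set.range t) ⊔ (maximalIdeal 𝒪).map (algebraMap 𝒪 A) := by
  classical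
  -- a generating set of minimal cardinality
  have hex : ∃ n : ℕ, ∃ s : Finset A, GenSet 𝒪 s ∧ s.card = n := by
    obtain ⟨s, hs⟩ := exists_genSet (𝒪 := 𝒪) (A := A)
    exact ⟨s.card, s, hs, rfl⟩
  obtain ⟨s, hs, hcard⟩ := Nat.find_spec hex
  have hmin : ∀ s' : Finset A, GenSet 𝒪 s' → s.card ≤ s'.card := by
    intro s' hs'
    rw [hcard]
    exact Nat.find_min' hex ⟨s', hs', rfl⟩
  have hsT : s.card ≤ T := card_le_of_minimal hsurj hs hmin T hT
  -- enumerate `s` by `Fin T`
  obtain ⟨f⟩ : Nonempty ((s : Set A) ↪ Fin T) := by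
    apply Function.Embedding.nonempty_of_card_le
    simpa using hsT
  set t : Fin T → A := Function.extend f (fun x => (x : A)) 0 with ht
  have htm : ∀ i, t i ∈ maximalIdeal A := by
    intro i
    by_cases h : ∃ a, f a = i
    · obtain ⟨a, rfl⟩ := h
      rw [ht, f.injective.extend_apply]
      exact hs.1 _ a.2
    · rw [ht, Function.extend_apply' _ _ _ h]
      exact zero_mem _
  have hsub : (s : Set A) ⊆ Set.range t := by
    intro x hx
    refine ⟨f ⟨x, hx⟩, ?_⟩
    rw [ht, f.injective.extend_apply]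
  refine ⟨t, htm, le_antisymm ?_ ?_⟩
  · -- Nakayama
    have h1 : maximalIdeal A ≤ (Ideal.span (Set.range t) ⊔
        (maximalIdeal 𝒪).map (algebraMap 𝒪 A)) ⊔ maximalIdeal A • maximalIdeal A := by
      refine hs.2.trans ?_
      rw [← sup_assoc, smul_eq_mul, ← pow_two]
      exact sup_le_sup_right (sup_le_sup_right (Ideal.span_mono hsub) _) _
    have hfg : (maximalIdeal A).FG := (isNoetherianRing_iff_ideal_fg A).mp inferInstance _
    have hjac : maximalIdeal A ≤ Ideal.jacobson ⊥ := by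
      rw [IsLocalRing.jacobson_eq_maximalIdeal ⊥ bot_ne_top]
    exact Submodule.le_of_le_smul_of_le_jacobson_bot hfg hjac h1
  · refine sup_le ?_ map_maximalIdeal_le
    rw [Ideal.span_le]
    rintro _ ⟨i, rfl⟩
    exact htm i

end TanAlg

end Fermat.Agent.S53
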