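import Mathlib
import Fermat.Prelude.Def_GaloisRep_DeformationCondition
import Fermat.Agent.S53.IndexSet

/-!
S53, module M5 (Galois side): the number of algebra homs from a test algebra carrying a
normalized lift to the dual numbers is bounded by the size of the tangent space.
-/

set_option autoImplicit false
set_option linter.style.haveILetI false
set_option linter.unusedSectionVars false

noncomputable section

namespace Fermat.Agent.S53

open IsLocalRing GaloisRep

local notation "Γℚ" => (AlgebraicClosure ℚ ≃ₐ[ℚ] AlgebraicClosure ℚ)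
local notation "M₂" => Matrix (Fin 2) (Fin 2)

variable {𝒪 : Type} [CommRing 𝒪] [IsLocalRing 𝒪]

/-- The algebra structure on the dual numbers over the residue field used in
`GaloisRep.TangentFinite`. -/
@[reducible] def dualAlg (𝒪 : Type) [CommRing 𝒪] [IsLocalRing 𝒪] :
    Algebra 𝒪 (DualNumber (ResidueField 𝒪)) :=
  ((algebraMap (ResidueField 𝒪) (DualNumber (ResidueField 𝒪))).comp
    (algebraMap 𝒪 (ResidueField 𝒪))).toAlgebra

/-- The algebra structure on the residue field of the dual numbers used in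
`GaloisRep.TangentFinite`. -/
@[reducible] def dualResAlg (𝒪 : Type) [CommRing 𝒪] [IsLocalRing 𝒪] :
    Algebra (ResidueField 𝒪) (ResidueField (DualNumber (ResidueField 𝒪))) :=
  ((IsLocalRing.residue (DualNumber (ResidueField 𝒪))).comp
    (algebraMap (ResidueField 𝒪) (DualNumber (ResidueField 𝒪)))).toAlgebra

section Dual

attribute [local instance] dualAlg

lemma TanGal.algebraMap_dual (a : 𝒪) :
    algebraMap 𝒪 (DualNumber (ResidueField 𝒪)) a =
      algebraMap (ResidueField 𝒪) (DualNumber (ResidueField 𝒪)) (residue 𝒪 a) := rfl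

theorem TanGal.isLocalHom_algebraMap_dual :
    IsLocalHom (algebraMap 𝒪 (DualNumber (ResidueField 𝒪))) := by
  refine ⟨fun a ha => ?_⟩
  rw [TanGal.algebraMap_dual] at ha
  have h1 : IsUnit (residue 𝒪 a) := (TrivSqZeroExt.isUnit_iff_isUnit_fst).mp ha
  exact (isUnit_map_iff (residue 𝒪) a).mp h1

theorem TanGal.isArtinianRing_dual (k : Type) [Field k] : IsArtinianRing (DualNumber k) := by
  haveI : Module.Finite k (DualNumber k) := inferInstanceAs (Module.Finite k (k × k))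
  exact IsArtinianRing.of_finite k (DualNumber k)

theorem TanGal.inr_mem_maximalIdeal (k : Type) [Field k] (b : k) :
    (TrivSqZeroExt.inr b : DualNumber k) ∈ maximalIdeal (DualNumber k) := by
  rw [IsLocalRing.mem_maximalIdeal, mem_nonunits_iff, TrivSqZeroExt.isUnit_iff_isUnit_fst,
    TrivSqZeroExt.fst_inr]
  exact not_isUnit_zero

theorem TanGal.residue_dual_surjective :
    Function.Surjective (residue (DualNumber (ResidueField 𝒪)) ∘
      algebraMap 𝒪 (DualNumber (ResidueField 𝒪))) := by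
  intro z
  obtain ⟨x, rfl⟩ := residue_surjective z
  obtain ⟨a, ha⟩ := residue_surjective (R := 𝒪) x.fst
  refine ⟨a, ?_⟩
  rw [Function.comp_apply, TanGal.algebraMap_dual, ha, ← sub_eq_zero, ← map_sub,
    residue_eq_zero_iff]
  have h1 : algebraMap (ResidueField 𝒪) (DualNumber (ResidueField 𝒪)) x.fst - x =
      TrivSqZeroExt.inr (-x.snd) := by
    rw [TrivSqZeroExt.algebraMap_eq_inl]
    ext <;> simp
  rw [h1]
  exact TanGal.inr_mem_maximalIdeal _ _

theorem TanGal.isArtinianTestAlgebra_dual :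
    IsArtinianTestAlgebra 𝒪 (DualNumber (ResidueField 𝒪)) :=
  ⟨TanGal.isLocalHom_algebraMap_dual, TanGal.residue_dual_surjective,
    TanGal.isArtinianRing_dual _⟩

end Dual

theorem TanGal.isLocalHom_of_nilpotent {A : Type} [CommRing A] [IsLocalRing A]
    (hn : ∃ n : ℕ, maximalIdeal A ^ n = ⊥) {B : Type} [CommRing B] [Nontrivial B]
    (φ : A →+* B) : IsLocalHom φ := by
  refine ⟨fun x hx => ?_⟩
  by_contra hxu
  obtain ⟨n, hn⟩ := hn
  have h1 : x ^ n ∈ maximalIdeal A ^ n :=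
    Ideal.pow_mem_pow ((IsLocalRing.mem_maximalIdeal x).mpr hxu) n
  rw [hn, Ideal.mem_bot] at h1
  have h2 : IsUnit (φ x ^ n) := hx.pow n
  rw [← map_pow, h1, map_zero] at h2
  exact not_isUnit_zero h2

section Main

attribute [local instance] dualAlg dualResAlg

variable (𝒟 : ∀ ⦃A : Type⦄ [CommRing A] [IsLocalRing A] [Algebra 𝒪 A], GaloisRepAdic A → Prop)
  (ρbar : ResidualGaloisRep (ResidueField 𝒪))

/-- The type of tangent lifts of `GaloisRep.TangentFinite`. -/
abbrev TanGal.TanType : Type 1 :=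
  {ρ : GaloisRepAdic (DualNumber (ResidueField 𝒪)) //
    𝒟 ρ ∧ ρ.residual.IsEquiv (ρbar.baseChange (ResidueField (DualNumber (ResidueField 𝒪))))}

/-- The setoid of `GaloisRep.TangentFinite`. -/
def TanGal.tanSetoid : Setoid (TanGal.TanType 𝒟 ρbar) :=
  ⟨fun ρ ρ' => ρ.1.IsEquiv ρ'.1, ⟨fun ρ => ⟨GaloisRepAdic.Equiv.refl ρ.1⟩,
    fun ⟨e⟩ => ⟨e.symm⟩, fun ⟨e⟩ ⟨e'⟩ => ⟨e.trans e'⟩⟩⟩

lemma TanGal.finite_of_tangentFinite (hfin : TangentFinite 𝒪 ρbar 𝒟) :
    Finite (Quotient (TanGal.tanSetoid 𝒟 ρbar)) := hfin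

attribute [local instance] TanGal.isLocalHom_algebraMap_dual

lemma TanGal.residueFieldMap_dual :
    ResidueField.map (algebraMap 𝒪 (DualNumber (ResidueField 𝒪))) =
      (IsLocalRing.residue (DualNumber (ResidueField 𝒪))).comp
        (algebraMap (ResidueField 𝒪) (DualNumber (ResidueField 𝒪))) := by
  ext x
  obtain ⟨a, rfl⟩ := residue_surjective x
  rw [ResidueField.map_residue]
  rfl

variable {𝒟 ρbar}

section Inj

variable {D : RigidData 𝒪} {A : Type} [CommRing A] [IsLocalRing A] [Algebra 𝒪 A]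
  [IsLocalHom (algebraMap 𝒪 A)]

theorem TanGal.isNormalizedLift_map (hA : IsArtinianTestAlgebra 𝒪 A) {r : Γℚ →* M₂ A}
    (hr : IsNormalizedLift D r) (φ : A →ₐ[𝒪] DualNumber (ResidueField 𝒪)) :
    IsNormalizedLift D (mapMat (φ : A →+* DualNumber (ResidueField 𝒪)) r) :=
  hr.map φ (TanGal.isLocalHom_of_nilpotent
    (maximalIdeal_pow_eq_bot_of_isArtinianTestAlgebra hA) _)

/-- The tangent lift attached to an algebra hom to the dual numbers. -/
def TanGal.toTan (hD : IsDeformationCondition 𝒪 𝒟) (e0 : ρbar.Equiv (ofMatRes D.rbar D.hrbar))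
    (hA : IsArtinianTestAlgebra 𝒪 A) {r : Γℚ →* M₂ A} (hr : IsNormalizedLift D r)
    (hd : 𝒟 (ofMat r hr.cont)) (φ : A →ₐ[𝒪] DualNumber (ResidueField 𝒪)) :
    TanGal.TanType 𝒟 ρbar :=
  ⟨ofMat (mapMat (φ : A →+* DualNumber (ResidueField 𝒪)) r)
      (TanGal.isNormalizedLift_map hA hr φ).cont, by
    have hφ : IsLocalHom (φ : A →+* DualNumber (ResidueField 𝒪)) :=
      TanGal.isLocalHom_of_nilpotent (maximalIdeal_pow_eq_bot_of_isArtinianTestAlgebra hA) _
    constructor
    · exact hD.of_isEquiv TanGal.isArtinianTestAlgebra_dual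
        ⟨ofMatBaseChangeEquiv r hr.cont _ hφ⟩
        (hD.baseChangeAlong hA TanGal.isArtinianTestAlgebra_dual φ hφ hd)
    · obtain ⟨e⟩ := (TanGal.isNormalizedLift_map hA hr φ).residual_isEquiv e0
      exact ⟨e.trans (resBaseChangeAlongCongr ρbar TanGal.residueFieldMap_dual)⟩⟩

theorem TanGal.toTan_injective (hD : IsDeformationCondition 𝒪 𝒟)
    (e0 : ρbar.Equiv (ofMatRes D.rbar D.hrbar))
    (hA : IsArtinianTestAlgebra 𝒪 A) {r : Γℚ →* M₂ A} (hr : IsNormalizedLift D r)
    (hd : 𝒟 (ofMat r hr.cont))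
    (hext : ∀ φ φ' : A →ₐ[𝒪] DualNumber (ResidueField 𝒪),
      (∀ g i j, φ (r g i j) = φ' (r g i j)) → φ = φ') :
    Function.Injective fun φ : A →ₐ[𝒪] DualNumber (ResidueField 𝒪) =>
      (Quotient.mk (TanGal.tanSetoid 𝒟 ρbar) (TanGal.toTan hD e0 hA hr hd φ)) := by
  intro φ φ' h
  have h1 : (TanGal.toTan hD e0 hA hr hd φ).1.IsEquiv (TanGal.toTan hD e0 hA hr hd φ').1 :=
    Quotient.exact h
  have h2 := (TanGal.isNormalizedLift_map hA hr φ).eq_of_isEquiv
    (TanGal.isNormalizedLift_map hA hr φ') h1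
  refine hext φ φ' fun g i j => ?_
  have h3 := congrFun (congrFun (DFunLike.congr_fun h2 g) i) j
  simpa using h3

/-- The size of the tangent space. -/
def TanGal.tanCard (𝒟 : ∀ ⦃A : Type⦄ [CommRing A] [IsLocalRing A] [Algebra 𝒪 A],
    GaloisRepAdic A → Prop) (ρbar : ResidualGaloisRep (ResidueField 𝒪)) : ℕ :=
  Nat.card (Quotient (TanGal.tanSetoid 𝒟 ρbar))

theorem TanGal.card_le (hD : IsDeformationCondition 𝒪 𝒟) (hfin : TangentFinite 𝒪 ρbar 𝒟)
    (e0 : ρbar.Equiv (ofMatRes D.rbar D.hrbar))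
    (hA : IsArtinianTestAlgebra 𝒪 A) {r : Γℚ →* M₂ A} (hr : IsNormalizedLift D r)
    (hd : 𝒟 (ofMat r hr.cont))
    (hext : ∀ φ φ' : A →ₐ[𝒪] DualNumber (ResidueField 𝒪),
      (∀ g i j, φ (r g i j) = φ' (r g i j)) → φ = φ')
    (S : Finset (A →ₐ[𝒪] DualNumber (ResidueField 𝒪))) :
    S.card ≤ TanGal.tanCard 𝒟 ρbar := by
  haveI := TanGal.finite_of_tangentFinite 𝒟 ρbar hfin
  have hinj := TanGal.toTan_injective hD e0 hA hr hd hext
  have h1 : Function.Injective fun φ : S =>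
      (Quotient.mk (TanGal.tanSetoid 𝒟 ρbar) (TanGal.toTan hD e0 hA hr hd φ.1)) :=
    fun φ φ' h => Subtype.ext (hinj h)
  have h2 := Nat.card_le_card_of_injective _ h1
  rw [Nat.card_eq_fintype_card, Fintype.card_coe] at h2
  exact h2

end Inj

section GoodCase

variable {D : RigidData 𝒪} {b : Ideal (BigB 𝒪)}

theorem TanGal.card_le_good (hD : IsDeformationCondition 𝒪 𝒟) (hfin : TangentFinite 𝒪 ρbar 𝒟)
    (e0 : ρbar.Equiv (ofMatRes D.rbar D.hrbar)) (h : Good 𝒟 D b)
    (S : Finset ((BigB 𝒪 ⧸ b) →ₐ[𝒪] DualNumber (ResidueField 𝒪))) :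
    S.card ≤ TanGal.tanCard 𝒟 ρbar := by
  haveI := h.adm.isLocalRing
  haveI := h.adm.isLocalHom
  refine TanGal.card_le hD hfin e0 h.adm.isArtinianTestAlgebra h.isNormalizedLift h.dcond ?_ S
  intro φ φ' hφ
  have h1 : φ.comp (Ideal.Quotient.mkₐ 𝒪 b) = φ'.comp (Ideal.Quotient.mkₐ 𝒪 b) := by
    refine MvPolynomial.algHom_ext fun x => ?_
    obtain ⟨g, i, j⟩ := x
    exact hφ g i j
  refine AlgHom.ext fun x => ?_
  obtain ⟨y, rfl⟩ := Ideal.Quotient.mk_surjective x
  exact DFunLike.congr_fun h1 y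

end GoodCase

end Main

end Fermat.Agent.S53
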